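/-
S55 / 52-JS-LIMIT (helper94), generic part: finite products of representations, common levels,
maps into the smooth part, quotient short exact sequences — all in the vocabulary of
`Profin15.LevelStr` (helper15) and `CS79.Smooth` (helper79).
-/
import Fermat.Agent.S55.CS79.Smooth
import Fermat.Agent.S55.Profin15.Exact

set_option autoImplicit false
set_option linter.style.haveILetI false

universe u

open CategoryTheory

namespace Fermat.Agent.S55.GlobalMod94.Generic

open Fermat.Agent.S55.Profin15 Fermat.Agent.S55.CS79.Smooth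

/-- finitely many levels have a common refinement -/
theorem exists_common_level {G : Type*} [Group G] (𝒰 : LevelStr G) {ι : Type*} [Finite ι]
    (U : ι → Subgroup G) (hU : ∀ i, U i ∈ 𝒰.levels) : ∃ W ∈ 𝒰.levels, ∀ i, W ≤ U i := by
  classical
  haveI := Fintype.ofFinite ι
  have key : ∀ s : Finset ι, ∃ W ∈ 𝒰.levels, ∀ i ∈ s, W ≤ U i := by
    intro s
    induction s using Finset.induction_on with
    | empty =>
      obtain ⟨W, hW⟩ := 𝒰.nonempty
      exact ⟨W, hW, fun i hi => (Finset.notMem_empty i hi).elim⟩
    | insert a s _ ih =>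
      obtain ⟨W, hW, h⟩ := ih
      obtain ⟨W', hW', hle⟩ := 𝒰.directed W hW (U a) (hU a)
      refine ⟨W', hW', fun i hi => ?_⟩
      rcases Finset.mem_insert.1 hi with rfl | hi
      · exact hle.trans inf_le_right
      · exact (hle.trans inf_le_left).trans (h i hi)
  obtain ⟨W, hW, h⟩ := key Finset.univ
  exact ⟨W, hW, fun i => h i (Finset.mem_univ i)⟩

variable {k G : Type u} [CommRing k] [Group G]

section Pi

variable {ι : Type u} (A : ι → Rep.{u} k G)

/-- the product of a family of representations -/
def piRep : Representation k G (∀ i, A i) where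
  toFun g := LinearMap.pi fun i => ((A i).ρ g).comp (LinearMap.proj i)
  map_one' := by
    ext j i
    simp
  map_mul' g h := by
    ext j i
    simp

/-- the product of a family of representations, as an object of `Rep` -/
noncomputable abbrev piObj : Rep.{u} k G := Rep.of (piRep A)

variable {A}

@[simp] lemma piRep_apply (g : G) (j : ∀ i, A i) (i : ι) :
    piRep A g j i = (A i).ρ g (j i) := rfl

lemma piObj_ρ_apply (g : G) (j : ∀ i, A i) (i : ι) :
    ((piObj A).ρ g j) i = (A i).ρ g (j i) := rfl

variable (A)

/-- the projections of the product -/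
noncomputable def piProj (i : ι) : piObj A ⟶ A i :=
  Rep.ofHom ⟨LinearMap.proj i, fun _ => rfl⟩

@[simp] lemma piProj_hom_apply (i : ι) (j : piObj A) : (piProj A i).hom j = j i := rfl

variable {A}

/-- the universal map into the product -/
noncomputable def piLift {M : Rep.{u} k G} (f : ∀ i, M ⟶ A i) : M ⟶ piObj A :=
  Rep.ofHom ⟨LinearMap.pi fun i => (f i).hom.toLinearMap, fun g => by
    ext m i
    exact Rep.hom_comm_apply (f i) g m⟩

@[simp] lemma piLift_hom_apply {M : Rep.{u} k G} (f : ∀ i, M ⟶ A i) (m : M) (i : ι) :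
    (piLift f).hom m i = (f i).hom m := rfl

/-- a finite product of smooth representations is smooth -/
theorem isSmooth_piObj (𝒰 : LevelStr G) [Finite ι] (h : ∀ i, 𝒰.IsSmooth (A i)) :
    𝒰.IsSmooth (piObj A) := by
  intro j
  have h' : ∀ i, ∃ U ∈ 𝒰.levels, ∀ s ∈ U, (A i).ρ s (j i) = j i := fun i => h i (j i)
  choose U hU hfix using h'
  obtain ⟨W, hW, hle⟩ := exists_common_level 𝒰 U hU
  refine ⟨W, hW, fun s hs => ?_⟩
  funext i
  exact hfix i s (hle i hs)

end Pi

section ToSmooth

variable (𝒰 : LevelStr G) {M N : Rep.{u} k G}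

/-- a morphism from a smooth representation lands in the smooth part -/
noncomputable def toSmooth (hM : 𝒰.IsSmooth M) (f : M ⟶ N) : M ⟶ smooth 𝒰 N :=
  Rep.ofHom ⟨(f.hom.toLinearMap).codRestrict (smoothSub 𝒰 N) (fun m => by
      obtain ⟨U, hU, hm⟩ := hM m
      refine ⟨U, hU, fun s hs => ?_⟩
      have := Rep.hom_comm_apply f s m
      show N.ρ s (f.hom m) = f.hom m
      rw [← this, hm s hs]), fun g => by
    ext m
    exact Rep.hom_comm_apply f g m⟩

lemma smoothIncl_toSmooth (hM : 𝒰.IsSmooth M) (f : M ⟶ N) (m : M) :
    smoothIncl 𝒰 N ((toSmooth 𝒰 hM f).hom m) = f.hom m := rfl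

end ToSmooth

section Quot

variable (𝒰 : LevelStr G) {A B : Rep.{u} k G} (f : A ⟶ B)

lemma range_le_comap (g : G) :
    LinearMap.range f.hom.toLinearMap ≤ (LinearMap.range f.hom.toLinearMap).comap (B.ρ g) := by
  rintro _ ⟨a, rfl⟩
  exact ⟨A.ρ g a, Rep.hom_comm_apply f g a⟩

/-- the cokernel of a morphism of representations, as an explicit quotient -/
noncomputable abbrev cokerObj : Rep.{u} k G :=
  Rep.quotient B (LinearMap.range f.hom.toLinearMap) (range_le_comap f)

/-- the projection onto the cokernel -/
noncomputable def cokerπ : B ⟶ cokerObj f :=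
  Rep.mkQ B (LinearMap.range f.hom.toLinearMap) (range_le_comap f)

lemma cokerπ_hom_apply (b : B) :
    (cokerπ f).hom b = Submodule.Quotient.mk (p := LinearMap.range f.hom.toLinearMap) b := rfl

/-- `0 → A → B → B/A → 0` in helper15's raw form -/
theorem shortExact_coker (hf : Function.Injective f.hom) :
    LevelStr.ShortExact (A := A) (B := B) (C := cokerObj f)
      f.hom.toLinearMap (cokerπ f).hom.toLinearMap where
  equivariant_left := LevelStr.isEquivariant_hom f
  equivariant_right := LevelStr.isEquivariant_hom (cokerπ f)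
  injective := hf
  surjective := Submodule.Quotient.mk_surjective _
  exact := by
    intro b
    constructor
    · intro hb
      exact (Submodule.Quotient.mk_eq_zero _).1 hb
    · intro hb
      exact (Submodule.Quotient.mk_eq_zero _).2 hb

end Quot

end Fermat.Agent.S55.GlobalMod94.Generic
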