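/-
S55 / 52-JS-LIMIT (helper94): the `S`-idele module `J_S = ∏_{q ∈ S} JS S q (localUnits q)`
(helper79's limit semilocal modules `CS79.Limit.JS`), the diagonal embedding of `Q_Sˣ ⊇ E_S`
(helper20's `ESRep20.QSxRep`, `ESRep20.ESRep`), and the class module `C'_S := J_S / E_S`, all as
SMOOTH `G_ℚ`-modules for `Profin15.globalLevels S`, with the short exact sequence
`0 → E_S → J_S → C'_S → 0` in helper15's `LevelStr.ShortExact` form.
-/
import Fermat.Agent.S55.GlobalMod94.Generic
import Fermat.Agent.S55.CS79.Limit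
import Fermat.Agent.S55.ESRep20

set_option autoImplicit false
set_option linter.dupNamespace false
set_option linter.style.haveILetI false

open CategoryTheory
open Fermat.Agent.S55.Profin15
open Fermat.Agent.S55.Idele73.Basic
open Fermat.Agent.S55.CS79.Smooth
open Fermat.Agent.S55.GlobalMod94.Generic

namespace Fermat.Agent.S55.GlobalMod94.JS

variable (S : Finset Nat.Primes)

/-- the primes of `S` are prime (Prop-valued instance, needed to state `JSq S q` for `q : ↥S`) -/
instance factPrimeOfMem (q : ↥S) : Fact ((q : Nat.Primes) : ℕ).Prime := ⟨(q : Nat.Primes).2⟩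

/-- the `q`-component of `J_S`: helper79's limit semilocal module with unit coefficients -/
noncomputable abbrev JSq (q : ℕ) [Fact q.Prime] : Rep.{0} ℤ GQ :=
  CS79.Limit.JS S q (localUnits q)

/-- **the `S`-idele module** `J_S = ∏_{q ∈ S} J_{S,q}` as a `G_ℚ`-module -/
noncomputable abbrev JSp : Rep.{0} ℤ GQ :=
  piObj (fun q : ↥S => JSq S ((q : Nat.Primes) : ℕ))

theorem JSp_isSmooth : (globalLevels S).IsSmooth (JSp S) :=
  isSmooth_piObj (globalLevels S) (fun q => CS79.Limit.isSmooth_JS S ((q : Nat.Primes) : ℕ) _)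

/-! ### the diagonal -/

variable {S}
variable (q : ℕ) [Fact q.Prime]

/-- the `q`-component of the diagonal: `u ↦ (x ↦ ι_q (x u))` -/
noncomputable def diagFun (u : Qbarˣ) : GQ → (localUnits q) := fun x =>
  Additive.ofMul (Units.map ((padicEmbedding q : Qbar →ₐ[ℚ] PadicAlgCl q) : Qbar →* PadicAlgCl q)
    (Units.map ((x : Qbar ≃ₐ[ℚ] Qbar) : Qbar →* Qbar) u))

lemma diagFun_val (u : Qbarˣ) (x : GQ) :
    ((Additive.toMul (diagFun q u x) : (PadicAlgCl q)ˣ) : PadicAlgCl q) =
      padicEmbedding q (x (u : Qbar)) := rfl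

lemma diagFun_mul (u v : Qbarˣ) : diagFun q (u * v) = diagFun q u + diagFun q v := by
  funext x
  simp only [diagFun, map_mul, Pi.add_apply]
  rfl

lemma diagFun_one : diagFun q (1 : Qbarˣ) = 0 := by
  funext x
  simp only [diagFun, map_one, Pi.zero_apply]
  rfl

lemma diagFun_equivariant (u : Qbarˣ) (d : Gq q) (x : GQ) :
    diagFun q u (localGaloisToGlobal q d * x) = (localUnits q).ρ d (diagFun q u x) := by
  apply Additive.toMul.injective
  apply Units.ext
  show padicEmbedding q ((localGaloisToGlobal q d * x) (u : Qbar)) =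
    d (padicEmbedding q (x (u : Qbar)))
  rw [AlgEquiv.mul_apply, padicEmbedding_localGaloisToGlobal]

lemma diagFun_smul (u : Qbarˣ) (g x : GQ) :
    diagFun q (Units.map ((g : Qbar ≃ₐ[ℚ] Qbar) : Qbar →* Qbar) u) x = diagFun q u (x * g) := rfl

variable (S)

/-- the diagonal `Q_Sˣ → Coind_{G_q}^{G_ℚ} Ω_qˣ` as an additive map -/
noncomputable def diagBigAdd : (ESRep20.QSxRep S) →+ (CS79.Limit.Jbig q (localUnits q)) where
  toFun u := ⟨diagFun q ((Additive.toMul (show Additive ↥(ESRep20.QSx S) from u) :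
    ↥(ESRep20.QSx S)) : Qbarˣ), fun d x => diagFun_equivariant q _ d x⟩
  map_zero' := by
    apply Subtype.ext
    exact diagFun_one q
  map_add' u v := by
    apply Subtype.ext
    exact diagFun_mul q _ _

/-- the diagonal `Q_Sˣ → Coind_{G_q}^{G_ℚ} Ω_qˣ` as a morphism of `G_ℚ`-modules -/
noncomputable def diagBig : ESRep20.QSxRep S ⟶ CS79.Limit.Jbig q (localUnits q) :=
  Rep.ofHom (ρ := (ESRep20.QSxRep S).ρ) (σ := (CS79.Limit.Jbig q (localUnits q)).ρ)
    { toLinearMap := (diagBigAdd S q).toIntLinearMap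
      isIntertwining' := fun g => LinearMap.ext fun u => Subtype.ext (by
        funext x
        rfl) }

lemma diagBig_apply (u : ESRep20.QSxRep S) (x : GQ) :
    ((diagBig S q).hom u).1 x = diagFun q ((Additive.toMul
      (show Additive ↥(ESRep20.QSx S) from u) : ↥(ESRep20.QSx S)) : Qbarˣ) x := rfl

/-- the `q`-component of the diagonal, into the smooth part -/
noncomputable def diagq : ESRep20.QSxRep S ⟶ JSq S q :=
  toSmooth (globalLevels S) (ESRep20.QSxRep_isSmooth S) (diagBig S q)

lemma diagq_apply (u : ESRep20.QSxRep S) (x : GQ) :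
    (smoothIncl (globalLevels S) _ ((diagq S q).hom u)).1 x = diagFun q ((Additive.toMul
      (show Additive ↥(ESRep20.QSx S) from u) : ↥(ESRep20.QSx S)) : Qbarˣ) x := rfl

/-- **the diagonal** `Q_Sˣ → J_S` -/
noncomputable def diagJ : ESRep20.QSxRep S ⟶ JSp S :=
  piLift (fun q : ↥S => diagq S ((q : Nat.Primes) : ℕ))

lemma diagJ_apply (u : ESRep20.QSxRep S) (q : ↥S) (x : GQ) :
    (smoothIncl (globalLevels S) _ ((diagJ S).hom u q)).1 x =
      diagFun ((q : Nat.Primes) : ℕ) ((Additive.toMul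
        (show Additive ↥(ESRep20.QSx S) from u) : ↥(ESRep20.QSx S)) : Qbarˣ) x := rfl

/-- the diagonal is injective as soon as `S` is nonempty -/
theorem diagJ_injective (hS : S.Nonempty) : Function.Injective (diagJ S).hom := by
  intro u v huv
  obtain ⟨q0, hq0⟩ := hS
  obtain ⟨q, -⟩ : ∃ q : ↥S, True := ⟨⟨q0, hq0⟩, trivial⟩
  have h1 : diagFun ((q : Nat.Primes) : ℕ) ((Additive.toMul
        (show Additive ↥(ESRep20.QSx S) from u) : ↥(ESRep20.QSx S)) : Qbarˣ) 1 =
      diagFun ((q : Nat.Primes) : ℕ) ((Additive.toMul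
        (show Additive ↥(ESRep20.QSx S) from v) : ↥(ESRep20.QSx S)) : Qbarˣ) 1 := by
    rw [← diagJ_apply S u q 1, ← diagJ_apply S v q 1, huv]
  have h2 : padicEmbedding ((q : Nat.Primes) : ℕ)
      ((1 : GQ) ((((Additive.toMul (show Additive ↥(ESRep20.QSx S) from u) :
        ↥(ESRep20.QSx S)) : Qbarˣ)) : Qbar)) =
      padicEmbedding ((q : Nat.Primes) : ℕ)
      ((1 : GQ) ((((Additive.toMul (show Additive ↥(ESRep20.QSx S) from v) :
        ↥(ESRep20.QSx S)) : Qbarˣ)) : Qbar)) := by
    have := congrArg (fun a : (localUnits ((q : Nat.Primes) : ℕ)) =>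
      ((Additive.toMul a : (PadicAlgCl ((q : Nat.Primes) : ℕ))ˣ) :
        PadicAlgCl ((q : Nat.Primes) : ℕ))) h1
    exact this
  have h3 := (padicEmbedding ((q : Nat.Primes) : ℕ)).toRingHom.injective h2
  have h4 : ((((Additive.toMul (show Additive ↥(ESRep20.QSx S) from u) :
        ↥(ESRep20.QSx S)) : Qbarˣ)) : Qbar) =
      ((((Additive.toMul (show Additive ↥(ESRep20.QSx S) from v) :
        ↥(ESRep20.QSx S)) : Qbarˣ)) : Qbar) := by
    simpa using h3
  have h5 : (Additive.toMul (show Additive ↥(ESRep20.QSx S) from u) : ↥(ESRep20.QSx S)) =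
      (Additive.toMul (show Additive ↥(ESRep20.QSx S) from v) : ↥(ESRep20.QSx S)) :=
    Subtype.ext (Units.ext h4)
  exact congrArg Additive.ofMul h5

/-! ### `E_S → J_S` and the class module -/

/-- the diagonal embedding of the `S`-units `E_S → J_S` -/
noncomputable def ιES : ESRep20.ESRep S ⟶ JSp S :=
  ESRep20.incl (hH := ESRep20.ES_galStable) (hH' := ESRep20.QSx_galStable) ESRep20.ES_le_QSx ≫
    diagJ S

lemma ιES_hom_apply (u : ESRep20.ESRep S) :
    (ιES S).hom u = (diagJ S).hom ((ESRep20.incl (hH := ESRep20.ES_galStable)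
      (hH' := ESRep20.QSx_galStable) ESRep20.ES_le_QSx).hom u) := rfl

theorem ιES_injective (hS : S.Nonempty) : Function.Injective (ιES S).hom := by
  intro u v huv
  rw [ιES_hom_apply, ιES_hom_apply] at huv
  exact ESRep20.incl_injective _ (diagJ_injective S hS huv)

/-- **the `S`-idele class module in the limit**, `C'_S := J_S / E_S` -/
noncomputable abbrev CSp : Rep.{0} ℤ GQ := cokerObj (ιES S)

/-- the projection `J_S → C'_S` -/
noncomputable abbrev πCS : JSp S ⟶ CSp S := cokerπ (ιES S)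

/-- **`0 → E_S → J_S → C'_S → 0`** in helper15's raw `ShortExact` form -/
theorem shortExact_ES_JS_CS (hS : S.Nonempty) :
    LevelStr.ShortExact (A := ESRep20.ESRep S) (B := JSp S) (C := CSp S)
      (ιES S).hom.toLinearMap (πCS S).hom.toLinearMap :=
  shortExact_coker (ιES S) (ιES_injective S hS)

theorem CSp_isSmooth (hS : S.Nonempty) : (globalLevels S).IsSmooth (CSp S) :=
  (shortExact_ES_JS_CS S hS).smooth_right (globalLevels S) (JSp_isSmooth S)

/-- the composite `Q_Sˣ → J_S → C'_S` -/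
noncomputable def QSxToCS : ESRep20.QSxRep S ⟶ CSp S := diagJ S ≫ πCS S

end Fermat.Agent.S55.GlobalMod94.JS
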