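/-
S55 / 52-JS-LIMIT (helper94): EXPLICIT Shapiro lemma in degree 2 for `Rep.coind φ A`, `φ : Γ →* G`
an ARBITRARY group homomorphism (not necessarily injective), on Mathlib's low-degree cochains.
Mathlib only.

* `sh₂ φ A f (d₁, d₂) = (f (φ d₁, φ d₂)).1 1`: restriction along `φ` followed by evaluation at `1`;
  it is a chain map (`sh₁_d₀₁`, `sh₂_d₁₂`, `sh₃_d₂₃`), and its values are `φ`-inflated cochains
  (`IsInfl₂`: they only depend on the images under `φ`, and their values are `ker φ`-invariant).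
* for a retraction datum `R : Retr φ` (`exists_retr`): the explicit homotopy
  `sub_proj₂ : f - proj₂ R f = d₁₂ (hom₂ R f)` for 2-cocycles `f`, and
  `proj₂_eq_d₁₂_psi₁ : sh₂ f = d₁₂ b → proj₂ R f = d₁₂ (psi₁ R b hb)` for an inflated `b`.
* **injectivity** `mem_coboundaries₂_of_sh₂`: a 2-cocycle `f` of `coind φ A` with
  `sh₂ f = d₁₂ b`, `b` inflated, is a coboundary.
* **surjectivity** `exists_cocycle_sh₂_eq`: every inflated 2-cocycle `x` of `A` is `sh₂ f` for a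
  2-cocycle `f` (namely `psi₂ R x hx`).
-/
import Mathlib

set_option autoImplicit false

universe u

open groupCohomology

namespace Fermat.Agent.S55.GlobalMod94.ExplicitShapiro

variable {k Γ G : Type u} [CommRing k] [Group Γ] [Group G] (φ : Γ →* G) (A : Rep.{u} k Γ)

lemma coind_ρ_apply (h : G) (m : Rep.coind φ A) (y : G) :
    ((Rep.coind φ A).ρ h m).1 y = m.1 (y * h) := rfl

lemma coind_equivariant (m : Rep.coind φ A) (d : Γ) (y : G) :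
    m.1 (φ d * y) = A.ρ d (m.1 y) := m.2 d y

lemma coind_add_apply (m m' : Rep.coind φ A) (y : G) : (m + m').1 y = m.1 y + m'.1 y := rfl

lemma coind_sub_apply (m m' : Rep.coind φ A) (y : G) : (m - m').1 y = m.1 y - m'.1 y := rfl

/-! ### restriction along `φ` and evaluation at `1` -/

/-- evaluation at `1` -/
def sh₀ : (Rep.coind φ A) →ₗ[k] A where
  toFun m := m.1 1
  map_add' _ _ := rfl
  map_smul' _ _ := rfl

/-- degree 1: `f ↦ (d ↦ f (φ d) 1)` -/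
def sh₁ : (G → Rep.coind φ A) →ₗ[k] (Γ → A) where
  toFun f d := (f (φ d)).1 1
  map_add' _ _ := rfl
  map_smul' _ _ := rfl

/-- degree 2: `f ↦ ((d₁, d₂) ↦ f (φ d₁, φ d₂) 1)` -/
def sh₂ : (G × G → Rep.coind φ A) →ₗ[k] (Γ × Γ → A) where
  toFun f d := (f (φ d.1, φ d.2)).1 1
  map_add' _ _ := rfl
  map_smul' _ _ := rfl

/-- degree 3 -/
def sh₃ : (G × G × G → Rep.coind φ A) →ₗ[k] (Γ × Γ × Γ → A) where
  toFun f d := (f (φ d.1, φ d.2.1, φ d.2.2)).1 1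
  map_add' _ _ := rfl
  map_smul' _ _ := rfl

@[simp] lemma sh₀_apply (m : Rep.coind φ A) : sh₀ φ A m = m.1 1 := rfl
@[simp] lemma sh₁_apply (f : G → Rep.coind φ A) (d : Γ) : sh₁ φ A f d = (f (φ d)).1 1 := rfl
@[simp] lemma sh₂_apply (f : G × G → Rep.coind φ A) (d : Γ × Γ) :
    sh₂ φ A f d = (f (φ d.1, φ d.2)).1 1 := rfl
@[simp] lemma sh₃_apply (f : G × G × G → Rep.coind φ A) (d : Γ × Γ × Γ) :
    sh₃ φ A f d = (f (φ d.1, φ d.2.1, φ d.2.2)).1 1 := rfl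

theorem sh₁_d₀₁ (m : Rep.coind φ A) :
    sh₁ φ A ((d₀₁ (Rep.coind φ A)).hom m) = (d₀₁ A).hom (sh₀ φ A m) := by
  funext d
  rw [sh₁_apply, d₀₁_hom_apply, d₀₁_hom_apply, coind_sub_apply, coind_ρ_apply, sh₀_apply,
    one_mul, ← coind_equivariant, mul_one]

theorem sh₂_d₁₂ (y : G → Rep.coind φ A) :
    sh₂ φ A ((d₁₂ (Rep.coind φ A)).hom y) = (d₁₂ A).hom (sh₁ φ A y) := by
  funext ⟨d₁, d₂⟩
  rw [sh₂_apply, d₁₂_hom_apply, d₁₂_hom_apply, coind_add_apply, coind_sub_apply, coind_ρ_apply]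
  simp only [sh₁_apply, map_mul, one_mul]
  rw [← coind_equivariant, mul_one]

theorem sh₃_d₂₃ (f : G × G → Rep.coind φ A) :
    sh₃ φ A ((d₂₃ (Rep.coind φ A)).hom f) = (d₂₃ A).hom (sh₂ φ A f) := by
  funext ⟨d₁, d₂, d₃⟩
  rw [sh₃_apply, d₂₃_hom_apply, d₂₃_hom_apply, coind_sub_apply, coind_add_apply, coind_sub_apply,
    coind_ρ_apply]
  simp only [sh₂_apply, map_mul, one_mul]
  rw [← coind_equivariant, mul_one]

theorem sh₂_mem_cocycles₂ {f : G × G → Rep.coind φ A} (hf : f ∈ cocycles₂ (Rep.coind φ A)) :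
    sh₂ φ A f ∈ cocycles₂ A := by
  have h : (d₂₃ (Rep.coind φ A)).hom f = 0 := hf
  have h' : (d₂₃ A).hom (sh₂ φ A f) = 0 := by rw [← sh₃_d₂₃, h, map_zero]
  exact h'


/-! ### inflated cochains on `Γ` -/

/-- a 1-cochain of `Γ` is `φ`-inflated: it only depends on the image under `φ` and its values
are `ker φ`-invariant -/
def IsInfl₁ (b : Γ → A) : Prop :=
  (∀ d d' : Γ, φ d = φ d' → b d = b d') ∧ (∀ (n : Γ) (d : Γ), φ n = 1 → A.ρ n (b d) = b d)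

/-- a 2-cochain of `Γ` is `φ`-inflated -/
def IsInfl₂ (x : Γ × Γ → A) : Prop :=
  (∀ d₁ d₂ d₁' d₂' : Γ, φ d₁ = φ d₁' → φ d₂ = φ d₂' → x (d₁, d₂) = x (d₁', d₂')) ∧
    (∀ (n : Γ) (p : Γ × Γ), φ n = 1 → A.ρ n (x p) = x p)

variable {φ A}

theorem isInfl₁_of_injective (hφ : Function.Injective φ) (b : Γ → A) : IsInfl₁ φ A b := by
  refine ⟨fun d d' h => by rw [hφ h], fun n d hn => ?_⟩
  have : n = 1 := hφ (by rw [hn, map_one])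
  rw [this, map_one]
  rfl

theorem isInfl₂_of_injective (hφ : Function.Injective φ) (x : Γ × Γ → A) : IsInfl₂ φ A x := by
  refine ⟨fun d₁ d₂ d₁' d₂' h₁ h₂ => by rw [hφ h₁, hφ h₂], fun n p hn => ?_⟩
  have : n = 1 := hφ (by rw [hn, map_one])
  rw [this, map_one]
  rfl

theorem isInfl₁_sh₁ (f : G → Rep.coind φ A) : IsInfl₁ φ A (sh₁ φ A f) := by
  refine ⟨fun d d' h => ?_, fun n d hn => ?_⟩
  · rw [sh₁_apply, sh₁_apply, h]
  · rw [sh₁_apply, ← coind_equivariant, hn, one_mul]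

theorem isInfl₂_sh₂ (f : G × G → Rep.coind φ A) : IsInfl₂ φ A (sh₂ φ A f) := by
  refine ⟨fun d₁ d₂ d₁' d₂' h₁ h₂ => ?_, fun n p hn => ?_⟩
  · rw [sh₂_apply, sh₂_apply]
    simp only [h₁, h₂]
  · rw [sh₂_apply, ← coind_equivariant, hn, one_mul]

/-- the action of `d` on an invariant vector only depends on `φ d` -/
lemma ρ_congr_of_inv {v : A} (hv : ∀ n : Γ, φ n = 1 → A.ρ n v = v) {d d' : Γ} (h : φ d = φ d') :
    A.ρ d v = A.ρ d' v := by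
  have hn : φ (d'⁻¹ * d) = 1 := by rw [map_mul, map_inv, h, inv_mul_cancel]
  have : d = d' * (d'⁻¹ * d) := by group
  rw [this, map_mul, Module.End.mul_apply, hv _ hn]

/-! ### homogeneous forms -/

variable (φ A)

/-- homogeneous form of a 1-cochain of `Γ`: `(d₀, d₁) ↦ d₀ • b (d₀⁻¹ d₁)` -/
def hgΓ₁ (b : Γ → A) (d₀ d₁ : Γ) : A := A.ρ d₀ (b (d₀⁻¹ * d₁))

/-- homogeneous form of a 2-cochain of `Γ` -/
def hgΓ₂ (x : Γ × Γ → A) (d₀ d₁ d₂ : Γ) : A := A.ρ d₀ (x (d₀⁻¹ * d₁, d₁⁻¹ * d₂))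

/-- homogeneous form of a 2-cochain of `G` with values in `coind φ A` -/
def hg₂ (f : G × G → Rep.coind φ A) (y₀ y₁ y₂ : G) : A := (f (y₀⁻¹ * y₁, y₁⁻¹ * y₂)).1 y₀

variable {φ A}

lemma hgΓ₁_smul (b : Γ → A) (d d₀ d₁ : Γ) :
    hgΓ₁ A b (d * d₀) (d * d₁) = A.ρ d (hgΓ₁ A b d₀ d₁) := by
  have h : (d * d₀)⁻¹ * (d * d₁) = d₀⁻¹ * d₁ := by group
  rw [hgΓ₁, hgΓ₁, h, map_mul, Module.End.mul_apply]

lemma hgΓ₂_smul (x : Γ × Γ → A) (d d₀ d₁ d₂ : Γ) :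
    hgΓ₂ A x (d * d₀) (d * d₁) (d * d₂) = A.ρ d (hgΓ₂ A x d₀ d₁ d₂) := by
  have h : (d * d₀)⁻¹ * (d * d₁) = d₀⁻¹ * d₁ := by group
  have h' : (d * d₁)⁻¹ * (d * d₂) = d₁⁻¹ * d₂ := by group
  rw [hgΓ₂, hgΓ₂, h, h', map_mul, Module.End.mul_apply]

lemma hgΓ₁_congr {b : Γ → A} (hb : IsInfl₁ φ A b) {d₀ d₁ d₀' d₁' : Γ} (h₀ : φ d₀ = φ d₀')
    (h₁ : φ d₁ = φ d₁') : hgΓ₁ A b d₀ d₁ = hgΓ₁ A b d₀' d₁' := by
  have e : b (d₀⁻¹ * d₁) = b (d₀'⁻¹ * d₁') :=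
    hb.1 _ _ (by rw [map_mul, map_mul, map_inv, map_inv, h₀, h₁])
  rw [hgΓ₁, hgΓ₁, e]
  exact ρ_congr_of_inv (fun n hn => hb.2 n _ hn) h₀

lemma hgΓ₂_congr {x : Γ × Γ → A} (hx : IsInfl₂ φ A x) {d₀ d₁ d₂ d₀' d₁' d₂' : Γ}
    (h₀ : φ d₀ = φ d₀') (h₁ : φ d₁ = φ d₁') (h₂ : φ d₂ = φ d₂') :
    hgΓ₂ A x d₀ d₁ d₂ = hgΓ₂ A x d₀' d₁' d₂' := by
  have e : x (d₀⁻¹ * d₁, d₁⁻¹ * d₂) = x (d₀'⁻¹ * d₁', d₁'⁻¹ * d₂') :=
    hx.1 _ _ _ _ (by rw [map_mul, map_mul, map_inv, map_inv, h₀, h₁])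
      (by rw [map_mul, map_mul, map_inv, map_inv, h₁, h₂])
  rw [hgΓ₂, hgΓ₂, e]
  exact ρ_congr_of_inv (fun n hn => hx.2 n _ hn) h₀

lemma hgΓ₂_d₁₂ (b : Γ → A) (d₀ d₁ d₂ : Γ) :
    hgΓ₂ A ((d₁₂ A).hom b) d₀ d₁ d₂ = hgΓ₁ A b d₁ d₂ - hgΓ₁ A b d₀ d₂ + hgΓ₁ A b d₀ d₁ := by
  have h : d₀⁻¹ * d₁ * (d₁⁻¹ * d₂) = d₀⁻¹ * d₂ := by group
  have h' : d₀ * (d₀⁻¹ * d₁) = d₁ := by group
  rw [hgΓ₂, d₁₂_hom_apply]
  simp only [hgΓ₁, map_add, map_sub, h]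
  rw [← Module.End.mul_apply, ← map_mul, h']

lemma hgΓ₂_cocycle {x : Γ × Γ → A} (hx : x ∈ cocycles₂ A) (d₀ d₁ d₂ d₃ : Γ) :
    hgΓ₂ A x d₀ d₂ d₃ + hgΓ₂ A x d₀ d₁ d₂ = hgΓ₂ A x d₁ d₂ d₃ + hgΓ₂ A x d₀ d₁ d₃ := by
  have h := (mem_cocycles₂_iff x).1 hx (d₀⁻¹ * d₁) (d₁⁻¹ * d₂) (d₂⁻¹ * d₃)
  have e₁ : d₀⁻¹ * d₁ * (d₁⁻¹ * d₂) = d₀⁻¹ * d₂ := by group
  have e₂ : d₁⁻¹ * d₂ * (d₂⁻¹ * d₃) = d₁⁻¹ * d₃ := by group
  have e₃ : d₀ * (d₀⁻¹ * d₁) = d₁ := by group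
  rw [e₁, e₂] at h
  have h' := congrArg (A.ρ d₀) h
  rw [map_add, map_add, ← Module.End.mul_apply, ← map_mul, e₃] at h'
  exact h'

lemma hg₂_smul (f : G × G → Rep.coind φ A) (d : Γ) (y₀ y₁ y₂ : G) :
    hg₂ φ A f (φ d * y₀) (φ d * y₁) (φ d * y₂) = A.ρ d (hg₂ φ A f y₀ y₁ y₂) := by
  have h : (φ d * y₀)⁻¹ * (φ d * y₁) = y₀⁻¹ * y₁ := by group
  have h' : (φ d * y₁)⁻¹ * (φ d * y₂) = y₁⁻¹ * y₂ := by group
  rw [hg₂, hg₂, h, h', coind_equivariant]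

lemma apply_eq_hg₂ (f : G × G → Rep.coind φ A) (g₁ g₂ y : G) :
    (f (g₁, g₂)).1 y = hg₂ φ A f y (y * g₁) (y * g₁ * g₂) := by
  have h : y⁻¹ * (y * g₁) = g₁ := by group
  have h' : (y * g₁)⁻¹ * (y * g₁ * g₂) = g₂ := by group
  rw [hg₂, h, h']

lemma hg₂_cocycle {f : G × G → Rep.coind φ A} (hf : f ∈ cocycles₂ (Rep.coind φ A))
    (y₀ y₁ y₂ y₃ : G) :
    hg₂ φ A f y₀ y₂ y₃ + hg₂ φ A f y₀ y₁ y₂ = hg₂ φ A f y₁ y₂ y₃ + hg₂ φ A f y₀ y₁ y₃ := by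
  have h := (mem_cocycles₂_iff f).1 hf (y₀⁻¹ * y₁) (y₁⁻¹ * y₂) (y₂⁻¹ * y₃)
  have e₁ : y₀⁻¹ * y₁ * (y₁⁻¹ * y₂) = y₀⁻¹ * y₂ := by group
  have e₂ : y₁⁻¹ * y₂ * (y₂⁻¹ * y₃) = y₁⁻¹ * y₃ := by group
  have e₃ : y₀ * (y₀⁻¹ * y₁) = y₁ := by group
  rw [e₁, e₂] at h
  have h' : (f (y₀⁻¹ * y₂, y₂⁻¹ * y₃) + f (y₀⁻¹ * y₁, y₁⁻¹ * y₂)).1 y₀ =
      ((Rep.coind φ A).ρ (y₀⁻¹ * y₁) (f (y₁⁻¹ * y₂, y₂⁻¹ * y₃)) +
        f (y₀⁻¹ * y₁, y₁⁻¹ * y₃)).1 y₀ := by rw [h]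
  rw [coind_add_apply, coind_add_apply, coind_ρ_apply, e₃] at h'
  exact h'

/-- the homogeneous form of `f` on the image of `φ` is the homogeneous form of `sh₂ f` -/
lemma hg₂_φ (f : G × G → Rep.coind φ A) (d₀ d₁ d₂ : Γ) :
    hg₂ φ A f (φ d₀) (φ d₁) (φ d₂) = hgΓ₂ A (sh₂ φ A f) d₀ d₁ d₂ := by
  rw [hg₂, hgΓ₂, sh₂_apply, ← coind_equivariant, mul_one]
  simp only [map_mul, map_inv]


/-! ### retraction data -/

variable (φ)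

/-- a retraction datum for `φ : Γ →* G`: a map `r : G → Γ` such that `φ ∘ r` is equivariant for
left multiplication by the image of `φ` and `φ (r 1) = 1` -/
structure Retr where
  /-- the retraction -/
  r : G → Γ
  φr_mul : ∀ (d : Γ) (g : G), φ (r (φ d * g)) = φ d * φ (r g)
  φr_one : φ (r 1) = 1

variable {φ}

namespace Retr

variable (R : Retr φ)

/-- `t = φ ∘ r` -/
def t (g : G) : G := φ (R.r g)

lemma t_def (g : G) : R.t g = φ (R.r g) := rfl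

lemma t_mul (d : Γ) (g : G) : R.t (φ d * g) = φ d * R.t g := R.φr_mul d g

lemma t_one : R.t 1 = 1 := R.φr_one

lemma t_φ (d : Γ) : R.t (φ d) = φ d := by
  have := R.t_mul d 1
  rwa [mul_one, t_one, mul_one] at this

lemma φr_φ (d : Γ) : φ (R.r (φ d)) = φ d := R.t_φ d

end Retr

/-- retraction data exist for every homomorphism -/
theorem exists_retr (φ : Γ →* G) : Nonempty (Retr φ) := by
  classical
  -- representatives of the right cosets `φ.range \ G`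
  let s : G → G := fun g => (Quotient.mk (QuotientGroup.rightRel φ.range) g).out
  have hs : ∀ g, g * (s g)⁻¹ ∈ φ.range := by
    intro g
    have h : (QuotientGroup.rightRel φ.range) (s g) g := Quotient.mk_out (s := QuotientGroup.rightRel φ.range) g
    exact QuotientGroup.rightRel_apply.1 h
  have hsmul : ∀ (d : Γ) (g : G), s (φ d * g) = s g := by
    intro d g
    have : (Quotient.mk (QuotientGroup.rightRel φ.range) (φ d * g)) =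
        Quotient.mk (QuotientGroup.rightRel φ.range) g := by
      apply Quotient.sound
      show (QuotientGroup.rightRel φ.range) (φ d * g) g
      rw [QuotientGroup.rightRel_apply]
      have : g * (φ d * g)⁻¹ = φ d⁻¹ := by rw [map_inv]; group
      rw [this]
      exact ⟨d⁻¹, rfl⟩
    show (Quotient.mk (QuotientGroup.rightRel φ.range) (φ d * g)).out = _
    rw [this]
  -- `t₀ g = g * (s g)⁻¹ ∈ φ.range`, normalised at `1`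
  let t₁ : G → G := fun g => g * (s g)⁻¹ * (1 * (s 1)⁻¹)⁻¹
  have ht₁ : ∀ g, t₁ g ∈ φ.range := fun g => φ.range.mul_mem (hs g) (φ.range.inv_mem (hs 1))
  choose r hr using ht₁
  refine ⟨⟨r, fun d g => ?_, ?_⟩⟩
  · rw [hr, hr]
    show φ d * g * (s (φ d * g))⁻¹ * (1 * (s 1)⁻¹)⁻¹ = φ d * (g * (s g)⁻¹ * (1 * (s 1)⁻¹)⁻¹)
    rw [hsmul]
    group
  · rw [hr]
    show 1 * (s 1)⁻¹ * (1 * (s 1)⁻¹)⁻¹ = 1
    group

/-! ### the homotopy -/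

variable (R : Retr φ)

/-- the projector `psi₂ ∘ sh₂` in homogeneous form:
`(g₁, g₂) ↦ (y ↦ F (t y, t (y g₁), t (y g₁ g₂)))` -/
def proj₂ (f : G × G → Rep.coind φ A) : G × G → Rep.coind φ A := fun g =>
  ⟨fun y => hg₂ φ A f (R.t y) (R.t (y * g.1)) (R.t (y * g.1 * g.2)), fun d y => by
    show hg₂ φ A f (R.t (φ d * y)) (R.t (φ d * y * g.1)) (R.t (φ d * y * g.1 * g.2)) = _
    rw [mul_assoc (φ d) y g.1, mul_assoc (φ d) (y * g.1) g.2, R.t_mul, R.t_mul, R.t_mul, hg₂_smul]⟩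

/-- the homotopy: `g ↦ (y ↦ F (y, y g, t (y g)) - F (y, t y, t (y g)))` -/
def hom₂ (f : G × G → Rep.coind φ A) : G → Rep.coind φ A := fun g =>
  ⟨fun y => hg₂ φ A f y (y * g) (R.t (y * g)) - hg₂ φ A f y (R.t y) (R.t (y * g)), fun d y => by
    show hg₂ φ A f (φ d * y) (φ d * y * g) (R.t (φ d * y * g)) -
      hg₂ φ A f (φ d * y) (R.t (φ d * y)) (R.t (φ d * y * g)) = _
    rw [mul_assoc (φ d) y g, R.t_mul, R.t_mul, hg₂_smul, hg₂_smul, map_sub]⟩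

lemma proj₂_apply (f : G × G → Rep.coind φ A) (g : G × G) (y : G) :
    (proj₂ R f g).1 y = hg₂ φ A f (R.t y) (R.t (y * g.1)) (R.t (y * g.1 * g.2)) := rfl

lemma hom₂_apply (f : G × G → Rep.coind φ A) (g : G) (y : G) :
    (hom₂ R f g).1 y =
      hg₂ φ A f y (y * g) (R.t (y * g)) - hg₂ φ A f y (R.t y) (R.t (y * g)) := rfl

/-- **the explicit homotopy** between the identity and `psi₂ ∘ sh₂` on 2-cocycles -/
theorem sub_proj₂ {f : G × G → Rep.coind φ A} (hf : f ∈ cocycles₂ (Rep.coind φ A)) :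
    f - proj₂ R f = (d₁₂ (Rep.coind φ A)).hom (hom₂ R f) := by
  funext ⟨g₁, g₂⟩
  apply Subtype.ext
  funext y
  show (f (g₁, g₂) - proj₂ R f (g₁, g₂)).1 y = ((d₁₂ (Rep.coind φ A)).hom (hom₂ R f) (g₁, g₂)).1 y
  rw [d₁₂_hom_apply, coind_sub_apply, coind_add_apply, coind_sub_apply, coind_ρ_apply,
    proj₂_apply, hom₂_apply, hom₂_apply, hom₂_apply, apply_eq_hg₂]
  simp only [← mul_assoc]
  have h1 := hg₂_cocycle hf y (R.t y) (R.t (y * g₁)) (R.t (y * g₁ * g₂))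
  have h2 := hg₂_cocycle hf y (y * g₁) (R.t (y * g₁)) (R.t (y * g₁ * g₂))
  have h3 := hg₂_cocycle hf y (y * g₁) (y * g₁ * g₂) (R.t (y * g₁ * g₂))
  generalize hg₂ φ A f y (y * g₁) (y * g₁ * g₂) = a at *
  generalize hg₂ φ A f (R.t y) (R.t (y * g₁)) (R.t (y * g₁ * g₂)) = b at *
  generalize hg₂ φ A f (y * g₁) (y * g₁ * g₂) (R.t (y * g₁ * g₂)) = c at *
  generalize hg₂ φ A f (y * g₁) (R.t (y * g₁)) (R.t (y * g₁ * g₂)) = e at *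
  generalize hg₂ φ A f y (y * g₁ * g₂) (R.t (y * g₁ * g₂)) = c' at *
  generalize hg₂ φ A f y (R.t y) (R.t (y * g₁ * g₂)) = e' at *
  generalize hg₂ φ A f y (y * g₁) (R.t (y * g₁)) = c'' at *
  generalize hg₂ φ A f y (R.t y) (R.t (y * g₁)) = e'' at *
  generalize hg₂ φ A f y (R.t (y * g₁)) (R.t (y * g₁ * g₂)) = m at *
  generalize hg₂ φ A f y (y * g₁) (R.t (y * g₁ * g₂)) = m' at *
  -- h1 : m + e'' = b + e' ; h2 : m + c'' = e + m' ; h3 : c' + a = c + m'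
  have ha : a = c + m' - c' := eq_sub_of_add_eq' h3
  have hb : b = m + e'' - e' := eq_sub_of_add_eq h1.symm
  have hm : m' = m + c'' - e := eq_sub_of_add_eq' h2.symm
  rw [ha, hb, hm]
  abel


/-! ### the inverse maps on inflated cochains -/

/-- `psi₁ b g = (y ↦ r y • b ((r y)⁻¹ r (y g)))`, for an inflated 1-cochain `b` of `Γ` -/
def psi₁ (b : Γ → A) (hb : IsInfl₁ φ A b) : G → Rep.coind φ A := fun g =>
  ⟨fun y => hgΓ₁ A b (R.r y) (R.r (y * g)), fun d y => by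
    show hgΓ₁ A b (R.r (φ d * y)) (R.r (φ d * y * g)) = A.ρ d (hgΓ₁ A b (R.r y) (R.r (y * g)))
    rw [← hgΓ₁_smul]
    refine hgΓ₁_congr hb ?_ ?_
    · rw [R.φr_mul, map_mul]
    · rw [mul_assoc, R.φr_mul, map_mul]⟩

/-- `psi₂ x (g₁, g₂) = (y ↦ r y • x ((r y)⁻¹ r (y g₁), (r (y g₁))⁻¹ r (y g₁ g₂)))`, for an
inflated 2-cochain `x` of `Γ` -/
def psi₂ (x : Γ × Γ → A) (hx : IsInfl₂ φ A x) : G × G → Rep.coind φ A := fun g =>
  ⟨fun y => hgΓ₂ A x (R.r y) (R.r (y * g.1)) (R.r (y * g.1 * g.2)), fun d y => by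
    show hgΓ₂ A x (R.r (φ d * y)) (R.r (φ d * y * g.1)) (R.r (φ d * y * g.1 * g.2)) =
      A.ρ d (hgΓ₂ A x (R.r y) (R.r (y * g.1)) (R.r (y * g.1 * g.2)))
    rw [← hgΓ₂_smul]
    refine hgΓ₂_congr hx ?_ ?_ ?_
    · rw [R.φr_mul, map_mul]
    · rw [mul_assoc, R.φr_mul, map_mul]
    · rw [mul_assoc (φ d) y g.1, mul_assoc (φ d) (y * g.1) g.2, R.φr_mul, map_mul]⟩

lemma psi₁_apply (b : Γ → A) (hb : IsInfl₁ φ A b) (g y : G) :
    (psi₁ R b hb g).1 y = hgΓ₁ A b (R.r y) (R.r (y * g)) := rfl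

lemma psi₂_apply (x : Γ × Γ → A) (hx : IsInfl₂ φ A x) (g : G × G) (y : G) :
    (psi₂ R x hx g).1 y = hgΓ₂ A x (R.r y) (R.r (y * g.1)) (R.r (y * g.1 * g.2)) := rfl

/-- `proj₂ = psi₂ ∘ sh₂` -/
theorem proj₂_eq_psi₂ (f : G × G → Rep.coind φ A) :
    proj₂ R f = psi₂ R (sh₂ φ A f) (isInfl₂_sh₂ f) := by
  funext g
  apply Subtype.ext
  funext y
  rw [proj₂_apply, psi₂_apply, R.t_def, R.t_def, R.t_def, hg₂_φ]

/-- `psi₂ ∘ d₁₂ = d₁₂ ∘ psi₁` -/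
theorem psi₂_d₁₂ (b : Γ → A) (hb : IsInfl₁ φ A b) (hx : IsInfl₂ φ A ((d₁₂ A).hom b)) :
    psi₂ R ((d₁₂ A).hom b) hx = (d₁₂ (Rep.coind φ A)).hom (psi₁ R b hb) := by
  funext ⟨g₁, g₂⟩
  apply Subtype.ext
  funext y
  show (psi₂ R ((d₁₂ A).hom b) hx (g₁, g₂)).1 y =
    ((d₁₂ (Rep.coind φ A)).hom (psi₁ R b hb) (g₁, g₂)).1 y
  rw [d₁₂_hom_apply, coind_add_apply, coind_sub_apply, coind_ρ_apply, psi₂_apply, psi₁_apply,
    psi₁_apply, psi₁_apply, hgΓ₂_d₁₂]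
  simp only [← mul_assoc]

/-- if `sh₂ f = d₁₂ b` with `b` inflated then `proj₂ f = d₁₂ (psi₁ b)` -/
theorem proj₂_eq_d₁₂_psi₁ {f : G × G → Rep.coind φ A} {b : Γ → A} (hb : IsInfl₁ φ A b)
    (h : sh₂ φ A f = (d₁₂ A).hom b) :
    proj₂ R f = (d₁₂ (Rep.coind φ A)).hom (psi₁ R b hb) := by
  rw [proj₂_eq_psi₂, ← psi₂_d₁₂ R b hb (by rw [← h]; exact isInfl₂_sh₂ f)]
  congr 1

/-- **explicit Shapiro, injectivity in degree 2 (with the explicit primitive)**: a 2-cocycle `f`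
of `coind φ A` whose restriction `sh₂ f` is the coboundary of an inflated 1-cochain `b` is the
coboundary of `psi₁ b + hom₂ f`. -/
theorem eq_d₁₂_of_sh₂ {f : G × G → Rep.coind φ A} (hf : f ∈ cocycles₂ (Rep.coind φ A))
    {b : Γ → A} (hb : IsInfl₁ φ A b) (h : sh₂ φ A f = (d₁₂ A).hom b) :
    f = (d₁₂ (Rep.coind φ A)).hom (psi₁ R b hb + hom₂ R f) := by
  rw [map_add, ← sub_proj₂ R hf, ← proj₂_eq_d₁₂_psi₁ R hb h]
  abel

/-- **explicit Shapiro, injectivity in degree 2** -/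
theorem mem_coboundaries₂_of_sh₂ {f : G × G → Rep.coind φ A} (hf : f ∈ cocycles₂ (Rep.coind φ A))
    {b : Γ → A} (hb : IsInfl₁ φ A b) (h : sh₂ φ A f = (d₁₂ A).hom b) :
    f ∈ coboundaries₂ (Rep.coind φ A) := by
  obtain ⟨R⟩ := exists_retr φ
  exact ⟨psi₁ R b hb + hom₂ R f, (eq_d₁₂_of_sh₂ R hf hb h).symm⟩

/-- conversely the restriction of a coboundary is the coboundary of an inflated cochain -/
theorem sh₂_of_mem_coboundaries₂ {f : G × G → Rep.coind φ A}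
    (hf : f ∈ coboundaries₂ (Rep.coind φ A)) :
    ∃ b : Γ → A, IsInfl₁ φ A b ∧ sh₂ φ A f = (d₁₂ A).hom b := by
  obtain ⟨y, rfl⟩ := hf
  exact ⟨sh₁ φ A y, isInfl₁_sh₁ y, sh₂_d₁₂ φ A y⟩

/-- **criterion**: a 2-cocycle of `coind φ A` is a coboundary iff its restriction is the
coboundary of an inflated 1-cochain -/
theorem mem_coboundaries₂_iff {f : G × G → Rep.coind φ A} (hf : f ∈ cocycles₂ (Rep.coind φ A)) :
    f ∈ coboundaries₂ (Rep.coind φ A) ↔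
      ∃ b : Γ → A, IsInfl₁ φ A b ∧ sh₂ φ A f = (d₁₂ A).hom b :=
  ⟨sh₂_of_mem_coboundaries₂, fun ⟨_, hb, h⟩ => mem_coboundaries₂_of_sh₂ hf hb h⟩

/-- `psi₂ x` is a cocycle if `x` is -/
theorem psi₂_mem_cocycles₂ {x : Γ × Γ → A} (hx : IsInfl₂ φ A x) (hc : x ∈ cocycles₂ A) :
    psi₂ R x hx ∈ cocycles₂ (Rep.coind φ A) := by
  rw [mem_cocycles₂_iff]
  intro g h j
  apply Subtype.ext
  funext y
  show (psi₂ R x hx (g * h, j) + psi₂ R x hx (g, h)).1 y =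
    ((Rep.coind φ A).ρ g (psi₂ R x hx (h, j)) + psi₂ R x hx (g, h * j)).1 y
  rw [coind_add_apply, coind_add_apply, coind_ρ_apply, psi₂_apply, psi₂_apply, psi₂_apply,
    psi₂_apply]
  simp only [← mul_assoc]
  exact hgΓ₂_cocycle hc _ _ _ _

/-- `sh₂ ∘ psi₂ = id` -/
theorem sh₂_psi₂ (x : Γ × Γ → A) (hx : IsInfl₂ φ A x) : sh₂ φ A (psi₂ R x hx) = x := by
  funext ⟨d₁, d₂⟩
  rw [sh₂_apply, psi₂_apply]
  have e : hgΓ₂ A x (R.r 1) (R.r (1 * φ d₁)) (R.r (1 * φ d₁ * φ d₂)) = hgΓ₂ A x 1 d₁ (d₁ * d₂) :=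
    hgΓ₂_congr hx (by rw [R.φr_one, map_one]) (by rw [one_mul, R.φr_φ])
      (by rw [one_mul, ← map_mul, R.φr_φ])
  rw [e, hgΓ₂]
  simp

/-- **explicit Shapiro, surjectivity in degree 2** -/
theorem exists_cocycle_sh₂_eq {x : Γ × Γ → A} (hx : IsInfl₂ φ A x) (hc : x ∈ cocycles₂ A) :
    ∃ f ∈ cocycles₂ (Rep.coind φ A), sh₂ φ A f = x := by
  obtain ⟨R⟩ := exists_retr φ
  exact ⟨psi₂ R x hx, psi₂_mem_cocycles₂ R hx hc, sh₂_psi₂ R x hx⟩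

end Fermat.Agent.S55.GlobalMod94.ExplicitShapiro
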