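/-
S55 / 52-JS-LIMIT (helper94): the formal half of `hsurj` in the limit.

For a level structure `𝒰` on `Γ`, `φ : H →* Γ`, `A : Rep k H` and the limit module
`J = smooth 𝒰 (Rep.coind φ A)` (helper64's `JSH2_64.Limit.J`): every 2-cocycle `ξ` of `H` in `A`
which is INFLATED FROM A LEVEL `W` of `Γ` (`IsInfl₂ ((QuotientGroup.mk' W).comp φ) A ξ`: it only
depends on the classes of `φ d` mod `W`, and its values are fixed by `φ⁻¹ W`) is the localisation
`locFun c` of a level 2-cocycle `c` of `J` (explicit Shapiro `psi₂` at the finite level `Γ ⧸ W`,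
pulled back by helper79's `smoothLift`/`coindInfl`).
-/
import Fermat.Agent.S55.GlobalMod94.ExplicitShapiro
import Fermat.Agent.S55.JSH2_64.Limit

set_option autoImplicit false
set_option linter.style.haveILetI false

universe u

open CategoryTheory groupCohomology

namespace Fermat.Agent.S55.GlobalMod94.LocSurj

open Fermat.Agent.S55.Profin15 Fermat.Agent.S55.Profin15.LevelStr
open Fermat.Agent.S55.CS79.InvDescent Fermat.Agent.S55.CS79.CoindInv
open Fermat.Agent.S55.CS79.FinLevel Fermat.Agent.S55.CS79.Smooth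
open Fermat.Agent.S55.GlobalMod94.ExplicitShapiro Fermat.Agent.S55.JSH2_64

variable {k Γ H : Type u} [CommRing k] [Group Γ] [Group H]
  (𝒰 : LevelStr Γ) (φ : H →* Γ) (A : Rep.{u} k H)

/-- **formal `hsurj` in the limit**: a 2-cocycle of `H` in `A` inflated from a level `W` of `Γ`
is the localisation of a level 2-cocycle of the limit module `J = smooth 𝒰 (coind φ A)`. -/
theorem exists_Z₂_locFun_eq {W : Subgroup Γ} (hW : W ∈ 𝒰.levels) [hWn : W.Normal]
    {ξ : H × H → A} (hξc : ξ ∈ cocycles₂ A)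
    (hξ : IsInfl₂ ((QuotientGroup.mk' W).comp φ) A ξ) :
    ∃ c : Γ × Γ → Limit.J 𝒰 φ A, c ∈ 𝒰.Z₂ (Limit.J 𝒰 φ A) ∧ Limit.locFun 𝒰 φ A c = ξ := by
  have hπ : Function.Surjective (QuotientGroup.mk' W) := QuotientGroup.mk'_surjective W
  have hker : W ≤ (QuotientGroup.mk' W).ker := by rw [QuotientGroup.ker_mk']
  have hker' : (QuotientGroup.mk' W).ker ≤ W := by rw [QuotientGroup.ker_mk']
  have hdesc := isInvDescent_smoothLift (𝒰 := 𝒰)
    (isInvDescent_coind φ (QuotientGroup.mk' W) A hπ) hW hker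
  obtain ⟨R⟩ := exists_retr ((QuotientGroup.mk' W).comp φ)
  refine ⟨pull₂ (QuotientGroup.mk' W) (smoothLift (𝒰 := 𝒰)
    (isInvDescent_coind φ (QuotientGroup.mk' W) A hπ) hW hker) (psi₂ R ξ hξ), ?_, ?_⟩
  · rw [mem_Z₂_iff]
    refine ⟨?_, isConst₂_pull₂ hW hker _⟩
    rw [hdesc.pull₂_mem_cocycles₂_iff hπ]
    exact psi₂_mem_cocycles₂ R hξ hξc
  · have h := sh₂_psi₂ R ξ hξ
    funext t
    have ht := congrFun h t
    rw [sh₂_apply] at ht
    rw [← ht]
    rfl

end Fermat.Agent.S55.GlobalMod94.LocSurj
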