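/-
S55 / 52-JS-LIMIT (helper94): level cohomology of a FINITE PRODUCT of representations, in
helper15's `Profin15.LevelStr` vocabulary.  The product is given abstractly: a representation `M`
with equivariant "projections" `pr i : M →ₗ A i` such that `m ↦ (pr i m)_i` is bijective
(e.g. `M = piObj A`, or `M = Rep.res f (piObj A)` with `A i` replaced by `Rep.res f (A i)`).

* `H1_eq_zero_of_pr`   : a class of `H¹(M)` all of whose components vanish is zero;
* `H2_eq_zero_of_pr`   : the same in degree 2 (joint injectivity of the projections on `H²`);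
* `exists_H2_pr_eq`    : joint surjectivity on `H²`.
-/
import Fermat.Agent.S55.GlobalMod94.Generic
import Fermat.Agent.S55.Profin15.Functor

set_option autoImplicit false
set_option linter.style.haveILetI false

universe u

open CategoryTheory groupCohomology

namespace Fermat.Agent.S55.GlobalMod94.PiCoh

open Fermat.Agent.S55.Profin15 Fermat.Agent.S55.Profin15.LevelStr
open Fermat.Agent.S55.GlobalMod94.Generic

variable {k G : Type u} [CommRing k] [Group G] (𝒰 : LevelStr G)
variable {ι : Type*} {M : Rep.{u} k G} {A : ι → Rep.{u} k G}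
variable (pr : ∀ i, M →ₗ[k] A i) (hpr : ∀ i, IsEquivariant (pr i))
variable (hbij : Function.Bijective (fun (m : M) (i : ι) => pr i m))

include hbij in
lemma pr_ext {m m' : M} (h : ∀ i, pr i m = pr i m') : m = m' :=
  hbij.1 (funext h)

include hbij in
lemma exists_pr_eq (a : ∀ i, A i) : ∃ m : M, ∀ i, pr i m = a i := by
  obtain ⟨m, hm⟩ := hbij.2 a
  exact ⟨m, fun i => congrFun hm i⟩

include hpr hbij in
/-- a class of `H¹(M)` all of whose components vanish is zero -/
theorem H1_eq_zero_of_pr (x : 𝒰.H1 M) (h : ∀ i, 𝒰.H1map (pr i) (hpr i) x = 0) : x = 0 := by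
  obtain ⟨z, rfl⟩ := Submodule.mkQ_surjective _ x
  have h' : ∀ i, ∃ a : A i, (d₀₁ (A i)).hom a = comp₁ (pr i) (z : G → M) := by
    intro i
    have hi := h i
    rw [Submodule.mkQ_apply] at hi
    have hi' : 𝒰.H1π (A i) (𝒰.Z₁map (pr i) (hpr i) z) = 0 := hi
    rw [LevelStr.H1π_eq_zero_iff] at hi'
    obtain ⟨a, ha⟩ := hi'
    exact ⟨a, ha⟩
  choose a ha using h'
  obtain ⟨m, hm⟩ := exists_pr_eq pr hbij a
  rw [Submodule.mkQ_apply]
  show 𝒰.H1π M z = 0
  rw [LevelStr.H1π_eq_zero_iff]
  refine ⟨m, ?_⟩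
  funext g
  apply pr_ext pr hbij
  intro i
  have h1 := congrFun (ha i) g
  rw [d₀₁_hom_apply, comp₁_apply] at h1
  rw [d₀₁_hom_apply, map_sub, hpr i g m, hm i]
  exact h1

include hpr hbij in
/-- if all factors have vanishing `H¹` then so has the product -/
theorem H1_eq_zero_of_factors (h : ∀ i, ∀ y : 𝒰.H1 (A i), y = 0) (x : 𝒰.H1 M) : x = 0 :=
  H1_eq_zero_of_pr 𝒰 pr hpr hbij x (fun i => h i _)

include hpr hbij in
/-- **joint injectivity on `H²`**: a class of `H²(M)` all of whose components vanish is zero -/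
theorem H2_eq_zero_of_pr [Finite ι] (x : 𝒰.H2 M)
    (h : ∀ i, 𝒰.H2map (pr i) (hpr i) x = 0) : x = 0 := by
  obtain ⟨z, rfl⟩ := Submodule.mkQ_surjective _ x
  have h' : ∀ i, ∃ y : G → A i, 𝒰.IsConst₁ y ∧
      (d₁₂ (A i)).hom y = comp₂ (pr i) (z : G × G → M) := by
    intro i
    have hi := h i
    rw [Submodule.mkQ_apply] at hi
    have hi' : 𝒰.H2π (A i) (𝒰.Z₂map (pr i) (hpr i) z) = 0 := hi
    rw [LevelStr.H2π_eq_zero_iff, mem_B₂_iff] at hi'
    exact hi'
  choose y hyc hy using h'
  -- assemble the primitive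
  have hm : ∀ g : G, ∃ m : M, ∀ i, pr i m = y i g := fun g =>
    exists_pr_eq pr hbij (fun i => y i g)
  choose Y hY using hm
  rw [Submodule.mkQ_apply]
  show 𝒰.H2π M z = 0
  rw [LevelStr.H2π_eq_zero_iff, mem_B₂_iff]
  refine ⟨Y, ?_, ?_⟩
  · choose U hU hconst using hyc
    obtain ⟨W, hW, hle⟩ := exists_common_level 𝒰 U hU
    refine ⟨W, hW, fun g s hs => ?_⟩
    apply pr_ext pr hbij
    intro i
    rw [hY, hY]
    exact hconst i g s (hle i hs)
  · funext p
    apply pr_ext pr hbij
    intro i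
    have h1 := congrFun (hy i) p
    rw [d₁₂_hom_apply, comp₂_apply] at h1
    rw [d₁₂_hom_apply, map_add, map_sub, hpr i p.1, hY, hY, hY]
    exact h1

include hpr hbij in
/-- **joint surjectivity on `H²`** -/
theorem exists_H2_pr_eq [Finite ι] (x : ∀ i, 𝒰.H2 (A i)) :
    ∃ y : 𝒰.H2 M, ∀ i, 𝒰.H2map (pr i) (hpr i) y = x i := by
  have h' : ∀ i, ∃ z : ↥(𝒰.Z₂ (A i)), 𝒰.H2π (A i) z = x i := fun i =>
    Submodule.mkQ_surjective _ (x i)
  choose z hz using h'
  have hm : ∀ p : G × G, ∃ m : M, ∀ i, pr i m = (z i : G × G → A i) p := fun p =>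
    exists_pr_eq pr hbij (fun i => (z i : G × G → A i) p)
  choose Z hZ using hm
  have hZmem : Z ∈ 𝒰.Z₂ M := by
    rw [mem_Z₂_iff]
    constructor
    · rw [mem_cocycles₂_iff]
      intro g h j
      apply pr_ext pr hbij
      intro i
      have hc := (mem_cocycles₂_iff (z i : G × G → A i)).1 ((𝒰.mem_Z₂_iff (A i) _).1 (z i).2).1 g h j
      rw [map_add, map_add, hpr i g, hZ, hZ, hZ, hZ]
      exact hc
    · have hc : ∀ i, 𝒰.IsConst₂ (z i : G × G → A i) := fun i => ((𝒰.mem_Z₂_iff (A i) _).1 (z i).2).2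
      choose U hU hconst using hc
      obtain ⟨W, hW, hle⟩ := exists_common_level 𝒰 U hU
      refine ⟨W, hW, fun g g' s s' hs hs' => ?_⟩
      apply pr_ext pr hbij
      intro i
      rw [hZ, hZ]
      exact hconst i g g' s s' (hle i hs) (hle i hs')
  refine ⟨𝒰.H2π M ⟨Z, hZmem⟩, fun i => ?_⟩
  rw [H2map_H2π, ← hz i]
  congr 1
  apply Subtype.ext
  funext p
  exact hZ p i

/-! ### the instance `M = piObj A` -/

section piObj

variable {ι' : Type u} (B : ι' → Rep.{u} k G)

lemma isEquivariant_piProj (i : ι') :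
    IsEquivariant (A := piObj B) (B := B i) (piProj B i).hom.toLinearMap :=
  isEquivariant_hom (piProj B i)

lemma bijective_piProj :
    Function.Bijective (fun (m : piObj B) (i : ι') => (piProj B i).hom.toLinearMap m) :=
  Function.bijective_id

end piObj

end Fermat.Agent.S55.GlobalMod94.PiCoh
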