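/-
S55 / 52-JS-LIMIT (helper94): MACKEY DECOMPOSITION IN THE LIMIT.

`(Γ, 𝒰)` a group with a level structure, `φ : H →* Γ`, `A : Rep k H`,
`J = smooth 𝒰 (Rep.coind φ A)` (helper64's `JSH2_64.Limit.J`), `V ≤ Γ` an OPEN subgroup
(`CD3.IsOpenSub 𝒰 V`) with the restricted level structure `𝒰V = CD3.restrictLevels 𝒰 V hV`.
For `x : Γ` let `H_x = Mackey.twSub φ V x`, `φ_x = Mackey.twHom φ V x : H_x →* V` (helper73) and
`Jx x = smooth 𝒰V (Rep.coind φ_x (Res_{H_x} A))`, again a limit module of the same kind, for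
`(↥V, 𝒰V, φ_x)`.  Then, for a finite system `R` of representatives of `φ(H) \ Γ / V`,

  `Res_V J  ≅  ∏_{x ∈ R} Jx x`     via     `prx x : f ↦ (v ↦ f (x v))`

(`prx_equivariant`, `prx_bijective`).  Hence (by `PiCoh`) every statement about the level
cohomology of `Res_V J` reduces to the components `Jx x`, to which the `V = Γ` theorems
(`JSH2_64.Limit.loc₂_injective`, `LocSurj.exists_Z₂_locFun_eq`) apply verbatim:
`H2_res_eq_zero_of_prx`, `exists_H2_res_prx_eq`.
-/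
import Fermat.Agent.S55.GlobalMod94.LocSurj
import Fermat.Agent.S55.GlobalMod94.PiCoh
import Fermat.Agent.S55.Idele73.Mackey
import Fermat.Agent.S55.CD3.Restrict

set_option autoImplicit false
set_option linter.style.haveILetI false

open CategoryTheory groupCohomology

namespace Fermat.Agent.S55.GlobalMod94.LimitMackey

open Fermat.Agent.S55.Profin15 Fermat.Agent.S55.Profin15.LevelStr
open Fermat.Agent.S55.CD3 Fermat.Agent.S55.CS79.Smooth Fermat.Agent.S55.Idele73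
open Fermat.Agent.S55.JSH2_64

variable {k : Type} [CommRing k] {Γ H : Type} [Group Γ] [Group H]
  (𝒰 : LevelStr Γ) (φ : H →* Γ) (A : Rep.{0} k H)
  (V : Subgroup Γ) (hV : IsOpenSub 𝒰 V)

/-- the coefficient module of the `x`-component -/
noncomputable abbrev Ax (x : Γ) : Rep.{0} k (Mackey.twSub φ V x) :=
  Rep.res (Mackey.twSub φ V x).subtype A

/-- the `x`-component of `Res_V J`: the limit module for `(↥V, 𝒰V, φ_x)` -/
noncomputable abbrev Jx (x : Γ) : Rep.{0} k ↥V :=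
  Limit.J (restrictLevels 𝒰 V hV) (Mackey.twHom φ V x) (Ax φ A V x)

/-- the restriction of the limit module to `V` -/
noncomputable abbrev resJ : Rep.{0} k ↥V := Rep.res V.subtype (Limit.J 𝒰 φ A)

lemma toComp_smooth (x : Γ) (m : resJ 𝒰 φ A V) :
    (Mackey.toComp φ A V x).hom (smoothIncl 𝒰 (Rep.coind φ A) m) ∈
      smoothSub (restrictLevels 𝒰 V hV) (Mackey.comp φ A V x) := by
  obtain ⟨U, hU, hm⟩ := m.2
  obtain ⟨U₀, hU₀, hle₀⟩ := hV
  obtain ⟨W, hW, hle⟩ := 𝒰.directed U hU U₀ hU₀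
  refine ⟨W.subgroupOf V, ⟨W, hW, (hle.trans inf_le_right).trans hle₀, rfl⟩, fun s hs => ?_⟩
  rw [Subgroup.mem_subgroupOf] at hs
  have h1 := Rep.hom_comm_apply (Mackey.toComp φ A V x) s (smoothIncl 𝒰 (Rep.coind φ A) m)
  rw [← h1]
  congr 1
  exact hm (s : Γ) (hle.trans inf_le_left hs)

/-- the projection of `Res_V J` onto its `x`-component: `f ↦ (v ↦ f (x v))` -/
noncomputable def prx (x : Γ) : (resJ 𝒰 φ A V) →ₗ[k] (Jx 𝒰 φ A V hV x) where
  toFun m := ⟨(Mackey.toComp φ A V x).hom (smoothIncl 𝒰 (Rep.coind φ A) m),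
    toComp_smooth 𝒰 φ A V hV x m⟩
  map_add' m m' := by
    apply Subtype.ext
    exact map_add (Mackey.toComp φ A V x).hom.toLinearMap _ _
  map_smul' c m := by
    apply Subtype.ext
    exact map_smul (Mackey.toComp φ A V x).hom.toLinearMap c _

lemma prx_apply (x : Γ) (m : resJ 𝒰 φ A V) (v : ↥V) :
    (smoothIncl (restrictLevels 𝒰 V hV) (Mackey.comp φ A V x) (prx 𝒰 φ A V hV x m)).1 v =
      (smoothIncl 𝒰 (Rep.coind φ A) m).1 (x * (v : Γ)) := rfl

theorem prx_equivariant (x : Γ) :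
    IsEquivariant (A := resJ 𝒰 φ A V) (B := Jx 𝒰 φ A V hV x) (prx 𝒰 φ A V hV x) := by
  intro g m
  apply Subtype.ext
  exact Rep.hom_comm_apply (Mackey.toComp φ A V x) g (smoothIncl 𝒰 (Rep.coind φ A) m)

lemma fromComp_smooth (x : Γ) (j : Jx 𝒰 φ A V hV x) :
    (Mackey.fromComp φ A V x).hom
      (smoothIncl (restrictLevels 𝒰 V hV) (Mackey.comp φ A V x) j) ∈
      smoothSub 𝒰 (Rep.coind φ A) := by
  obtain ⟨U', ⟨U, hU, hUV, rfl⟩, hj⟩ := j.2
  refine ⟨U, hU, fun s hs => ?_⟩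
  have hsV : s ∈ V := hUV hs
  have h1 := Rep.hom_comm_apply (Mackey.fromComp φ A V x) (⟨s, hsV⟩ : ↥V)
    (smoothIncl (restrictLevels 𝒰 V hV) (Mackey.comp φ A V x) j)
  have h2 : (Mackey.comp φ A V x).ρ (⟨s, hsV⟩ : ↥V)
      (smoothIncl (restrictLevels 𝒰 V hV) (Mackey.comp φ A V x) j) =
      smoothIncl (restrictLevels 𝒰 V hV) (Mackey.comp φ A V x) j :=
    hj ⟨s, hsV⟩ (Subgroup.mem_subgroupOf.2 hs)
  rw [h2] at h1
  exact h1.symm

variable {φ V} in
/-- **Mackey decomposition of the limit module**: `Res_V J ≅ ∏_{x ∈ R} Jx x` -/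
theorem prx_bijective {R : Finset Γ} (hR : Mackey.IsRepr φ V R) :
    Function.Bijective (fun (m : resJ 𝒰 φ A V) (x : ↥R) => prx 𝒰 φ A V hV (x : Γ) m) := by
  classical
  constructor
  · intro m m' h
    apply Subtype.ext
    have key : ∀ f : Mackey.resCoind φ A V,
        f = ∑ x ∈ R, (Mackey.toComp φ A V x ≫ Mackey.fromComp φ A V x).hom f := by
      intro f
      have h3 := congrArg (fun g : Mackey.resCoind φ A V ⟶ Mackey.resCoind φ A V => g.hom f)
        (Mackey.sum_toComp_fromComp φ A V hR)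
      simp only [Rep.sum_hom, Representation.IntertwiningMap.sum_apply] at h3
      exact h3.symm
    have e1 := key (smoothIncl 𝒰 (Rep.coind φ A) m)
    have e2 := key (smoothIncl 𝒰 (Rep.coind φ A) m')
    show smoothIncl 𝒰 (Rep.coind φ A) m = smoothIncl 𝒰 (Rep.coind φ A) m'
    rw [e1, e2]
    refine Finset.sum_congr rfl (fun x hx => ?_)
    have hx' := congrArg Subtype.val (congrFun h ⟨x, hx⟩)
    show (Mackey.fromComp φ A V x).hom ((Mackey.toComp φ A V x).hom _) =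
      (Mackey.fromComp φ A V x).hom ((Mackey.toComp φ A V x).hom _)
    exact congrArg (Mackey.fromComp φ A V x).hom hx'
  · intro j
    -- the preimage: the sum of the extensions by zero
    let f : Mackey.resCoind φ A V := ∑ x : ↥R, (Mackey.fromComp φ A V (x : Γ)).hom
      (smoothIncl (restrictLevels 𝒰 V hV) (Mackey.comp φ A V (x : Γ)) (j x))
    have hf : f ∈ smoothSub 𝒰 (Rep.coind φ A) :=
      Submodule.sum_mem _ (fun x _ => fromComp_smooth 𝒰 φ A V hV (x : Γ) (j x))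
    refine ⟨⟨f, hf⟩, ?_⟩
    funext x'
    apply Subtype.ext
    show (Mackey.toComp φ A V (x' : Γ)).hom f = _
    show (Mackey.toComp φ A V (x' : Γ)).hom (∑ x : ↥R, (Mackey.fromComp φ A V (x : Γ)).hom
      (smoothIncl (restrictLevels 𝒰 V hV) (Mackey.comp φ A V (x : Γ)) (j x))) = _
    have hlin : (Mackey.toComp φ A V (x' : Γ)).hom (∑ x : ↥R, (Mackey.fromComp φ A V (x : Γ)).hom
        (smoothIncl (restrictLevels 𝒰 V hV) (Mackey.comp φ A V (x : Γ)) (j x))) =
        ∑ x : ↥R, (Mackey.toComp φ A V (x' : Γ)).hom ((Mackey.fromComp φ A V (x : Γ)).hom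
        (smoothIncl (restrictLevels 𝒰 V hV) (Mackey.comp φ A V (x : Γ)) (j x))) :=
      map_sum (Mackey.toComp φ A V (x' : Γ)).hom.toLinearMap _ _
    rw [hlin, Finset.sum_eq_single x']
    · have h1 := congrArg (fun g : Mackey.comp φ A V (x' : Γ) ⟶ Mackey.comp φ A V (x' : Γ) =>
        g.hom (smoothIncl (restrictLevels 𝒰 V hV) (Mackey.comp φ A V (x' : Γ)) (j x')))
        (Mackey.fromComp_toComp φ A V (x' : Γ))
      exact h1
    · intro x _ hne
      have hnot : ¬ Mackey.InDC φ V (x : Γ) (x' : Γ) := fun h =>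
        hne (Subtype.ext (hR.2 x x.2 x' x'.2 h))
      have h1 := congrArg (fun g : Mackey.comp φ A V (x : Γ) ⟶ Mackey.comp φ A V (x' : Γ) =>
        g.hom (smoothIncl (restrictLevels 𝒰 V hV) (Mackey.comp φ A V (x : Γ)) (j x)))
        (Mackey.fromComp_toComp_of_not φ A V (x : Γ) hnot)
      exact h1
    · intro h
      exact absurd (Finset.mem_univ x') h

variable {φ V} in
/-- **joint injectivity on `H²` over an open subgroup**: a class of `H²(V, J)` all of whose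
Mackey components vanish is zero -/
theorem H2_res_eq_zero_of_prx {R : Finset Γ} (hR : Mackey.IsRepr φ V R)
    (y : (restrictLevels 𝒰 V hV).H2 (resJ 𝒰 φ A V))
    (h : ∀ x : ↥R, (restrictLevels 𝒰 V hV).H2map (prx 𝒰 φ A V hV (x : Γ))
      (prx_equivariant 𝒰 φ A V hV (x : Γ)) y = 0) : y = 0 :=
  PiCoh.H2_eq_zero_of_pr (restrictLevels 𝒰 V hV)
    (A := fun x : ↥R => Jx 𝒰 φ A V hV (x : Γ))
    (fun x : ↥R => prx 𝒰 φ A V hV (x : Γ)) (fun x => prx_equivariant 𝒰 φ A V hV (x : Γ))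
    (prx_bijective 𝒰 A hV hR) y h

variable {φ V} in
/-- **joint surjectivity on `H²` over an open subgroup** -/
theorem exists_H2_res_prx_eq {R : Finset Γ} (hR : Mackey.IsRepr φ V R)
    (z : ∀ x : ↥R, (restrictLevels 𝒰 V hV).H2 (Jx 𝒰 φ A V hV (x : Γ))) :
    ∃ y : (restrictLevels 𝒰 V hV).H2 (resJ 𝒰 φ A V),
      ∀ x : ↥R, (restrictLevels 𝒰 V hV).H2map (prx 𝒰 φ A V hV (x : Γ))
        (prx_equivariant 𝒰 φ A V hV (x : Γ)) y = z x :=
  PiCoh.exists_H2_pr_eq (restrictLevels 𝒰 V hV)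
    (A := fun x : ↥R => Jx 𝒰 φ A V hV (x : Γ))
    (fun x : ↥R => prx 𝒰 φ A V hV (x : Γ)) (fun x => prx_equivariant 𝒰 φ A V hV (x : Γ))
    (prx_bijective 𝒰 A hV hR) z

end Fermat.Agent.S55.GlobalMod94.LimitMackey
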