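/-
S55 / 52-JS-LIMIT (helper94): THE `J`-SIDE OF THE LIMIT FORMATION DATUM OVER AN OPEN SUBGROUP,
generic form.

`(Γ, 𝒰)` a group with a level structure, a finite family of homomorphisms `φ i : H i →* Γ`
(`i : ι`; for `Γ = G_ℚ`: `ι = S`, `H q = G_q`, `φ q = localGaloisToGlobal q`) with coefficients
`A i : Rep k (H i)`, the limit module `Jtot = ∏_i smooth 𝒰 (coind (φ i) (A i))`, an open subgroup
`V ≤ Γ`, finite systems `R i` of representatives of `φ i (H i) \ Γ / V` — the PLACES above `V` are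
the pairs `w = (i, x)`, `x ∈ R i`, with local group `H_w = Mackey.twSub (φ i) V x`, local level
structure `𝒱 i x` (ANY, continuous for `φ_w = twHom (φ i) V x : H_w →* V`), coefficients
`A_w = Res A i`.

* `locw w : H²(V, Jtot) →ₗ H²(𝒱_w; A_w)`: the localisation at the place `w`;
* `locw_jointly_injective` (under helper64's `Limit.LevelH90` at every place);
* `exists_locw_eq`: joint surjectivity onto the SPLIT classes (`IsSplit`);
* `jside_datum`: for abstract local invariants `inv w : H²(𝒱_w; A_w) →+ T`, injective on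
  `p`-primary classes and onto the `p`-primary part of `T` through split classes, the maps
  `invJ w = inv w ∘ locw w` satisfy conjuncts (1) and (2) of helper63's
  `P1Chain.HasFormationDatum`.
-/
import Fermat.Agent.S55.GlobalMod94.LimitMackey

set_option autoImplicit false
set_option linter.style.haveILetI false

universe u

open CategoryTheory groupCohomology

namespace Fermat.Agent.S55.GlobalMod94.OpenDatum

open Fermat.Agent.S55.Profin15 Fermat.Agent.S55.Profin15.LevelStr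
open Fermat.Agent.S55.CD3 Fermat.Agent.S55.CS79.Smooth Fermat.Agent.S55.Idele73
open Fermat.Agent.S55.JSH2_64 Fermat.Agent.S55.GlobalMod94.Generic
open Fermat.Agent.S55.GlobalMod94.ExplicitShapiro Fermat.Agent.S55.GlobalMod94.LimitMackey

/-! ### split classes -/

section Split

variable {k Γ H : Type u} [CommRing k] [Group Γ] [Group H]
  (𝒰 : LevelStr Γ) (𝒱 : LevelStr H) (φ : H →* Γ) (A : Rep.{u} k H)

/-- a class of `H²(𝒱; A)` is **split by the levels of `Γ`**: it is represented by a level cocycle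
inflated from a level `W` of `Γ` -/
def IsSplit (y : 𝒱.H2 A) : Prop :=
  ∃ (W : Subgroup Γ) (_ : W ∈ 𝒰.levels) (_ : W.Normal) (ξ : H × H → A) (hξ : ξ ∈ 𝒱.Z₂ A),
    IsInfl₂ ((QuotientGroup.mk' W).comp φ) A ξ ∧ 𝒱.H2π A ⟨ξ, hξ⟩ = y

variable {𝒰 𝒱 φ A}

/-- **surjectivity of the localisation onto the split classes** -/
theorem exists_loc₂_eq (hφ : LevelStr.IsContinuous 𝒱 𝒰 φ) {y : 𝒱.H2 A}
    (hy : IsSplit 𝒰 𝒱 φ A y) :
    ∃ x : 𝒰.H2 (Limit.J 𝒰 φ A), Limit.loc₂ 𝒰 𝒱 φ A hφ x = y := by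
  obtain ⟨W, hW, hWn, ξ, hξ, hinfl, rfl⟩ := hy
  obtain ⟨c, hc, hloc⟩ := LocSurj.exists_Z₂_locFun_eq 𝒰 φ A hW
    ((𝒱.mem_Z₂_iff A ξ).1 hξ).1 hinfl
  refine ⟨𝒰.H2π _ ⟨c, hc⟩, ?_⟩
  obtain ⟨hz, h⟩ := Limit.loc₂_H2π 𝒰 𝒱 φ A hφ ⟨c, hc⟩
  rw [h]
  congr 1
  exact Subtype.ext hloc

end Split

/-! ### the family -/

variable {k : Type} [CommRing k] {Γ : Type} [Group Γ] (𝒰 : LevelStr Γ)
  {ι : Type} {H : ι → Type} [∀ i, Group (H i)] (φ : ∀ i, H i →* Γ)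
  (A : ∀ i, Rep.{0} k (H i)) (V : Subgroup Γ) (hV : IsOpenSub 𝒰 V)
  (R : ι → Finset Γ)
  (𝒱 : ∀ (i : ι) (x : Γ), LevelStr (Mackey.twSub (φ i) V x))
  (hcont : ∀ (i : ι) (x : Γ), LevelStr.IsContinuous (𝒱 i x) (restrictLevels 𝒰 V hV)
    (Mackey.twHom (φ i) V x))

/-- the limit module of the family: `∏_i smooth 𝒰 (coind (φ i) (A i))` -/
noncomputable abbrev Jtot : Rep.{0} k Γ := piObj (fun i => Limit.J 𝒰 (φ i) (A i))

/-- the places above `V` -/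
abbrev Place : Type := Σ i : ι, ↥(R i)

/-- the projection of `Res_V Jtot` to its `i`-th factor -/
noncomputable def pri (i : ι) : (Rep.res V.subtype (Jtot 𝒰 φ A)) →ₗ[k] (resJ 𝒰 (φ i) (A i) V) :=
  LinearMap.proj i

lemma pri_equivariant (i : ι) :
    IsEquivariant (A := Rep.res V.subtype (Jtot 𝒰 φ A)) (B := resJ 𝒰 (φ i) (A i) V)
      (pri 𝒰 φ A V i) := fun _ _ => rfl

lemma pri_bijective :
    Function.Bijective (fun (m : Rep.res V.subtype (Jtot 𝒰 φ A)) (i : ι) => pri 𝒰 φ A V i m) :=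
  Function.bijective_id

/-- **the localisation at the place `w = (i, x)`** -/
noncomputable def locw (w : Place R) :
    (restrictLevels 𝒰 V hV).H2 (Rep.res V.subtype (Jtot 𝒰 φ A)) →ₗ[k]
      (𝒱 w.1 (w.2 : Γ)).H2 (Ax (φ w.1) (A w.1) V (w.2 : Γ)) :=
  (Limit.loc₂ (restrictLevels 𝒰 V hV) (𝒱 w.1 (w.2 : Γ)) (Mackey.twHom (φ w.1) V (w.2 : Γ))
      (Ax (φ w.1) (A w.1) V (w.2 : Γ)) (hcont w.1 (w.2 : Γ))) ∘ₗ
    ((restrictLevels 𝒰 V hV).H2map (prx 𝒰 (φ w.1) (A w.1) V hV (w.2 : Γ))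
      (prx_equivariant 𝒰 (φ w.1) (A w.1) V hV (w.2 : Γ))) ∘ₗ
    ((restrictLevels 𝒰 V hV).H2map (pri 𝒰 φ A V w.1) (pri_equivariant 𝒰 φ A V w.1))

lemma locw_apply (w : Place R)
    (y : (restrictLevels 𝒰 V hV).H2 (Rep.res V.subtype (Jtot 𝒰 φ A))) :
    locw 𝒰 φ A V hV R 𝒱 hcont w y =
      Limit.loc₂ (restrictLevels 𝒰 V hV) (𝒱 w.1 (w.2 : Γ)) (Mackey.twHom (φ w.1) V (w.2 : Γ))
        (Ax (φ w.1) (A w.1) V (w.2 : Γ)) (hcont w.1 (w.2 : Γ))
        ((restrictLevels 𝒰 V hV).H2map (prx 𝒰 (φ w.1) (A w.1) V hV (w.2 : Γ))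
          (prx_equivariant 𝒰 (φ w.1) (A w.1) V hV (w.2 : Γ))
          ((restrictLevels 𝒰 V hV).H2map (pri 𝒰 φ A V w.1) (pri_equivariant 𝒰 φ A V w.1) y)) :=
  rfl

variable [Finite ι] (hR : ∀ i, Mackey.IsRepr (φ i) V (R i))
  (hH90 : ∀ (i : ι) (x : Γ), Limit.LevelH90 (restrictLevels 𝒰 V hV) (𝒱 i x)
    (Mackey.twHom (φ i) V x) (Ax (φ i) (A i) V x))

include hR hH90 in
/-- **(H2) over an open subgroup**: the localisations at the places above `V` are jointly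
injective on `H²(V, Jtot)` -/
theorem locw_jointly_injective
    (y : (restrictLevels 𝒰 V hV).H2 (Rep.res V.subtype (Jtot 𝒰 φ A)))
    (h : ∀ w : Place R, locw 𝒰 φ A V hV R 𝒱 hcont w y = 0) : y = 0 := by
  refine PiCoh.H2_eq_zero_of_pr (restrictLevels 𝒰 V hV)
    (A := fun i => resJ 𝒰 (φ i) (A i) V) (pri 𝒰 φ A V) (pri_equivariant 𝒰 φ A V)
    (pri_bijective 𝒰 φ A V) y (fun i => ?_)
  refine H2_res_eq_zero_of_prx 𝒰 (A i) hV (hR i) _ (fun x => ?_)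
  apply Limit.loc₂_injective (hcont i (x : Γ)) (hH90 i (x : Γ))
  rw [map_zero]
  exact h ⟨i, x⟩

include hR in
/-- **formal `hsurj` over an open subgroup**: any family of split local classes is the family
of localisations of one class of `H²(V, Jtot)` -/
theorem exists_locw_eq
    (z : ∀ w : Place R, (𝒱 w.1 (w.2 : Γ)).H2 (Ax (φ w.1) (A w.1) V (w.2 : Γ)))
    (hz : ∀ w : Place R, IsSplit (restrictLevels 𝒰 V hV) (𝒱 w.1 (w.2 : Γ))
      (Mackey.twHom (φ w.1) V (w.2 : Γ)) (Ax (φ w.1) (A w.1) V (w.2 : Γ)) (z w)) :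
    ∃ y : (restrictLevels 𝒰 V hV).H2 (Rep.res V.subtype (Jtot 𝒰 φ A)),
      ∀ w : Place R, locw 𝒰 φ A V hV R 𝒱 hcont w y = z w := by
  -- the components at the places
  have h1 : ∀ (i : ι) (x : ↥(R i)), ∃ u : (restrictLevels 𝒰 V hV).H2 (Jx 𝒰 (φ i) (A i) V hV x),
      Limit.loc₂ (restrictLevels 𝒰 V hV) (𝒱 i (x : Γ)) (Mackey.twHom (φ i) V (x : Γ))
        (Ax (φ i) (A i) V (x : Γ)) (hcont i (x : Γ)) u = z ⟨i, x⟩ := fun i x =>
    exists_loc₂_eq (hcont i (x : Γ)) (hz ⟨i, x⟩)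
  choose u hu using h1
  have h2 : ∀ i : ι, ∃ v : (restrictLevels 𝒰 V hV).H2 (resJ 𝒰 (φ i) (A i) V),
      ∀ x : ↥(R i), (restrictLevels 𝒰 V hV).H2map (prx 𝒰 (φ i) (A i) V hV (x : Γ))
        (prx_equivariant 𝒰 (φ i) (A i) V hV (x : Γ)) v = u i x := fun i =>
    exists_H2_res_prx_eq 𝒰 (A i) hV (hR i) (u i)
  choose v hv using h2
  obtain ⟨y, hy⟩ := PiCoh.exists_H2_pr_eq (restrictLevels 𝒰 V hV)
    (A := fun i => resJ 𝒰 (φ i) (A i) V) (pri 𝒰 φ A V) (pri_equivariant 𝒰 φ A V)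
    (pri_bijective 𝒰 φ A V) v
  refine ⟨y, fun w => ?_⟩
  obtain ⟨i, x⟩ := w
  rw [locw_apply]
  show Limit.loc₂ _ _ _ _ _ ((restrictLevels 𝒰 V hV).H2map _ _
    ((restrictLevels 𝒰 V hV).H2map (pri 𝒰 φ A V i) (pri_equivariant 𝒰 φ A V i) y)) = _
  rw [hy i, hv i x, hu i x]

include hR hH90 in
/-- **the `J`-side of the limit formation datum** (conjuncts (1), (2) of
`CDArith63.P1Chain.HasFormationDatum`), from abstract local invariants `inv w` -/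
theorem jside_datum {T : Type} [AddCommGroup T] (p : ℕ)
    (inv : ∀ w : Place R, (𝒱 w.1 (w.2 : Γ)).H2 (Ax (φ w.1) (A w.1) V (w.2 : Γ)) →+ T)
    (hinj : ∀ (w : Place R) (y : (𝒱 w.1 (w.2 : Γ)).H2 (Ax (φ w.1) (A w.1) V (w.2 : Γ)))
      (n : ℕ), (p ^ n) • y = 0 → inv w y = 0 → y = 0)
    (hsurj : ∀ (w : Place R) (t : T) (n : ℕ), (p ^ n) • t = 0 →
      ∃ y : (𝒱 w.1 (w.2 : Γ)).H2 (Ax (φ w.1) (A w.1) V (w.2 : Γ)),
        (p ^ n) • y = 0 ∧ inv w y = t ∧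
        IsSplit (restrictLevels 𝒰 V hV) (𝒱 w.1 (w.2 : Γ))
          (Mackey.twHom (φ w.1) V (w.2 : Γ)) (Ax (φ w.1) (A w.1) V (w.2 : Γ)) y) :
    (∀ (x : (restrictLevels 𝒰 V hV).H2 (Rep.res V.subtype (Jtot 𝒰 φ A))) (n : ℕ),
      (p ^ n) • x = 0 →
      (∀ w : Place R, (inv w) (locw 𝒰 φ A V hV R 𝒱 hcont w x) = 0) → x = 0) ∧
    (∀ (t : Place R → T) (n : ℕ), (∀ w, (p ^ n) • t w = 0) →
      ∃ x : (restrictLevels 𝒰 V hV).H2 (Rep.res V.subtype (Jtot 𝒰 φ A)),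
        (p ^ n) • x = 0 ∧ ∀ w : Place R, (inv w) (locw 𝒰 φ A V hV R 𝒱 hcont w x) = t w) := by
  constructor
  · intro x n hx h
    apply locw_jointly_injective 𝒰 φ A V hV R 𝒱 hcont hR hH90
    intro w
    refine hinj w _ n ?_ (h w)
    rw [← map_nsmul, hx, map_zero]
  · intro t n ht
    have h1 := fun w : Place R => hsurj w (t w) n (ht w)
    choose z hz using h1
    obtain ⟨x, hx⟩ := exists_locw_eq 𝒰 φ A V hV R 𝒱 hcont hR z (fun w => (hz w).2.2)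
    refine ⟨x, ?_, fun w => ?_⟩
    · apply locw_jointly_injective 𝒰 φ A V hV R 𝒱 hcont hR hH90
      intro w
      rw [map_nsmul, hx w]
      exact (hz w).1
    · rw [hx w]
      exact (hz w).2.1

end Fermat.Agent.S55.GlobalMod94.OpenDatum
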