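/-
S55 / 52-JS-LIMIT (helper94): THE `J`-SIDE OF THE LIMIT FORMATION DATUM OVER AN OPEN SUBGROUP
`V ≤ G_ℚ`, CONCRETE FORM, in the literal binder shapes `invJp`, `hinjp`, `hsurjp` of helper99's
`LimDesc99.hasFormationDatum_of_layers`.

* generic part: `isSplit_of_sub_d₁₂` (a level cocycle which differs by a level coboundary from a
  cochain inflated from a level of `Γ` represents a split class), `jside_primary` (the
  `p`-primary form of `OpenDatum.jside_datum`);
* concrete part (`Γ = G_ℚ`, `ι = ↥S`, `H q = G_q`, helper64's `levelsW`, `unitsW`,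
  `levelH90_at`): the places `PlaceV S V hV` above `V`, the local Brauer groups `BrW`, the
  localisations `locW`, `locW_jointly_injective`, the named input `TowerSplit p S q` (34z),
  `isSplit_of_towerSplit`, and **`jside_JS`**.
-/
import Fermat.Agent.S55.GlobalMod94.OpenDatum
import Fermat.Agent.S55.GlobalMod94.JS
import Fermat.Agent.S55.JSH2_64.MainOpen
import Fermat.Agent.S55.PrimaryExt14

set_option autoImplicit false
set_option linter.style.haveILetI false

open CategoryTheory groupCohomology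

namespace Fermat.Agent.S55.GlobalMod94.OpenJS

open Fermat.Agent.S55.Profin15 Fermat.Agent.S55.Profin15.LevelStr
open Fermat.Agent.S55.CD3 Fermat.Agent.S55.CS79.Smooth Fermat.Agent.S55.Idele73
open Fermat.Agent.S55.Idele73.Basic
open Fermat.Agent.S55.JSH2_64 Fermat.Agent.S55.GlobalMod94.Generic
open Fermat.Agent.S55.GlobalMod94.ExplicitShapiro Fermat.Agent.S55.GlobalMod94.LimitMackey
open Fermat.Agent.S55.GlobalMod94.OpenDatum Fermat.Agent.S55.GlobalMod94.JS
open Fermat.Agent.S55.PrimaryExt14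

/-! ### generic: split classes from the cochain form -/

section Split

variable {k Γ H : Type} [CommRing k] [Group Γ] [Group H]
  {𝒰 : LevelStr Γ} {𝒱 : LevelStr H} {φ : H →* Γ} {A : Rep.{0} k H}

/-- a level cocycle `c` such that `c - d b` (`b` a level cochain) is inflated from a level `W` of
`Γ` represents a split class -/
theorem isSplit_of_sub_d₁₂ (hφ : LevelStr.IsContinuous 𝒱 𝒰 φ) (c : ↥(𝒱.Z₂ A))
    {W : Subgroup Γ} (hW : W ∈ 𝒰.levels) (b : H → A) (hb : 𝒱.IsConst₁ b)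
    (h1 : ∀ g g' s s' : H, φ s ∈ W → φ s' ∈ W →
      ((c : H × H → A) - (d₁₂ A).hom b) (g * s, g' * s') =
        ((c : H × H → A) - (d₁₂ A).hom b) (g, g'))
    (h2 : ∀ (z : H × H) (s : H), φ s ∈ W →
      A.ρ s (((c : H × H → A) - (d₁₂ A).hom b) z) = ((c : H × H → A) - (d₁₂ A).hom b) z) :
    IsSplit 𝒰 𝒱 φ A (𝒱.H2π A c) := by
  have hWn : W.Normal := 𝒰.normal W hW
  obtain ⟨W₀, hW₀, hle⟩ := hφ W hW
  have hcoc : ((c : H × H → A) - (d₁₂ A).hom b) ∈ cocycles₂ A :=
    Submodule.sub_mem _ ((𝒱.mem_Z₂_iff A _).1 c.2).1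
      (coboundaries₂_le_cocycles₂ A ⟨b, rfl⟩)
  have hξ : ((c : H × H → A) - (d₁₂ A).hom b) ∈ 𝒱.Z₂ A :=
    (𝒱.mem_Z₂_iff A _).2 ⟨hcoc, W₀, hW₀, fun g g' s s' hs hs' =>
      h1 g g' s s' (hle hs) (hle hs')⟩
  refine ⟨W, hW, hWn, _, hξ, ⟨?_, ?_⟩, ?_⟩
  · intro d₁ d₂ d₁' d₂' e₁ e₂
    have e₁' : φ (d₁⁻¹ * d₁') ∈ W := by
      have := (QuotientGroup.eq (s := W)).1 e₁
      rwa [map_mul, map_inv]
    have e₂' : φ (d₂⁻¹ * d₂') ∈ W := by
      have := (QuotientGroup.eq (s := W)).1 e₂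
      rwa [map_mul, map_inv]
    have := h1 d₁ d₂ (d₁⁻¹ * d₁') (d₂⁻¹ * d₂') e₁' e₂'
    rw [mul_inv_cancel_left, mul_inv_cancel_left] at this
    exact this.symm
  · intro n z hn
    refine h2 z n ?_
    exact (QuotientGroup.eq_one_iff (N := W) (φ n)).1 hn
  · symm
    rw [← sub_eq_zero, ← map_sub, LevelStr.H2π_eq_zero_iff]
    refine (𝒱.mem_B₂_iff A _).2 ⟨b, hb, ?_⟩
    show (d₁₂ A).hom b = (c : H × H → A) - ((c : H × H → A) - (d₁₂ A).hom b)
    rw [sub_sub_cancel]

end Split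

/-! ### generic: the `p`-primary form of the `J`-side datum -/

section Primary

variable {k : Type} [CommRing k] {Γ : Type} [Group Γ] (𝒰 : LevelStr Γ)
  {ι : Type} {H : ι → Type} [∀ i, Group (H i)] (φ : ∀ i, H i →* Γ)
  (A : ∀ i, Rep.{0} k (H i)) (V : Subgroup Γ) (hV : IsOpenSub 𝒰 V)
  (R : ι → Finset Γ)
  (𝒱 : ∀ (i : ι) (x : Γ), LevelStr (Mackey.twSub (φ i) V x))
  (hcont : ∀ (i : ι) (x : Γ), LevelStr.IsContinuous (𝒱 i x) (restrictLevels 𝒰 V hV)
    (Mackey.twHom (φ i) V x))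
  [Finite ι] (hR : ∀ i, Mackey.IsRepr (φ i) V (R i))
  (hH90 : ∀ (i : ι) (x : Γ), Limit.LevelH90 (restrictLevels 𝒰 V hV) (𝒱 i x)
    (Mackey.twHom (φ i) V x) (Ax (φ i) (A i) V x))

include hR hH90 in
/-- **the `J`-side of the limit formation datum, `p`-primary form**: local invariants `invp w`
on the `p`-primary parts of the local `H²`, injective, onto the `p`-primary part of `T`, all
`p`-primary local classes being split ⇒ the maps `invp w ∘ locw w` on the `p`-primary part of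
`H²(V, Jtot)` are jointly injective and jointly onto. -/
theorem jside_primary {T : Type} [AddCommGroup T] (p : ℕ)
    (invp : ∀ w : Place R,
      primary p ((𝒱 w.1 (w.2 : Γ)).H2 (Ax (φ w.1) (A w.1) V (w.2 : Γ))) →+ T)
    (hinj : ∀ (w : Place R)
      (y : primary p ((𝒱 w.1 (w.2 : Γ)).H2 (Ax (φ w.1) (A w.1) V (w.2 : Γ)))),
      invp w y = 0 → y = 0)
    (hsurj : ∀ (w : Place R) (t : T) (n : ℕ), (p ^ n) • t = 0 →
      ∃ y : primary p ((𝒱 w.1 (w.2 : Γ)).H2 (Ax (φ w.1) (A w.1) V (w.2 : Γ))),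
        (p ^ n) • y = 0 ∧ invp w y = t)
    (hsplit : ∀ (w : Place R) (y : (𝒱 w.1 (w.2 : Γ)).H2 (Ax (φ w.1) (A w.1) V (w.2 : Γ)))
      (n : ℕ), (p ^ n) • y = 0 →
      IsSplit (restrictLevels 𝒰 V hV) (𝒱 w.1 (w.2 : Γ))
        (Mackey.twHom (φ w.1) V (w.2 : Γ)) (Ax (φ w.1) (A w.1) V (w.2 : Γ)) y) :
    (∀ x : primary p ((restrictLevels 𝒰 V hV).H2 (Rep.res V.subtype (Jtot 𝒰 φ A))),
      (∀ w : Place R,
        invp w (mapPrimary p (locw 𝒰 φ A V hV R 𝒱 hcont w).toAddMonoidHom x) = 0) → x = 0) ∧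
    (∀ (t : Place R → T) (n : ℕ), (∀ w, (p ^ n) • t w = 0) →
      ∃ x : primary p ((restrictLevels 𝒰 V hV).H2 (Rep.res V.subtype (Jtot 𝒰 φ A))),
        (p ^ n) • x = 0 ∧ ∀ w : Place R,
          invp w (mapPrimary p (locw 𝒰 φ A V hV R 𝒱 hcont w).toAddMonoidHom x) = t w) := by
  constructor
  · intro x h
    apply Subtype.ext
    apply locw_jointly_injective 𝒰 φ A V hV R 𝒱 hcont hR hH90
    intro w
    have := hinj w _ (h w)
    exact congrArg Subtype.val this
  · intro t n ht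
    have h1 := fun w : Place R => hsurj w (t w) n (ht w)
    choose z hz using h1
    have hz1 : ∀ w : Place R, (p ^ n) •
        ((z w : primary p ((𝒱 w.1 (w.2 : Γ)).H2 (Ax (φ w.1) (A w.1) V (w.2 : Γ)))) :
          (𝒱 w.1 (w.2 : Γ)).H2 (Ax (φ w.1) (A w.1) V (w.2 : Γ))) = 0 := fun w => by
      have := congrArg Subtype.val (hz w).1
      exact this
    obtain ⟨x, hx⟩ := exists_locw_eq 𝒰 φ A V hV R 𝒱 hcont hR (fun w => (z w).1)
      (fun w => hsplit w _ n (hz1 w))
    have hxn : (p ^ n) • x = 0 := by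
      apply locw_jointly_injective 𝒰 φ A V hV R 𝒱 hcont hR hH90
      intro w
      rw [map_nsmul, hx w]
      exact hz1 w
    refine ⟨⟨x, n, hxn⟩, Subtype.ext hxn, fun w => ?_⟩
    have : mapPrimary p (locw 𝒰 φ A V hV R 𝒱 hcont w).toAddMonoidHom ⟨x, n, hxn⟩ = z w :=
      Subtype.ext (hx w)
    rw [this]
    exact (hz w).2

end Primary

/-! ### concrete: `Γ = G_ℚ`, `J_S = ∏_{q ∈ S} J_{S,q}` -/

section Concrete

variable (S : Finset Nat.Primes) (V : Subgroup GQ) (hV : IsOpenSub (globalLevels S) V)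

/-- the local-to-global homomorphisms, indexed by `q : ↥S` -/
noncomputable abbrev rS (q : ↥S) : Gq ((q : Nat.Primes) : ℕ) →* GQ :=
  localGaloisToGlobal ((q : Nat.Primes) : ℕ)

/-- the local coefficients `ℚ̄_qˣ`, indexed by `q : ↥S` -/
noncomputable abbrev AS (q : ↥S) : Rep.{0} ℤ (Gq ((q : Nat.Primes) : ℕ)) :=
  localUnits ((q : Nat.Primes) : ℕ)

/-- a chosen system of representatives of `D_q \ G_ℚ / V` -/
noncomputable def RS (q : ↥S) : Finset GQ :=
  (MainOpen.exists_isRepr S ((q : Nat.Primes) : ℕ) V hV).choose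

theorem isRepr_RS (q : ↥S) : Mackey.IsRepr (rS S q) V (RS S V hV q) :=
  (MainOpen.exists_isRepr S ((q : Nat.Primes) : ℕ) V hV).choose_spec

/-- **the places of the fixed field of `V` above `S`**: pairs `(q, x)`, `x` a representative of
`D_q \ G_ℚ / V` -/
abbrev PlaceV : Type := Place (RS S V hV)

noncomputable instance : Fintype (PlaceV S V hV) := by
  unfold PlaceV Place
  infer_instance

theorem nonempty_placeV (hS : S.Nonempty) : Nonempty (PlaceV S V hV) := by
  obtain ⟨q, hq⟩ := hS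
  obtain ⟨x, hx, -⟩ := (isRepr_RS S V hV ⟨q, hq⟩).1 1
  exact ⟨⟨⟨q, hq⟩, ⟨x, hx⟩⟩⟩

/-- the local level structures (helper64's `levelsW`) -/
noncomputable abbrev 𝒱S (q : ↥S) (x : GQ) : LevelStr ↥(Mackey.twSub (rS S q) V x) :=
  MainOpen.levelsW ((q : Nat.Primes) : ℕ) V x

theorem hcontS (q : ↥S) (x : GQ) :
    LevelStr.IsContinuous (𝒱S S V q x) (restrictLevels (globalLevels S) V hV)
      (Mackey.twHom (rS S q) V x) :=
  OpenSub.isContinuous_twHom (pullLevels (rS S q)) hV (isContinuous_pullLevels S (rS S q)) x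

/-- **the local Brauer group at the place `w`** (level cohomology of the decomposition group
`G_w = twSub r V x ≤ G_q` with coefficients `ℚ̄_qˣ`) -/
abbrev BrW (w : PlaceV S V hV) : Type :=
  (𝒱S S V w.1 (w.2 : GQ)).H2 (Ax (rS S w.1) (AS S w.1) V (w.2 : GQ))

/-- **the localisation at the place `w`**: `H²(V, J_S) → Br_w` -/
noncomputable def locW (w : PlaceV S V hV) :
    (restrictLevels (globalLevels S) V hV).H2 (Rep.res V.subtype (JSp S)) →ₗ[ℤ] BrW S V hV w :=
  locw (globalLevels S) (rS S) (AS S) V hV (RS S V hV) (𝒱S S V) (hcontS S V hV) w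

/-- **(H2) over an open subgroup `V`, all of `J_S`**: the localisations at the places above `V`
are jointly injective on `H²(V, J_S)` -/
theorem locW_jointly_injective
    (y : (restrictLevels (globalLevels S) V hV).H2 (Rep.res V.subtype (JSp S)))
    (h : ∀ w : PlaceV S V hV, locW S V hV w y = 0) : y = 0 :=
  locw_jointly_injective (globalLevels S) (rS S) (AS S) V hV (RS S V hV) (𝒱S S V)
    (hcontS S V hV) (isRepr_RS S V hV)
    (fun q x => MainOpen.levelH90_at S ((q : Nat.Primes) : ℕ) V hV x) y h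

/-- **TOWER-SPLIT (34z), cochain form** — the arithmetic input of `hsurj`: for a subgroup
`Γw ≤ G_q` containing the pull-back of an `S`-level `U₁`, every level `2`-cocycle `c` of `Γw` in
`ℚ̄_qˣ` whose class is killed by `p ^ n` is, up to a level coboundary `d b`, constant modulo and
fixed by the pull-back of ONE `S`-level `U₀ ≤ U₁` (i.e. every `p`-primary class of
`Br(K_w)` is split by an `S`-ramified extension; `p ∈ S`, `p^∞ ∣` the local degrees of the
cyclotomic `p`-tower). -/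
def TowerSplit (p : ℕ) (S : Finset Nat.Primes) (q : ℕ) [Fact q.Prime] : Prop :=
  ∀ (Γw : Subgroup (Gq q)) (U₁ : Subgroup GQ), U₁ ∈ (globalLevels S).levels →
    U₁.comap (localGaloisToGlobal q) ≤ Γw →
    ∀ (c : ↥(((pullLevels (localGaloisToGlobal q)).comap Γw.subtype).Z₂
        (Rep.res Γw.subtype (localUnits q)))) (n : ℕ),
      (p ^ n) • ((pullLevels (localGaloisToGlobal q)).comap Γw.subtype).H2π
        (Rep.res Γw.subtype (localUnits q)) c = 0 →
      ∃ U₀ ∈ (globalLevels S).levels, U₀ ≤ U₁ ∧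
        ∃ b : Γw → Rep.res Γw.subtype (localUnits q),
          ((pullLevels (localGaloisToGlobal q)).comap Γw.subtype).IsConst₁ b ∧
          (∀ g g' s s' : Γw, localGaloisToGlobal q (s : Gq q) ∈ U₀ →
            localGaloisToGlobal q (s' : Gq q) ∈ U₀ →
            ((c : Γw × Γw → Rep.res Γw.subtype (localUnits q)) -
                (d₁₂ (Rep.res Γw.subtype (localUnits q))).hom b) (g * s, g' * s') =
              ((c : Γw × Γw → Rep.res Γw.subtype (localUnits q)) -
                (d₁₂ (Rep.res Γw.subtype (localUnits q))).hom b) (g, g')) ∧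
          (∀ (z : Γw × Γw) (s : Γw), localGaloisToGlobal q (s : Gq q) ∈ U₀ →
            (Rep.res Γw.subtype (localUnits q)).ρ s
              (((c : Γw × Γw → Rep.res Γw.subtype (localUnits q)) -
                (d₁₂ (Rep.res Γw.subtype (localUnits q))).hom b) z) =
              ((c : Γw × Γw → Rep.res Γw.subtype (localUnits q)) -
                (d₁₂ (Rep.res Γw.subtype (localUnits q))).hom b) z)

/-- under TOWER-SPLIT every `p`-primary class of `Br_w` is split by the `S`-levels of `V` -/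
theorem isSplit_of_towerSplit (p : ℕ)
    (hts : ∀ q : ↥S, TowerSplit p S ((q : Nat.Primes) : ℕ)) (w : PlaceV S V hV)
    (y : BrW S V hV w) (n : ℕ) (hy : (p ^ n) • y = 0) :
    IsSplit (restrictLevels (globalLevels S) V hV) (𝒱S S V w.1 (w.2 : GQ))
      (Mackey.twHom (rS S w.1) V (w.2 : GQ)) (Ax (rS S w.1) (AS S w.1) V (w.2 : GQ)) y := by
  obtain ⟨q, x⟩ := w
  obtain ⟨U₁, hU₁, hU₁V⟩ := hV
  have hU₁n : U₁.Normal := (globalLevels S).normal U₁ hU₁
  have hle : U₁.comap (rS S q) ≤ Mackey.twSub (rS S q) V (x : GQ) := by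
    intro t ht
    rw [Mackey.mem_twSub]
    apply hU₁V
    have := hU₁n.conj_mem _ (Subgroup.mem_comap.1 ht) (x : GQ)⁻¹
    rwa [inv_inv] at this
  obtain ⟨c, rfl⟩ := Submodule.Quotient.mk_surjective _ y
  obtain ⟨U₀, hU₀, hU₀U₁, b, hb, h1, h2⟩ := hts q _ U₁ hU₁ hle c n hy
  have hU₀n : U₀.Normal := (globalLevels S).normal U₀ hU₀
  have hmem : ∀ s : ↥(Mackey.twSub (rS S q) V (x : GQ)),
      Mackey.twHom (rS S q) V (x : GQ) s ∈ U₀.subgroupOf V → rS S q (s : Gq _) ∈ U₀ := by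
    intro s hs
    rw [Subgroup.mem_subgroupOf, Mackey.coe_twHom] at hs
    have := hU₀n.conj_mem _ hs (x : GQ)
    simpa [mul_assoc] using this
  refine isSplit_of_sub_d₁₂ (hcontS S V ⟨U₁, hU₁, hU₁V⟩ q (x : GQ)) c
    (W := U₀.subgroupOf V) ⟨U₀, hU₀, hU₀U₁.trans hU₁V, rfl⟩ b hb
    (fun g g' s s' hs hs' => h1 g g' s s' (hmem s hs) (hmem s' hs'))
    (fun z s hs => h2 z s (hmem s hs))

/-- **THE `J`-SIDE OF SLOT A3, LITERALLY** (binders `invJp`, `hinjp`, `hsurjp` of helper99's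
`LimDesc99.hasFormationDatum_of_layers`, with `W := PlaceV S V hV`): from TOWER-SPLIT and local
invariants on the `p`-primary parts of the `Br_w`. -/
theorem jside_JS {T : Type} [AddCommGroup T] (p : ℕ)
    (hts : ∀ q : ↥S, TowerSplit p S ((q : Nat.Primes) : ℕ))
    (invp : ∀ w : PlaceV S V hV, primary p (BrW S V hV w) →+ T)
    (hinj : ∀ (w : PlaceV S V hV) (y : primary p (BrW S V hV w)), invp w y = 0 → y = 0)
    (hsurj : ∀ (w : PlaceV S V hV) (t : T) (n : ℕ), (p ^ n) • t = 0 →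
      ∃ y : primary p (BrW S V hV w), (p ^ n) • y = 0 ∧ invp w y = t) :
    ∃ invJp : PlaceV S V hV →
        (primary p ((restrictLevels (globalLevels S) V hV).H2 (Rep.res V.subtype (JSp S))) →+ T),
      (∀ w x, invJp w x = invp w (mapPrimary p (locW S V hV w).toAddMonoidHom x)) ∧
      (∀ x : primary p ((restrictLevels (globalLevels S) V hV).H2 (Rep.res V.subtype (JSp S))),
        (∀ w, invJp w x = 0) → x = 0) ∧
      (∀ (t : PlaceV S V hV → T) (n : ℕ), (∀ w, (p ^ n) • t w = 0) →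
        ∃ x : primary p
            ((restrictLevels (globalLevels S) V hV).H2 (Rep.res V.subtype (JSp S))),
          (p ^ n) • x = 0 ∧ ∀ w, invJp w x = t w) := by
  obtain ⟨h1, h2⟩ := jside_primary (globalLevels S) (rS S) (AS S) V hV (RS S V hV) (𝒱S S V)
    (hcontS S V hV) (isRepr_RS S V hV)
    (fun q x => MainOpen.levelH90_at S ((q : Nat.Primes) : ℕ) V hV x) p invp hinj hsurj
    (isSplit_of_towerSplit S V hV p hts)
  exact ⟨fun w => (invp w).comp (mapPrimary p (locW S V hV w).toAddMonoidHom),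
    fun _ _ => rfl, h1, h2⟩

end Concrete

end Fermat.Agent.S55.GlobalMod94.OpenJS
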