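/-
S55 / 52-JS-LIMIT (helper94), (H1): `H¹(V, J_S) = 0` in level cohomology, for every open subgroup
`V` of `G_ℚ` (for `globalLevels S`), for the limit idele module `J_S = ∏_{q ∈ S} J_{S,q}`.

Inputs: helper73's finite-level semi-local Hilbert 90 (`Idele73.Components.isZero_H1_Jq`),
helper79's big-module bridge (`CS79.FinLevel.H1_eq_zero_of_cofinal`, `CS79.Restrict`,
`CS79.Limit.isInvDescent_levelIncl`), and the product bookkeeping `PiCoh`.
-/
import Fermat.Agent.S55.GlobalMod94.JS
import Fermat.Agent.S55.GlobalMod94.PiCoh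
import Fermat.Agent.S55.CS79.Restrict
import Fermat.Agent.S55.Idele73.Components

set_option autoImplicit false
set_option linter.style.haveILetI false

open CategoryTheory groupCohomology

namespace Fermat.Agent.S55.GlobalMod94.H1

open Fermat.Agent.S55.Profin15 Fermat.Agent.S55.Profin15.LevelStr
open Fermat.Agent.S55.Idele73.Basic Fermat.Agent.S55.CD3
open Fermat.Agent.S55.CS79.InvDescent Fermat.Agent.S55.CS79.FinLevel
open Fermat.Agent.S55.CS79.Restrict Fermat.Agent.S55.CS79.Smooth
open Fermat.Agent.S55.GlobalMod94.Generic Fermat.Agent.S55.GlobalMod94.JS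

/-- an intermediate field of `ℚ̄/ℚ` with normal fixing subgroup is normal -/
theorem normal_of_fixingSubgroup_normal (E : IntermediateField ℚ Qbar)
    (hN : E.fixingSubgroup.Normal) : Normal ℚ E :=
  ((InfiniteGalois.normal_iff_isGalois E).mp hN).to_normal

/-- vanishing of `H¹` of a representation in terms of cocycles -/
theorem mem_coboundaries₁_of_isZero {k G : Type} [CommRing k] [Group G] {M : Rep.{0} k G}
    (h : Limits.IsZero (groupCohomology M 1)) (c : G → M) (hc : c ∈ cocycles₁ M) :
    c ∈ coboundaries₁ M := by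
  have hs : Subsingleton (groupCohomology.H1 M) := ModuleCat.subsingleton_of_isZero h
  have h0 : (groupCohomology.H1π M).hom ⟨c, hc⟩ = 0 := Subsingleton.elim _ _
  exact (groupCohomology.H1π_eq_zero_iff (⟨c, hc⟩ : cocycles₁ M)).1 h0

variable (S : Finset Nat.Primes) (q : ℕ) [Fact q.Prime]
variable (V : Subgroup GQ) (hV : IsOpenSub (globalLevels S) V)

/-- the finite levels `Gal(L'/L_V)` of the restriction of `J_{S,q}` to an open subgroup `V` have
vanishing `H¹` (semi-local Hilbert 90) -/
theorem cofinalH1Vanishing_JSq :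
    CofinalH1Vanishing (restrictLevels (globalLevels S) V hV)
      (Rep.res V.subtype (JSq S q)) := by
  rintro V' ⟨W, hW, hWV, rfl⟩
  refine ⟨W.subgroupOf V, ⟨W, hW, hWV, rfl⟩, le_rfl, ?_⟩
  obtain ⟨hWn, L, hL, rfl⟩ := hW
  haveI : Normal ℚ L := normal_of_fixingSubgroup_normal L hWn
  haveI : FiniteDimensional ℚ L := hL.1
  have hker : (resL L).ker ≤ V := by
    rw [CS79.Limit.resL_ker]
    exact hWV
  refine ⟨↥(V.map (resL L)), inferInstance, resHom (resL L) V,
    Rep.res (V.map (resL L)).subtype (Rep.coind (locHom q L) (localUnits q)),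
    CS79.Limit.levelIncl S q L hL (localUnits q),
    isInvDescent_res (CS79.Limit.isInvDescent_levelIncl S q L hL (localUnits q)) V hker,
    resHom_surjective _ _, ?_, ?_⟩
  · rw [resHom_ker, CS79.Limit.resL_ker]
  · intro c hc
    exact mem_coboundaries₁_of_isZero
      (Idele73.Components.isZero_H1_Jq q L (V.map (resL L))) c hc

/-- **(H1), one component**: `H¹(V, J_{S,q}) = 0` -/
theorem H1_JSq_eq_zero
    (x : (restrictLevels (globalLevels S) V hV).H1 (Rep.res V.subtype (JSq S q))) : x = 0 :=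
  H1_eq_zero_of_cofinal (isSmooth_res (CS79.Limit.isSmooth_JS S q (localUnits q)) hV)
    (cofinalH1Vanishing_JSq S q V hV) x

/-- **(H1)**: `H¹(V, J_S) = 0` for every open subgroup `V` of `G_ℚ` -/
theorem H1_JSp_eq_zero
    (x : (restrictLevels (globalLevels S) V hV).H1 (Rep.res V.subtype (JSp S))) : x = 0 := by
  refine PiCoh.H1_eq_zero_of_factors (restrictLevels (globalLevels S) V hV)
    (M := Rep.res V.subtype (JSp S))
    (A := fun q : ↥S => Rep.res V.subtype (JSq S ((q : Nat.Primes) : ℕ)))
    (fun q => LinearMap.proj q) (fun q g m => rfl) Function.bijective_id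
    (fun q y => H1_JSq_eq_zero S ((q : Nat.Primes) : ℕ) V hV y) x

/-- (H1) for `V = G_ℚ` itself, for the level structure `globalLevels S` -/
theorem H1_JSq_eq_zero_top (x : (globalLevels S).H1 (JSq S q)) : x = 0 := by
  refine H1_eq_zero_of_cofinal (CS79.Limit.isSmooth_JS S q (localUnits q)) ?_ x
  rintro W hW
  refine ⟨W, hW, le_rfl, ?_⟩
  obtain ⟨hWn, L, hL, rfl⟩ := hW
  haveI : Normal ℚ L := normal_of_fixingSubgroup_normal L hWn
  haveI : FiniteDimensional ℚ L := hL.1
  refine ⟨GalL L, inferInstance, resL L, Rep.coind (locHom q L) (localUnits q),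
    CS79.Limit.levelIncl S q L hL (localUnits q),
    CS79.Limit.isInvDescent_levelIncl S q L hL (localUnits q), resL_surjective L,
    CS79.Limit.resL_ker L, ?_⟩
  intro c hc
  -- transport to the subgroup `⊤`
  have h0 := Idele73.Components.isZero_H1_Jq q L (⊤ : Subgroup (GalL L))
  have hc' : (fun g : (⊤ : Subgroup (GalL L)) => c (g : GalL L)) ∈
      cocycles₁ (Rep.res (⊤ : Subgroup (GalL L)).subtype (Jq q L)) := by
    rw [mem_cocycles₁_iff]
    intro g h
    exact (mem_cocycles₁_iff c).1 hc (g : GalL L) (h : GalL L)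
  obtain ⟨m, hm⟩ := mem_coboundaries₁_of_isZero h0 _ hc'
  refine ⟨m, ?_⟩
  funext g
  exact congrFun hm ⟨g, Subgroup.mem_top g⟩

theorem H1_JSp_eq_zero_top (x : (globalLevels S).H1 (JSp S)) : x = 0 :=
  PiCoh.H1_eq_zero_of_factors (globalLevels S)
    (fun q : ↥S => (piProj (fun q : ↥S => JSq S ((q : Nat.Primes) : ℕ)) q).hom.toLinearMap)
    (PiCoh.isEquivariant_piProj _) (PiCoh.bijective_piProj _)
    (fun q y => H1_JSq_eq_zero_top S ((q : Nat.Primes) : ℕ) y) x

end Fermat.Agent.S55.GlobalMod94.H1
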