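/-
S55 / 52-JS-LIMIT (helper94): THE `J`-SIDE OF SLOT A3 WITH THE LOCAL INVARIANTS PLUGGED IN.

`OpenJS.jside_JS` (binders `invJp`, `hinjp`, `hsurjp` of helper99's
`LimDesc99.hasFormationDatum_of_layers` / helper41's `hasFormationDatum_of_class`) fed with
helper28's local invariant `LocInv28.OpenSub.invW` at every place above `V`.  Remaining named
inputs: `TowerSplit p S q` (34z, helper46) and `PresCochain K` (22h, helper81).
-/
import Fermat.Agent.S55.GlobalMod94.OpenJS
import Fermat.Agent.S55.LocInv28.OpenSub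
import Fermat.Agent.S55.QZ33

set_option autoImplicit false
set_option linter.style.haveILetI false

open CategoryTheory groupCohomology

namespace Fermat.Agent.S55.GlobalMod94.JSideFinal

open Fermat.Agent.S55.Profin15 Fermat.Agent.S55.Profin15.LevelStr
open Fermat.Agent.S55.CD3 Fermat.Agent.S55.Idele73 Fermat.Agent.S55.Idele73.Basic
open Fermat.Agent.S55.JSH2_64 Fermat.Agent.S55.GlobalMod94.LimitMackey
open Fermat.Agent.S55.GlobalMod94.OpenDatum Fermat.Agent.S55.GlobalMod94.JS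
open Fermat.Agent.S55.GlobalMod94.OpenJS Fermat.Agent.S55.PrimaryExt14
open Fermat.Agent.S55.LocField17 Fermat.Agent.S55.LocInv28.Main Fermat.Agent.S55.LocInv28.OpenSub
open Fermat.Agent.S55.QZ33

variable (S : Finset Nat.Primes) (V : Subgroup GQ) (hV : IsOpenSub (globalLevels S) V)

include hV in
/-- the decomposition groups of the places above an open `V` are open in `G_q` -/
theorem isOpen_Gw (q : ↥S) (x : GQ) :
    ∃ W ∈ (pullLevels (rS S q)).levels, W ≤ Mackey.twSub (rS S q) V x := by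
  obtain ⟨U₁, hU₁, hU₁V⟩ := hV
  have hU₁n : U₁.Normal := (globalLevels S).normal U₁ hU₁
  obtain ⟨hn, F, hF, rfl⟩ := hU₁
  refine ⟨F.fixingSubgroup.comap (rS S q), ⟨F.fixingSubgroup, ⟨hn, F, hF.1, rfl⟩, rfl⟩, ?_⟩
  intro t ht
  rw [Mackey.mem_twSub]
  apply hU₁V
  have := hU₁n.conj_mem _ (Subgroup.mem_comap.1 ht) x⁻¹
  rwa [inv_inv] at this

/-- **the local invariant at the place `w`** (helper28's `invW`), `Br_w ≃+ ℚ/ℤ` -/
noncomputable def invBr
    (hP : ∀ (q : ↥S) (K : LF ((q : Nat.Primes) : ℕ))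
      [FiniteDimensional ℚ_[((q : Nat.Primes) : ℕ)] K], PresCochain K)
    (w : PlaceV S V hV) : BrW S V hV w ≃+ QZ :=
  invW (Mackey.twSub (rS S w.1) V (w.2 : GQ)) (isOpen_Gw S V hV w.1 (w.2 : GQ)) (hP w.1)

/-- its restriction to the `p`-primary part -/
noncomputable def invBrp (p : ℕ)
    (hP : ∀ (q : ↥S) (K : LF ((q : Nat.Primes) : ℕ))
      [FiniteDimensional ℚ_[((q : Nat.Primes) : ℕ)] K], PresCochain K)
    (w : PlaceV S V hV) : primary p (BrW S V hV w) →+ QZ :=
  (invBr S V hV hP w).toAddMonoidHom.comp (primary p (BrW S V hV w)).subtype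

theorem invBrp_apply (p : ℕ)
    (hP : ∀ (q : ↥S) (K : LF ((q : Nat.Primes) : ℕ))
      [FiniteDimensional ℚ_[((q : Nat.Primes) : ℕ)] K], PresCochain K)
    (w : PlaceV S V hV) (y : primary p (BrW S V hV w)) :
    invBrp S V hV p hP w y = invBr S V hV hP w (y : BrW S V hV w) := rfl

theorem invBr_inj
    (hP : ∀ (q : ↥S) (K : LF ((q : Nat.Primes) : ℕ))
      [FiniteDimensional ℚ_[((q : Nat.Primes) : ℕ)] K], PresCochain K)
    (w : PlaceV S V hV) (y : BrW S V hV w) (h : invBr S V hV hP w y = 0) : y = 0 :=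
  (invBr S V hV hP w).injective (by rw [h, map_zero])

theorem invBr_surj
    (hP : ∀ (q : ↥S) (K : LF ((q : Nat.Primes) : ℕ))
      [FiniteDimensional ℚ_[((q : Nat.Primes) : ℕ)] K], PresCochain K)
    (w : PlaceV S V hV) (t : QZ) (m : ℕ) (ht : m • t = 0) :
    ∃ y : BrW S V hV w, m • y = 0 ∧ invBr S V hV hP w y = t := by
  obtain ⟨y, hy⟩ := (invBr S V hV hP w).surjective t
  refine ⟨y, ?_, hy⟩
  apply (invBr S V hV hP w).injective
  rw [map_nsmul, hy, ht, map_zero]

/-- **THE `J`-SIDE OF SLOT A3** (`invJp`, `hinjp`, `hsurjp` with `W := PlaceV S V hV`, `T := ℚ/ℤ`)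
from TOWER-SPLIT (34z) and the presentation of local `2`-cocycles (22h) -/
theorem jside_JS_of_pres (p : ℕ)
    (hts : ∀ q : ↥S, TowerSplit p S ((q : Nat.Primes) : ℕ))
    (hP : ∀ (q : ↥S) (K : LF ((q : Nat.Primes) : ℕ))
      [FiniteDimensional ℚ_[((q : Nat.Primes) : ℕ)] K], PresCochain K) :
    ∃ invJp : PlaceV S V hV →
        (primary p ((restrictLevels (globalLevels S) V hV).H2 (Rep.res V.subtype (JSp S))) →+ QZ),
      (∀ w (x : primary p
          ((restrictLevels (globalLevels S) V hV).H2 (Rep.res V.subtype (JSp S)))),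
        invJp w x = invBr S V hV hP w (locW S V hV w
          (x : (restrictLevels (globalLevels S) V hV).H2 (Rep.res V.subtype (JSp S))))) ∧
      (∀ x : primary p ((restrictLevels (globalLevels S) V hV).H2 (Rep.res V.subtype (JSp S))),
        (∀ w, invJp w x = 0) → x = 0) ∧
      (∀ (t : PlaceV S V hV → QZ) (n : ℕ), (∀ w, (p ^ n) • t w = 0) →
        ∃ x : primary p
            ((restrictLevels (globalLevels S) V hV).H2 (Rep.res V.subtype (JSp S))),
          (p ^ n) • x = 0 ∧ ∀ w, invJp w x = t w) := by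
  have hinj : ∀ (w : PlaceV S V hV) (y : primary p (BrW S V hV w)),
      invBrp S V hV p hP w y = 0 → y = 0 := fun w y hy =>
    Subtype.ext (invBr_inj S V hV hP w (y : BrW S V hV w) hy)
  have hsurj : ∀ (w : PlaceV S V hV) (t : QZ) (n : ℕ), (p ^ n) • t = 0 →
      ∃ y : primary p (BrW S V hV w), (p ^ n) • y = 0 ∧ invBrp S V hV p hP w y = t := by
    intro w t n ht
    obtain ⟨y, hy, hyt⟩ := invBr_surj S V hV hP w t (p ^ n) ht
    exact ⟨⟨y, n, hy⟩, Subtype.ext hy, hyt⟩
  obtain ⟨invJp, h0, h1, h2⟩ := jside_JS S V hV p hts (invBrp S V hV p hP) hinj hsurj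
  exact ⟨invJp, fun w x => h0 w x, h1, h2⟩

end Fermat.Agent.S55.GlobalMod94.JSideFinal
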