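/-
S55 / 52-JS-LIMIT (helper94): THE `J`-SIDE OF SLOT A3, UNCONDITIONAL.

`JSideFinal.jside_JS_of_pres` with its two named inputs discharged:
* `TowerSplit p S q` by helper46's `CycloTower46.TowerSplit.towerSplit_forall` (34z),
* `PresCochain K` by helper71's `P2Local71.presCochain_all` (22b).
Output: for `p ∈ S` and every open `V ≤ G_ℚ`: the finite set of places `PlaceV S V hV`, the
local invariants `invBrU w : Br_w ≃+ ℚ/ℤ`, and the maps `invJp w` on the `p`-primary part of
`H²(V, J_S)`, jointly injective and jointly surjective = binders `invJp hinjp hsurjp` of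
`LimDesc99.hasFormationDatum_of_layers` / `S1Limit41.Formation.hasFormationDatum_of_class`.
-/
import Fermat.Agent.S55.GlobalMod94.JSideFinal
import Fermat.Agent.S55.CycloTower46.TowerSplit
import Fermat.Agent.S55.P2Local71.PresFinal

set_option autoImplicit false
set_option linter.style.haveILetI false

open CategoryTheory groupCohomology

namespace Fermat.Agent.S55.GlobalMod94.JSideUncond

open Fermat.Agent.S55.Profin15 Fermat.Agent.S55.Profin15.LevelStr
open Fermat.Agent.S55.CD3 Fermat.Agent.S55.Idele73 Fermat.Agent.S55.Idele73.Basic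
open Fermat.Agent.S55.GlobalMod94.JS Fermat.Agent.S55.GlobalMod94.OpenJS
open Fermat.Agent.S55.GlobalMod94.JSideFinal Fermat.Agent.S55.PrimaryExt14
open Fermat.Agent.S55.LocField17 Fermat.Agent.S55.LocInv28.Main
open Fermat.Agent.S55.QZ33

variable (S : Finset Nat.Primes) (V : Subgroup GQ) (hV : IsOpenSub (globalLevels S) V)

/-- the hypothesis `hP` of `JSideFinal`, discharged (helper71) -/
theorem hP_all : ∀ (q : ↥S) (K : LF ((q : Nat.Primes) : ℕ))
    [FiniteDimensional ℚ_[((q : Nat.Primes) : ℕ)] K], PresCochain K :=
  fun _ K _ => P2Local71.presCochain_all K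

/-- **the local invariant at the place `w` above `V`**, `Br_w ≃+ ℚ/ℤ`, unconditionally -/
noncomputable def invBrU (w : PlaceV S V hV) : BrW S V hV w ≃+ QZ :=
  invBr S V hV (hP_all S) w

/-- **the total invariant of `J_S` over `V`**: the sum of the local invariants of the
localisations at the places above `V` -/
noncomputable def invJS :
    (restrictLevels (globalLevels S) V hV).H2 (Rep.res V.subtype (JSp S)) →+ QZ :=
  ∑ w : PlaceV S V hV,
    (invBrU S V hV w).toAddMonoidHom.comp (locW S V hV w).toAddMonoidHom

theorem invJS_apply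
    (x : (restrictLevels (globalLevels S) V hV).H2 (Rep.res V.subtype (JSp S))) :
    invJS S V hV x = ∑ w : PlaceV S V hV, invBrU S V hV w (locW S V hV w x) := by
  simp only [invJS, AddMonoidHom.finsetSum_apply]
  rfl

/-- **THE `J`-SIDE OF SLOT A3, UNCONDITIONAL** -/
theorem jside_JS_uncond {p : ℕ} (hp : p.Prime) (hpS : (⟨p, hp⟩ : Nat.Primes) ∈ S) :
    ∃ invJp : PlaceV S V hV →
        (primary p ((restrictLevels (globalLevels S) V hV).H2 (Rep.res V.subtype (JSp S))) →+ QZ),
      (∀ w (x : primary p
          ((restrictLevels (globalLevels S) V hV).H2 (Rep.res V.subtype (JSp S)))),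
        invJp w x = invBrU S V hV w (locW S V hV w
          (x : (restrictLevels (globalLevels S) V hV).H2 (Rep.res V.subtype (JSp S))))) ∧
      (∀ x : primary p ((restrictLevels (globalLevels S) V hV).H2 (Rep.res V.subtype (JSp S))),
        (∀ w, invJp w x = 0) → x = 0) ∧
      (∀ (t : PlaceV S V hV → QZ) (n : ℕ), (∀ w, (p ^ n) • t w = 0) →
        ∃ x : primary p
            ((restrictLevels (globalLevels S) V hV).H2 (Rep.res V.subtype (JSp S))),
          (p ^ n) • x = 0 ∧ ∀ w, invJp w x = t w) :=
  jside_JS_of_pres S V hV p (CycloTower46.TowerSplit.towerSplit_forall hp S hpS) (hP_all S)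

/-- the sum of the `invJp w` is the restriction of the total invariant `invJS` -/
theorem sum_invJp_eq {p : ℕ}
    (invJp : PlaceV S V hV →
      (primary p ((restrictLevels (globalLevels S) V hV).H2 (Rep.res V.subtype (JSp S))) →+ QZ))
    (h : ∀ w (x : primary p
        ((restrictLevels (globalLevels S) V hV).H2 (Rep.res V.subtype (JSp S)))),
      invJp w x = invBrU S V hV w (locW S V hV w
        (x : (restrictLevels (globalLevels S) V hV).H2 (Rep.res V.subtype (JSp S)))))
    (x : primary p ((restrictLevels (globalLevels S) V hV).H2 (Rep.res V.subtype (JSp S)))) :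
    ∑ w, invJp w x = invJS S V hV
      (x : (restrictLevels (globalLevels S) V hV).H2 (Rep.res V.subtype (JSp S))) := by
  rw [invJS_apply]
  exact Finset.sum_congr rfl fun w _ => h w x

end Fermat.Agent.S55.GlobalMod94.JSideUncond
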