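/-
S55 / 52-JS-LIMIT (helper94): THE `J`-SIDE OF THE FORMATION DATUM OVER AN OPEN `V ≤ G_ℚ` AS
DEFINITIONS (no existential), total and `p`-primary forms, UNCONDITIONAL.

* `invJU S V hV w : H²(V, J_S) →+ ℚ/ℤ` := `invBrU w ∘ locW w` (total local invariant at `w`);
* `invJU_jointly_injective` (on ALL of `H²(V, J_S)`), `invJU_surj` (`p ∈ S`) = conjuncts (1), (2)
  of `CDArith63.P1Chain.HasFormationDatum` / `hinjJ`, `hsurjJ` of `S1_67.P6Core.p6_core`;
* `invJpU S V hV p w` := its restriction to the `p`-primary part, `invJpU_apply` (rfl),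
  `hinjp_U`, `hsurjp_U` = binders `hinjp`, `hsurjp` of slot A3, `sum_invJpU`.
-/
import Fermat.Agent.S55.GlobalMod94.JSideUncond

set_option autoImplicit false
set_option linter.style.haveILetI false

open CategoryTheory groupCohomology

namespace Fermat.Agent.S55.GlobalMod94.JSideTotal

open Fermat.Agent.S55.Profin15 Fermat.Agent.S55.Profin15.LevelStr
open Fermat.Agent.S55.CD3 Fermat.Agent.S55.Idele73 Fermat.Agent.S55.Idele73.Basic
open Fermat.Agent.S55.GlobalMod94.JS Fermat.Agent.S55.GlobalMod94.OpenJS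
open Fermat.Agent.S55.GlobalMod94.OpenDatum
open Fermat.Agent.S55.GlobalMod94.JSideFinal Fermat.Agent.S55.GlobalMod94.JSideUncond
open Fermat.Agent.S55.PrimaryExt14 Fermat.Agent.S55.QZ33

variable (S : Finset Nat.Primes) (V : Subgroup GQ) (hV : IsOpenSub (globalLevels S) V)

/-- **the local invariant of `H²(V, J_S)` at the place `w` above `V`** (total map) -/
noncomputable def invJU (w : PlaceV S V hV) :
    (restrictLevels (globalLevels S) V hV).H2 (Rep.res V.subtype (JSp S)) →+ QZ :=
  (invBrU S V hV w).toAddMonoidHom.comp (locW S V hV w).toAddMonoidHom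

theorem invJU_apply (w : PlaceV S V hV)
    (x : (restrictLevels (globalLevels S) V hV).H2 (Rep.res V.subtype (JSp S))) :
    invJU S V hV w x = invBrU S V hV w (locW S V hV w x) := rfl

/-- the local invariants are jointly injective on ALL of `H²(V, J_S)` -/
theorem invJU_jointly_injective
    (x : (restrictLevels (globalLevels S) V hV).H2 (Rep.res V.subtype (JSp S)))
    (h : ∀ w, invJU S V hV w x = 0) : x = 0 := by
  apply locW_jointly_injective S V hV
  intro w
  exact invBr_inj S V hV (hP_all S) w _ (h w)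

/-- conjunct (1) of `HasFormationDatum`, total form -/
theorem hinj_U (p : ℕ)
    (x : (restrictLevels (globalLevels S) V hV).H2 (Rep.res V.subtype (JSp S))) (n : ℕ)
    (_hx : (p ^ n) • x = 0) (h : ∀ w, invJU S V hV w x = 0) : x = 0 :=
  invJU_jointly_injective S V hV x h

/-- conjunct (2) of `HasFormationDatum`, total form: every family of `p ^ n`-torsion values is
the family of local invariants of a `p ^ n`-torsion class -/
theorem invJU_surj {p : ℕ} (hp : p.Prime) (hpS : (⟨p, hp⟩ : Nat.Primes) ∈ S)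
    (t : PlaceV S V hV → QZ) (n : ℕ) (ht : ∀ w, (p ^ n) • t w = 0) :
    ∃ x : (restrictLevels (globalLevels S) V hV).H2 (Rep.res V.subtype (JSp S)),
      (p ^ n) • x = 0 ∧ ∀ w, invJU S V hV w x = t w := by
  obtain ⟨invJp, h0, -, h2⟩ := jside_JS_uncond S V hV hp hpS
  obtain ⟨x, hx, hxt⟩ := h2 t n ht
  refine ⟨x, congrArg Subtype.val hx, fun w => ?_⟩
  rw [invJU_apply, ← h0 w x]
  exact hxt w

/-- **the `p`-primary local invariant of `H²(V, J_S)` at `w`** (binder `invJp` of slot A3) -/
noncomputable def invJpU (p : ℕ) (w : PlaceV S V hV) :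
    primary p ((restrictLevels (globalLevels S) V hV).H2 (Rep.res V.subtype (JSp S))) →+ QZ :=
  (invJU S V hV w).comp
    (primary p ((restrictLevels (globalLevels S) V hV).H2 (Rep.res V.subtype (JSp S)))).subtype

theorem invJpU_apply (p : ℕ) (w : PlaceV S V hV)
    (x : primary p ((restrictLevels (globalLevels S) V hV).H2 (Rep.res V.subtype (JSp S)))) :
    invJpU S V hV p w x = invBrU S V hV w (locW S V hV w
      (x : (restrictLevels (globalLevels S) V hV).H2 (Rep.res V.subtype (JSp S)))) := rfl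

/-- binder `hinjp` of slot A3 -/
theorem hinjp_U (p : ℕ)
    (x : primary p ((restrictLevels (globalLevels S) V hV).H2 (Rep.res V.subtype (JSp S))))
    (h : ∀ w, invJpU S V hV p w x = 0) : x = 0 :=
  Subtype.ext (invJU_jointly_injective S V hV _ h)

/-- binder `hsurjp` of slot A3 -/
theorem hsurjp_U {p : ℕ} (hp : p.Prime) (hpS : (⟨p, hp⟩ : Nat.Primes) ∈ S)
    (t : PlaceV S V hV → QZ) (n : ℕ) (ht : ∀ w, (p ^ n) • t w = 0) :
    ∃ x : primary p ((restrictLevels (globalLevels S) V hV).H2 (Rep.res V.subtype (JSp S))),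
      (p ^ n) • x = 0 ∧ ∀ w, invJpU S V hV p w x = t w := by
  obtain ⟨x, hx, hxt⟩ := invJU_surj S V hV hp hpS t n ht
  exact ⟨⟨x, n, hx⟩, Subtype.ext hx, hxt⟩

/-- the sum of the local invariants is the total invariant `invJS` -/
theorem sum_invJU
    (x : (restrictLevels (globalLevels S) V hV).H2 (Rep.res V.subtype (JSp S))) :
    ∑ w, invJU S V hV w x = invJS S V hV x := by
  rw [invJS_apply]
  rfl

theorem sum_invJpU (p : ℕ)
    (x : primary p ((restrictLevels (globalLevels S) V hV).H2 (Rep.res V.subtype (JSp S)))) :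
    ∑ w, invJpU S V hV p w x = invJS S V hV
      (x : (restrictLevels (globalLevels S) V hV).H2 (Rep.res V.subtype (JSp S))) :=
  sum_invJU S V hV _

end Fermat.Agent.S55.GlobalMod94.JSideTotal
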