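/-
S55 / 52-JS-LIMIT (helper94): EXPLICIT Mackey–Shapiro in degree 2: for `φ : Γ →* G`, `A : Rep k Γ`
and a subgroup `H ≤ G`, the 2-cocycles of `Res_H (Coind_φ A)` are controlled by their
localisations
  `shx₂ x f (τ₁, τ₂) = (f (x⁻¹ φ τ₁ x, x⁻¹ φ τ₂ x)).1 x`   (`τᵢ ∈ Γ_x = {τ | x⁻¹ φ τ x ∈ H}`)
at a system of representatives `x` of the double cosets `φ(Γ) \ G / H`
(helper73's `Idele73.Mackey`): JOINT injectivity (`mem_coboundaries₂_of_shx₂`) and surjectivity
with prescribed components (`exists_cocycle_shx₂_eq`).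
-/
import Fermat.Agent.S55.GlobalMod94.ExplicitShapiro
import Fermat.Agent.S55.Idele73.Mackey

set_option autoImplicit false

open CategoryTheory groupCohomology

namespace Fermat.Agent.S55.GlobalMod94.ExplicitMackey

open Fermat.Agent.S55.Idele73 Fermat.Agent.S55.GlobalMod94.ExplicitShapiro

/-! ### functoriality of low-degree cochains in the coefficients -/

section Coeff

variable {k G : Type} [CommRing k] [Group G] {M N : Rep.{0} k G} (g : M ⟶ N)

/-- post-composition of 1-cochains with a morphism of representations -/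
def cmap₁ : (G → M) →ₗ[k] (G → N) where
  toFun y h := g.hom (y h)
  map_add' y y' := by funext h; exact map_add g.hom.toLinearMap (y h) (y' h)
  map_smul' c y := by funext h; exact map_smul g.hom.toLinearMap c (y h)

/-- post-composition of 2-cochains with a morphism of representations -/
def cmap₂ : (G × G → M) →ₗ[k] (G × G → N) where
  toFun f p := g.hom (f p)
  map_add' f f' := by funext p; exact map_add g.hom.toLinearMap (f p) (f' p)
  map_smul' c f := by funext p; exact map_smul g.hom.toLinearMap c (f p)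

@[simp] lemma cmap₁_apply (y : G → M) (h : G) : cmap₁ g y h = g.hom (y h) := rfl
@[simp] lemma cmap₂_apply (f : G × G → M) (p : G × G) : cmap₂ g f p = g.hom (f p) := rfl

lemma cmap₂_d₁₂ (y : G → M) : cmap₂ g ((d₁₂ M).hom y) = (d₁₂ N).hom (cmap₁ g y) := by
  funext p
  rw [cmap₂_apply, d₁₂_hom_apply, d₁₂_hom_apply]
  have h1 : g.hom (M.ρ p.1 (y p.2) - y (p.1 * p.2) + y p.1) =
      g.hom (M.ρ p.1 (y p.2)) - g.hom (y (p.1 * p.2)) + g.hom (y p.1) := by
    have := map_add g.hom.toLinearMap (M.ρ p.1 (y p.2) - y (p.1 * p.2)) (y p.1)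
    have h2 := map_sub g.hom.toLinearMap (M.ρ p.1 (y p.2)) (y (p.1 * p.2))
    exact this.trans (congrArg (· + _) h2)
  rw [h1, Rep.hom_comm_apply]
  rfl

lemma cmap₂_mem_cocycles₂ {f : G × G → M} (hf : f ∈ cocycles₂ M) : cmap₂ g f ∈ cocycles₂ N := by
  rw [mem_cocycles₂_iff] at hf ⊢
  intro a b c
  have h := congrArg g.hom (hf a b c)
  have e1 : g.hom (f (a * b, c) + f (a, b)) = g.hom (f (a * b, c)) + g.hom (f (a, b)) :=
    map_add g.hom.toLinearMap _ _
  have e2 : g.hom (M.ρ a (f (b, c)) + f (a, b * c)) =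
      g.hom (M.ρ a (f (b, c))) + g.hom (f (a, b * c)) := map_add g.hom.toLinearMap _ _
  rw [e1, e2, Rep.hom_comm_apply] at h
  exact h

lemma cmap₂_mem_coboundaries₂ {f : G × G → M} (hf : f ∈ coboundaries₂ M) :
    cmap₂ g f ∈ coboundaries₂ N := by
  obtain ⟨y, rfl⟩ := hf
  exact ⟨cmap₁ g y, (cmap₂_d₁₂ g y).symm⟩

end Coeff

variable {k : Type} [CommRing k] {Γ G : Type} [Group Γ] [Group G] (φ : Γ →* G) (A : Rep.{0} k Γ)
variable (H : Subgroup G) (x : G)

/-- the coefficient module of the `x`-component: `A` restricted to `Γ_x` -/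
noncomputable abbrev Ax : Rep.{0} k (Mackey.twSub φ H x) := Rep.res (Mackey.twSub φ H x).subtype A

/-- **localisation at the double coset of `x`** on 2-cochains:
`shx₂ x f (τ₁, τ₂) = (f (x⁻¹ φ τ₁ x, x⁻¹ φ τ₂ x)).1 x` -/
noncomputable def shx₂ :
    (H × H → Mackey.resCoind φ A H) →ₗ[k] (Mackey.twSub φ H x × Mackey.twSub φ H x → Ax φ A H x) :=
  (sh₂ (Mackey.twHom φ H x) (Ax φ A H x)).comp (cmap₂ (Mackey.toComp φ A H x))

/-- localisation on 1-cochains -/
noncomputable def shx₁ :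
    (H → Mackey.resCoind φ A H) →ₗ[k] (Mackey.twSub φ H x → Ax φ A H x) :=
  (sh₁ (Mackey.twHom φ H x) (Ax φ A H x)).comp (cmap₁ (Mackey.toComp φ A H x))

lemma shx₂_apply (f : H × H → Mackey.resCoind φ A H)
    (τ : Mackey.twSub φ H x × Mackey.twSub φ H x) :
    shx₂ φ A H x f τ =
      (f (Mackey.twHom φ H x τ.1, Mackey.twHom φ H x τ.2)).1 (x * ((1 : H) : G)) := rfl

lemma shx₂_apply' (f : H × H → Mackey.resCoind φ A H)
    (τ : Mackey.twSub φ H x × Mackey.twSub φ H x) :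
    shx₂ φ A H x f τ = (f (Mackey.twHom φ H x τ.1, Mackey.twHom φ H x τ.2)).1 x := by
  rw [shx₂_apply, Subgroup.coe_one, mul_one]

lemma shx₁_apply (y : H → Mackey.resCoind φ A H) (τ : Mackey.twSub φ H x) :
    shx₁ φ A H x y τ = (y (Mackey.twHom φ H x τ)).1 (x * ((1 : H) : G)) := rfl

theorem shx₂_d₁₂ (y : H → Mackey.resCoind φ A H) :
    shx₂ φ A H x ((d₁₂ (Mackey.resCoind φ A H)).hom y) =
      (d₁₂ (Ax φ A H x)).hom (shx₁ φ A H x y) := by
  show sh₂ (Mackey.twHom φ H x) (Ax φ A H x) (cmap₂ (Mackey.toComp φ A H x)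
    ((d₁₂ (Mackey.resCoind φ A H)).hom y)) = _
  rw [cmap₂_d₁₂, sh₂_d₁₂]
  rfl

theorem shx₂_mem_cocycles₂ {f : H × H → Mackey.resCoind φ A H}
    (hf : f ∈ cocycles₂ (Mackey.resCoind φ A H)) :
    shx₂ φ A H x f ∈ cocycles₂ (Ax φ A H x) :=
  sh₂_mem_cocycles₂ (Mackey.twHom φ H x) (Ax φ A H x)
    (cmap₂_mem_cocycles₂ (Mackey.toComp φ A H x) hf)

theorem isInfl₂_shx₂ (f : H × H → Mackey.resCoind φ A H) :
    IsInfl₂ (Mackey.twHom φ H x) (Ax φ A H x) (shx₂ φ A H x f) :=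
  isInfl₂_sh₂ (φ := Mackey.twHom φ H x) (A := Ax φ A H x) (cmap₂ (Mackey.toComp φ A H x) f)

theorem isInfl₁_shx₁ (y : H → Mackey.resCoind φ A H) :
    IsInfl₁ (Mackey.twHom φ H x) (Ax φ A H x) (shx₁ φ A H x y) :=
  isInfl₁_sh₁ (φ := Mackey.twHom φ H x) (A := Ax φ A H x) (cmap₁ (Mackey.toComp φ A H x) y)

variable {φ A H}

/-- **explicit Mackey–Shapiro, JOINT injectivity in degree 2**: a 2-cocycle of
`Res_H (Coind_φ A)` all of whose localisations at a system of representatives of the double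
cosets are coboundaries of inflated 1-cochains is a coboundary. -/
theorem mem_coboundaries₂_of_shx₂ {R : Finset G} (hR : Mackey.IsRepr φ H R)
    {f : H × H → Mackey.resCoind φ A H} (hf : f ∈ cocycles₂ (Mackey.resCoind φ A H))
    (h : ∀ x ∈ R, ∃ b : Mackey.twSub φ H x → Ax φ A H x,
      IsInfl₁ (Mackey.twHom φ H x) (Ax φ A H x) b ∧
        shx₂ φ A H x f = (d₁₂ (Ax φ A H x)).hom b) :
    f ∈ coboundaries₂ (Mackey.resCoind φ A H) := by
  classical
  -- every component of `f` is a coboundary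
  have hcomp : ∀ x ∈ R, ∃ y : H → Mackey.comp φ A H x,
      cmap₂ (Mackey.toComp φ A H x) f = (d₁₂ (Mackey.comp φ A H x)).hom y := by
    intro x hx
    obtain ⟨b, hb, hfb⟩ := h x hx
    obtain ⟨y, hy⟩ := mem_coboundaries₂_of_sh₂ (cmap₂_mem_cocycles₂ (Mackey.toComp φ A H x) hf)
      hb hfb
    exact ⟨y, hy.symm⟩
  choose! y hy using hcomp
  refine ⟨∑ x ∈ R, cmap₁ (Mackey.fromComp φ A H x) (y x), ?_⟩
  rw [map_sum]
  have h1 : ∀ x ∈ R, (d₁₂ (Mackey.resCoind φ A H)).hom (cmap₁ (Mackey.fromComp φ A H x) (y x)) =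
      cmap₂ (Mackey.toComp φ A H x ≫ Mackey.fromComp φ A H x) f := by
    intro x hx
    rw [← cmap₂_d₁₂, ← hy x hx]
    rfl
  rw [Finset.sum_congr rfl h1]
  funext p
  rw [Finset.sum_apply]
  have h2 : ∀ x ∈ R, cmap₂ (Mackey.toComp φ A H x ≫ Mackey.fromComp φ A H x) f p =
      (Mackey.toComp φ A H x ≫ Mackey.fromComp φ A H x).hom (f p) := fun x _ => rfl
  rw [Finset.sum_congr rfl h2]
  have h3 := congrArg (fun g : Mackey.resCoind φ A H ⟶ Mackey.resCoind φ A H => g.hom (f p))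
    (Mackey.sum_toComp_fromComp φ A H hR)
  simp only [Rep.sum_hom, Representation.IntertwiningMap.sum_apply] at h3
  exact h3

/-- the converse: localisations of coboundaries are coboundaries of inflated cochains -/
theorem shx₂_of_mem_coboundaries₂ {f : H × H → Mackey.resCoind φ A H}
    (hf : f ∈ coboundaries₂ (Mackey.resCoind φ A H)) (x : G) :
    ∃ b : Mackey.twSub φ H x → Ax φ A H x,
      IsInfl₁ (Mackey.twHom φ H x) (Ax φ A H x) b ∧
        shx₂ φ A H x f = (d₁₂ (Ax φ A H x)).hom b := by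
  obtain ⟨y, rfl⟩ := hf
  exact ⟨shx₁ φ A H x y, isInfl₁_shx₁ φ A H x y, shx₂_d₁₂ φ A H x y⟩

lemma cmap₂_comp {k G : Type} [CommRing k] [Group G] {M N P : Rep.{0} k G} (g : M ⟶ N)
    (g' : N ⟶ P) (f : G × G → M) : cmap₂ g' (cmap₂ g f) = cmap₂ (g ≫ g') f := rfl

lemma cmap₂_id {k G : Type} [CommRing k] [Group G] {M : Rep.{0} k G} (f : G × G → M) :
    cmap₂ (𝟙 M) f = f := rfl

lemma cmap₂_zero {k G : Type} [CommRing k] [Group G] {M N : Rep.{0} k G} (f : G × G → M) :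
    cmap₂ (0 : M ⟶ N) f = 0 := rfl

/-- **explicit Mackey–Shapiro, surjectivity in degree 2 with prescribed components**: any family
of inflated 2-cocycles `ξ x` of the groups `Γ_x`, `x` in a system of representatives of the
double cosets, is the family of localisations of ONE 2-cocycle of `Res_H (Coind_φ A)`. -/
theorem exists_cocycle_shx₂_eq {R : Finset G} (hR : Mackey.IsRepr φ H R)
    (ξ : ∀ x : G, Mackey.twSub φ H x × Mackey.twSub φ H x → Ax φ A H x)
    (hξ : ∀ x ∈ R, IsInfl₂ (Mackey.twHom φ H x) (Ax φ A H x) (ξ x) ∧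
      ξ x ∈ cocycles₂ (Ax φ A H x)) :
    ∃ f ∈ cocycles₂ (Mackey.resCoind φ A H), ∀ x ∈ R, shx₂ φ A H x f = ξ x := by
  classical
  have hex : ∀ x ∈ R, ∃ fx : H × H → Mackey.comp φ A H x,
      fx ∈ cocycles₂ (Mackey.comp φ A H x) ∧
        sh₂ (Mackey.twHom φ H x) (Ax φ A H x) fx = ξ x := by
    intro x hx
    obtain ⟨fx, hfx, e⟩ := exists_cocycle_sh₂_eq (hξ x hx).1 (hξ x hx).2
    exact ⟨fx, hfx, e⟩
  choose! fx hfx using hex
  refine ⟨∑ x ∈ R, cmap₂ (Mackey.fromComp φ A H x) (fx x), ?_, ?_⟩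
  · exact Submodule.sum_mem _ (fun x hx => cmap₂_mem_cocycles₂ _ (hfx x hx).1)
  · intro x' hx'
    show sh₂ (Mackey.twHom φ H x') (Ax φ A H x') (cmap₂ (Mackey.toComp φ A H x')
      (∑ x ∈ R, cmap₂ (Mackey.fromComp φ A H x) (fx x))) = ξ x'
    rw [map_sum, map_sum, Finset.sum_eq_single x']
    · rw [cmap₂_comp, Mackey.fromComp_toComp, cmap₂_id]
      exact (hfx x' hx').2
    · intro x hx hne
      rw [cmap₂_comp, Mackey.fromComp_toComp_of_not φ A H x (y := x')
        (fun h => hne (hR.2 x hx x' hx' h)), cmap₂_zero, map_zero]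
    · intro h
      exact absurd hx' h

end Fermat.Agent.S55.GlobalMod94.ExplicitMackey
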