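/-
S55 / 52-JS-LIMIT (helper94): `H²(G_S, J_S)` versus the local Brauer groups, for `V = G_ℚ`:
the family of localisations
  `locq S q := JSloc₂ S q ∘ H2map (proj q) : H²(G_S, J_S) → H²(G_q, ℚ̄_qˣ)`   (`q ∈ S`)
(helper64's `JSH2_64.Main.JSloc₂` on the components of the product `JSp S`) is
* JOINTLY INJECTIVE (`locq_jointly_injective`), and
* JOINTLY SURJECTIVE onto the classes that are SPLIT BY `S` (`exists_locq_eq`), i.e. represented by
  a cocycle inflated from a finite `S`-level (`IsSplitByS`).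
-/
import Fermat.Agent.S55.GlobalMod94.LocSurj
import Fermat.Agent.S55.GlobalMod94.JS
import Fermat.Agent.S55.GlobalMod94.PiCoh
import Fermat.Agent.S55.JSH2_64.Main

set_option autoImplicit false
set_option linter.style.haveILetI false

open CategoryTheory groupCohomology

namespace Fermat.Agent.S55.GlobalMod94.H2Top

open Fermat.Agent.S55.Profin15 Fermat.Agent.S55.Profin15.LevelStr
open Fermat.Agent.S55.Idele73.Basic
open Fermat.Agent.S55.GlobalMod94.Generic Fermat.Agent.S55.GlobalMod94.JS
open Fermat.Agent.S55.GlobalMod94.ExplicitShapiro Fermat.Agent.S55.JSH2_64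

variable (S : Finset Nat.Primes)

section one

variable (q : ℕ) [Fact q.Prime]

/-- the local level cohomology group `H²(G_q, ℚ̄_qˣ)` (full local levels) -/
abbrev BrLoc : Type := (pullLevels (localGaloisToGlobal q)).H2 (localUnits q)

/-- a class of `H²(G_q, ℚ̄_qˣ)` is **split by `S`**: it is represented by a level cocycle which is
inflated from a finite `S`-level `W` of `G_ℚ` (depends only on the images in `G_ℚ / W`, values
fixed by the preimage of `W`) -/
def IsSplitByS (y : BrLoc q) : Prop :=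
  ∃ (W : Subgroup GQ) (_ : W ∈ (globalLevels S).levels) (_ : W.Normal)
    (ξ : Gq q × Gq q → localUnits q)
    (hξ : ξ ∈ (pullLevels (localGaloisToGlobal q)).Z₂ (localUnits q)),
    IsInfl₂ ((QuotientGroup.mk' W).comp (localGaloisToGlobal q)) (localUnits q) ξ ∧
      (pullLevels (localGaloisToGlobal q)).H2π (localUnits q) ⟨ξ, hξ⟩ = y

/-- **surjectivity of the localisation onto the classes split by `S`**, one component -/
theorem exists_JSloc₂_eq {y : BrLoc q} (hy : IsSplitByS S q y) :
    ∃ x : (globalLevels S).H2 (JSq S q), Main.JSloc₂ S q x = y := by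
  obtain ⟨W, hW, hWn, ξ, hξ, hinfl, rfl⟩ := hy
  obtain ⟨c, hc, hloc⟩ := LocSurj.exists_Z₂_locFun_eq (globalLevels S)
    (localGaloisToGlobal q) (localUnits q) hW
    (((pullLevels (localGaloisToGlobal q)).mem_Z₂_iff (localUnits q) ξ).1 hξ).1 hinfl
  refine ⟨(globalLevels S).H2π _ ⟨c, hc⟩, ?_⟩
  rw [Main.JSloc₂_H2π]
  congr 1
  exact Subtype.ext hloc

end one

/-- the projection of `J_S` to its `q`-component, as an equivariant linear map -/
noncomputable abbrev prq (q : ↥S) : (JSp S) →ₗ[ℤ] (JSq S ((q : Nat.Primes) : ℕ)) :=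
  (piProj (fun q : ↥S => JSq S ((q : Nat.Primes) : ℕ)) q).hom.toLinearMap

lemma prq_equivariant (q : ↥S) : IsEquivariant (A := JSp S) (B := JSq S ((q : Nat.Primes) : ℕ))
    (prq S q) :=
  PiCoh.isEquivariant_piProj _ q

/-- **the localisation at `q ∈ S`**: `H²(G_S, J_S) → H²(G_q, ℚ̄_qˣ)` -/
noncomputable def locq (q : ↥S) : (globalLevels S).H2 (JSp S) →ₗ[ℤ] BrLoc ((q : Nat.Primes) : ℕ) :=
  (Main.JSloc₂ S ((q : Nat.Primes) : ℕ)) ∘ₗ
    ((globalLevels S).H2map (prq S q) (prq_equivariant S q))

lemma locq_apply (q : ↥S) (x : (globalLevels S).H2 (JSp S)) :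
    locq S q x = Main.JSloc₂ S ((q : Nat.Primes) : ℕ)
      ((globalLevels S).H2map (prq S q) (prq_equivariant S q) x) := rfl

/-- **(H2) for `J_S`, `V = G_ℚ`**: the localisations at the primes of `S` are jointly
injective -/
theorem locq_jointly_injective (x : (globalLevels S).H2 (JSp S))
    (h : ∀ q : ↥S, locq S q x = 0) : x = 0 := by
  refine PiCoh.H2_eq_zero_of_pr (globalLevels S) (prq S) (prq_equivariant S)
    (PiCoh.bijective_piProj _) x (fun q => ?_)
  apply Main.JSloc₂_injective S ((q : Nat.Primes) : ℕ)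
  rw [map_zero]
  exact h q

/-- **formal `hsurj` for `J_S`, `V = G_ℚ`**: any family of local classes split by `S` is the
family of localisations of one class of `H²(G_S, J_S)` -/
theorem exists_locq_eq (y : ∀ q : ↥S, BrLoc ((q : Nat.Primes) : ℕ))
    (hy : ∀ q : ↥S, IsSplitByS S ((q : Nat.Primes) : ℕ) (y q)) :
    ∃ x : (globalLevels S).H2 (JSp S), ∀ q : ↥S, locq S q x = y q := by
  have h1 : ∀ q : ↥S, ∃ xq : (globalLevels S).H2 (JSq S ((q : Nat.Primes) : ℕ)),
      Main.JSloc₂ S ((q : Nat.Primes) : ℕ) xq = y q := fun q =>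
    exists_JSloc₂_eq S ((q : Nat.Primes) : ℕ) (hy q)
  choose xq hxq using h1
  obtain ⟨x, hx⟩ := PiCoh.exists_H2_pr_eq (globalLevels S) (prq S) (prq_equivariant S)
    (PiCoh.bijective_piProj _) xq
  exact ⟨x, fun q => by rw [locq_apply, hx q, hxq q]⟩

/-- torsion is preserved: if all `y q` are killed by `n` then so is the (unique) class `x` -/
theorem nsmul_eq_zero_of_locq (n : ℕ) (x : (globalLevels S).H2 (JSp S))
    (h : ∀ q : ↥S, n • locq S q x = 0) : n • x = 0 := by
  apply locq_jointly_injective S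
  intro q
  rw [map_nsmul]
  exact h q

end Fermat.Agent.S55.GlobalMod94.H2Top
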