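/-
S55 / 52-JS-LIMIT (helper94), (H3J): level `H³(V, J_S) = 0` in helper3's cochain form
`CD3.H3Vanishes`, for every open subgroup `V` of `G_ℚ`, from ONE named local input
`LocalTateH3 q` (`H³(D', Eˣ) = 0` for the subgroups `D'` of the local Galois groups
`Gal(E/ℚ_q)`, `E = ℚ_q(ι L)`: local Tate).

* `h3Vanishes_of_cofinal` : generic degree-3 analogue of helper79's
  `CS79.FinLevel.H2_eq_zero_of_cofinal` (BIG smooth modules, invariant descent data);
* `h3Vanishes_of_pr`      : `H3Vanishes` for finite products;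
* `isZero_H3_Jq`          : `H³(H, Jq q L) = 0` at finite level (helper73's Mackey + Shapiro);
* `h3Vanishes_JSp`        : the result.
-/
import Fermat.Agent.S55.GlobalMod94.H1
import Fermat.Agent.S55.H3Bridge10.LowDegree3

set_option autoImplicit false
set_option linter.style.haveILetI false

universe u

open CategoryTheory groupCohomology

namespace Fermat.Agent.S55.GlobalMod94.H3

open Fermat.Agent.S55.Profin15 Fermat.Agent.S55.Profin15.LevelStr
open Fermat.Agent.S55.Idele73.Basic Fermat.Agent.S55.Idele73.Local Fermat.Agent.S55.CD3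
open Fermat.Agent.S55.CS79.InvDescent Fermat.Agent.S55.CS79.FinLevel
open Fermat.Agent.S55.CS79.Restrict Fermat.Agent.S55.CS79.Smooth
open Fermat.Agent.S55.GlobalMod94.Generic Fermat.Agent.S55.GlobalMod94.JS
open Fermat.Agent.S55.H3Bridge10

/-! ### the generic bridge in degree 3 -/

section Bridge

variable {k Γ : Type u} [CommRing k] [Group Γ] (𝒰 : LevelStr Γ) {A : Rep.{u} k Γ}

/-- a cofinal family of finite levels with vanishing `H³` -/
def CofinalH3Vanishing (𝒰 : LevelStr Γ) (A : Rep.{u} k Γ) : Prop :=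
  ∀ V ∈ 𝒰.levels, ∃ W ∈ 𝒰.levels, W ≤ V ∧
    ∃ (Q : Type u) (_ : Group Q) (p : Γ →* Q) (B : Rep.{u} k Q) (e : B →ₗ[k] A),
      IsInvDescent A p B e ∧ Function.Surjective p ∧ p.ker = W ∧
      ∀ c : Q × Q × Q → B, c ∈ cocycles₃ B → c ∈ coboundaries₃ B

lemma d23_eq_d₂₃ (b : Γ × Γ → A) : CD3.d23 A.ρ b = (d₂₃ A).hom b := by
  funext ⟨g, h, i⟩
  rw [CD3.d23_apply, d₂₃_hom_apply]

/-- **level `H³` of a big smooth module vanishes if `H³(Γ/W, A^W) = 0` for a cofinal family of
levels `W`** (cochain form) -/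
theorem h3Vanishes_of_cofinal (hA : 𝒰.IsSmooth A) (h : CofinalH3Vanishing 𝒰 A) :
    CD3.H3Vanishes 𝒰 A.ρ := by
  intro f hfc hf0
  obtain ⟨V₀, hV₀⟩ := 𝒰.nonempty
  obtain ⟨W₀, hW₀, -, hW₀'⟩ := exists_level_forall_pull₃ hA hfc hV₀
  obtain ⟨W, hW, hle, Q, _, p, B, e, hdesc, hp, hker, hvan⟩ := h W₀ hW₀
  obtain ⟨c, hc⟩ := hW₀' hdesc hp (hker.le.trans hle)
  have hcz : c ∈ cocycles₃ B := by
    rw [mem_cocycles₃_iff']
    intro q1 q2 q3 q4
    obtain ⟨g1, rfl⟩ := hp q1
    obtain ⟨g2, rfl⟩ := hp q2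
    obtain ⟨g3, rfl⟩ := hp q3
    obtain ⟨g4, rfl⟩ := hp q4
    apply hdesc.inj
    have h0 := congrFun hf0 (g1, g2, g3, g4)
    rw [CD3.d34_apply, hc] at h0
    simp only [pull₃_apply, hdesc.equivariant, Pi.zero_apply, map_mul] at h0
    simp only [map_add, map_sub, map_zero]
    exact h0
  obtain ⟨y, hy⟩ := (mem_coboundaries₃_iff B c).1 (hvan c hcz)
  refine ⟨pull₂ p e y, isConst₂_pull₂ hW hker.ge y, ?_⟩
  rw [d23_eq_d₂₃, hdesc.d₂₃_pull₂, hy, hc]

end Bridge

/-! ### finite products -/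

section Pi

variable {k G : Type u} [CommRing k] [Group G] (𝒰 : LevelStr G)
variable {ι : Type*} [Finite ι] {M : Rep.{u} k G} {A : ι → Rep.{u} k G}
variable (pr : ∀ i, M →ₗ[k] A i) (hpr : ∀ i, IsEquivariant (pr i))
variable (hbij : Function.Bijective (fun (m : M) (i : ι) => pr i m))

include hpr hbij in
/-- `H3Vanishes` for a finite product from the factors -/
theorem h3Vanishes_of_pr (h : ∀ i, CD3.H3Vanishes 𝒰 (A i).ρ) : CD3.H3Vanishes 𝒰 M.ρ := by
  intro f hfc hf0
  have hi : ∀ i, ∃ b : G × G → A i, 𝒰.IsConst₂ b ∧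
      CD3.d23 (A i).ρ b = fun x => pr i (f x) := by
    intro i
    refine h i (fun x => pr i (f x)) ?_ ?_
    · obtain ⟨U, hU, hc⟩ := hfc
      exact ⟨U, hU, fun g g' g'' s s' s'' hs hs' hs'' => by
        show pr i (f _) = pr i (f _)
        rw [hc g g' g'' s s' s'' hs hs' hs'']⟩
    · funext ⟨g1, g2, g3, g4⟩
      have h0 := congrArg (pr i) (congrFun hf0 (g1, g2, g3, g4))
      rw [CD3.d34_apply] at h0
      rw [CD3.d34_apply, ← hpr i]
      simp only [map_add, map_sub] at h0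
      simpa using h0
  choose b hbc hb using hi
  have hm : ∀ x : G × G, ∃ m : M, ∀ i, pr i m = b i x := fun x =>
    PiCoh.exists_pr_eq pr hbij (fun i => b i x)
  choose Bm hBm using hm
  refine ⟨Bm, ?_, ?_⟩
  · choose U hU hconst using hbc
    obtain ⟨W, hW, hle⟩ := exists_common_level 𝒰 U hU
    refine ⟨W, hW, fun g g' s s' hs hs' => ?_⟩
    apply PiCoh.pr_ext pr hbij
    intro i
    rw [hBm, hBm]
    exact hconst i g g' s s' (hle i hs) (hle i hs')
  · funext ⟨g1, g2, g3⟩
    apply PiCoh.pr_ext pr hbij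
    intro i
    have h1 := congrFun (hb i) (g1, g2, g3)
    rw [CD3.d23_apply] at h1
    rw [CD3.d23_apply, map_sub, map_add, map_sub, hpr i, hBm, hBm, hBm, hBm]
    exact h1

end Pi

/-! ### the idele module -/

/-- **(H-LT), Idele73 vocabulary**: `H³(D', Eˣ) = 0` for every subgroup `D'` of
`Gal(E/ℚ_q)`, `E = ℚ_q(ι L)`, `L/ℚ` finite Galois (local Tate) -/
def LocalTateH3 (q : ℕ) [Fact q.Prime] : Prop :=
  ∀ (L : IntermediateField ℚ Qbar) [Normal ℚ L] [FiniteDimensional ℚ L]
    (D' : Subgroup (DE q L)),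
    Limits.IsZero (groupCohomology (Rep.res D'.subtype (EUnits q L)) 3)

variable (S : Finset Nat.Primes) (q : ℕ) [Fact q.Prime]

/-- `H³(H, Jq q L) = 0` for every subgroup `H ≤ Gal(L/ℚ)`, from local Tate -/
theorem isZero_H3_Jq (hLT : LocalTateH3 q) (L : IntermediateField ℚ Qbar) [Normal ℚ L]
    [FiniteDimensional ℚ L] (H : Subgroup (GalL L)) :
    Limits.IsZero (groupCohomology (Rep.res H.subtype (Jq q L)) 3) := by
  obtain ⟨R, hR⟩ := Idele73.Mackey.exists_isRepr (jE q L) H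
  refine Limits.IsZero.of_iso ?_
    ((groupCohomology.functor ℤ H 3).mapIso (Idele73.Components.resJqIso q L H).symm)
  exact Idele73.ShapiroInj.isZero_resCoind (jE q L) (jE_injective q L) (EUnits q L) H 3 hR
    (fun x _ => hLT L (Idele73.Mackey.twSub (jE q L) H x))

/-- vanishing of `H³` of a representation in terms of explicit cocycles -/
theorem mem_coboundaries₃_of_isZero {k G : Type} [CommRing k] [Group G] {M : Rep.{0} k G}
    (h : Limits.IsZero (groupCohomology M 3)) (c : G × G × G → M) (hc : c ∈ cocycles₃ M) :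
    c ∈ coboundaries₃ M := by
  have hs : Subsingleton (groupCohomology M 3) := ModuleCat.subsingleton_of_isZero h
  have h0 : H3π M ⟨c, hc⟩ = 0 := Subsingleton.elim _ _
  exact (H3π_eq_zero_iff M ⟨c, hc⟩).1 h0

variable (V : Subgroup GQ) (hV : IsOpenSub (globalLevels S) V)

theorem cofinalH3Vanishing_JSq (hLT : LocalTateH3 q) :
    CofinalH3Vanishing (restrictLevels (globalLevels S) V hV)
      (Rep.res V.subtype (JSq S q)) := by
  rintro V' ⟨W, hW, hWV, rfl⟩
  refine ⟨W.subgroupOf V, ⟨W, hW, hWV, rfl⟩, le_rfl, ?_⟩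
  obtain ⟨hWn, L, hL, rfl⟩ := hW
  haveI : Normal ℚ L := H1.normal_of_fixingSubgroup_normal L hWn
  haveI : FiniteDimensional ℚ L := hL.1
  have hker : (resL L).ker ≤ V := by
    rw [CS79.Limit.resL_ker]
    exact hWV
  refine ⟨↥(V.map (resL L)), inferInstance, resHom (resL L) V,
    Rep.res (V.map (resL L)).subtype (Rep.coind (locHom q L) (localUnits q)),
    CS79.Limit.levelIncl S q L hL (localUnits q),
    isInvDescent_res (CS79.Limit.isInvDescent_levelIncl S q L hL (localUnits q)) V hker,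
    resHom_surjective _ _, ?_, ?_⟩
  · rw [resHom_ker, CS79.Limit.resL_ker]
  · intro c hc
    exact mem_coboundaries₃_of_isZero (isZero_H3_Jq q hLT L (V.map (resL L))) c hc

/-- **(H3J), one component** -/
theorem h3Vanishes_JSq (hLT : LocalTateH3 q) :
    CD3.H3Vanishes (restrictLevels (globalLevels S) V hV) (Rep.res V.subtype (JSq S q)).ρ :=
  h3Vanishes_of_cofinal _ (isSmooth_res (CS79.Limit.isSmooth_JS S q (localUnits q)) hV)
    (cofinalH3Vanishing_JSq S q V hV hLT)

/-- **(H3J)**: level `H³(V, J_S) = 0` for every open subgroup `V` of `G_ℚ`, from local Tate at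
the primes of `S` -/
theorem h3Vanishes_JSp (hLT : ∀ q : ↥S, LocalTateH3 ((q : Nat.Primes) : ℕ)) :
    CD3.H3Vanishes (restrictLevels (globalLevels S) V hV) (Rep.res V.subtype (JSp S)).ρ :=
  h3Vanishes_of_pr (restrictLevels (globalLevels S) V hV)
    (M := Rep.res V.subtype (JSp S))
    (A := fun q : ↥S => Rep.res V.subtype (JSq S ((q : Nat.Primes) : ℕ)))
    (fun q => LinearMap.proj q) (fun q g m => rfl) Function.bijective_id
    (fun q => h3Vanishes_JSq S ((q : Nat.Primes) : ℕ) V hV (hLT q))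

end Fermat.Agent.S55.GlobalMod94.H3
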