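/-
S55 / 52f-HS-ASSEMBLY (helper94): THE TOTAL `S`-IDELE INVARIANT OF AN INFLATED CLASS IS THE
FINITE-LEVEL SUM SYSTEM (seam (G3) of slot A3, binder `hS` of the limit total invariant).

For an open `V ≤ G_ℚ`, a Galois `S`-level `L` with `Gal(ℚbar/L) ≤ V`, `H = V.map (resL L) =
Gal(L/K)`, and a class `y ∈ H²(H, J_S(L))`:

  `∑_{w ∣ S} inv_w (loc_w (infl y)) = ∑_{q ∈ S} (coindSys I_q).S H ((JqIso q L)⁻¹ ∘ y_q)`

for ANY local invariants `inv_w` and local systems `I_q` linked by the purely local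
compatibility (LOC) (`LocLink`).  Proof = helper64's `CoindCompat.sum_locw_eq_coindS` at every
`q ∈ S`, fed with the explicit inflated cocycle `jIncl ∘ y ∘ (resL × resL)` of helper79's family
`famJ S` restricted to `V`.
-/
import Fermat.Agent.S55.GlobalMod94.JSideTotal
import Fermat.Agent.S55.JSH2_64.CoindCompat
import Fermat.Agent.S55.CS79.FormationCS
import Fermat.Agent.S55.P2Local71.PresFinal
import Fermat.Agent.S55.IdeleCoh54.IdealSys
import Fermat.Agent.S55.CycloRecip37.SysMore

set_option autoImplicit false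
set_option linter.style.haveILetI false
set_option linter.unusedSectionVars false

open CategoryTheory groupCohomology

namespace Fermat.Agent.S55.GlobalMod94.HSAssembly

open Fermat.Agent.S55.Profin15 Fermat.Agent.S55.Profin15.LevelStr
open Fermat.Agent.S55.CD3 Fermat.Agent.S55.Idele73 Fermat.Agent.S55.Idele73.Basic
open Fermat.Agent.S55.Idele73.Local
open Fermat.Agent.S55.CycloRecip37 Fermat.Agent.S55.CycloRecip37.GSys
open Fermat.Agent.S55.CycloRecip37.CoindSys

/-! ### generic lemmas -/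

section Generic

variable {k : Type} [CommRing k] {D G : Type} [Group D] [Group G] {j : D →* G} {A : Rep.{0} k D}
  {T T' : Type*} [AddCommGroup T] [AddCommGroup T']

/-- the coinduced sum of a twisted system is the twist of the coinduced sum -/
theorem coindS_map [Finite G] (I : Sys A T) (e : T →+ T') (H : Subgroup G)
    (f : G × G → Rep.coind j A) : coindS (I.map e) H f = e (coindS I H f) := by
  unfold coindS
  rw [map_sum]
  rfl

/-- transport of a coinduced module along an equality of homomorphisms does not change the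
values -/
theorem eqToHom_coind_apply {φ φ' : D →* G} (h : φ = φ') (w : Rep.coind φ A) (g : G) :
    ((eqToHom (congrArg (fun ψ => Rep.coind ψ A) h)).hom w).1 g = w.1 g := by
  subst h
  rfl

end Generic

section GenericRep

universe u

variable {k G : Type u} [CommRing k] [Group G]

/-- composition of morphisms of representations, on elements (generic, so that the kernel never
unfolds concrete isomorphisms) -/
theorem rep_comp_hom_apply {A B C : Rep.{u, u, u} k G} (f : A ⟶ B) (g : B ⟶ C) (a : A) :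
    (f ≫ g).hom a = g.hom (f.hom a) := rfl

theorem rep_iso_hom_inv_apply {A B : Rep.{u, u, u} k G} (e : A ≅ B) (b : B) :
    e.hom.hom (e.inv.hom b) = b := by
  have h := congrArg (fun φ => φ.hom b) e.inv_hom_id
  exact h

end GenericRep

/-! ### the values of `JqIso` -/

section JqIso

variable (q : ℕ) [Fact q.Prime] (L : IntermediateField ℚ Qbar) [Normal ℚ L]

/-- the transport `eqToHom` inside `JqIso` does not change the values.  (Stated for an ARBITRARY
proof `h` of the equality of the two modules, with the codomain `Jq q L` literally as in the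
definition of `JqIso`, and proved by substituting a VARIABLE homomorphism: the rewriting
instance is then syntactically the term inside `JqIso`, and the kernel never tries to compare
`jE ∘ resE` with `locHom`.) -/
theorem eqToHom_Jq_apply
    (h : Rep.coind ((jE q L).comp (resE q L)) (localUnits q) = Jq q L)
    (X : Rep.coind ((jE q L).comp (resE q L)) (localUnits q)) (g : GalL L) :
    ((eqToHom h).hom X).1 g = X.1 g := by
  have key : ∀ (ψ : Gq q →* GalL L) (_ : ψ = locHom q L)
      (h : Rep.coind ψ (localUnits q) = Jq q L) (X : Rep.coind ψ (localUnits q)),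
      ((eqToHom h).hom X).1 g = X.1 g := by
    intro ψ h0
    subst h0
    intro h X
    rfl
  exact key _ (jE_comp_resE q L) h X

/-- `JqIso` is post-composition with the inclusion `Eˣ → ℚ̄_qˣ` -/
theorem JqIso_hom_apply (w : Rep.coind (jE q L) (EUnits q L)) (g : GalL L) :
    ((JqIso q L).hom.hom w).1 g = eLin q L (w.1 g) := by
  rw [JqIso, Iso.trans_hom, eqToIso.hom, rep_comp_hom_apply, eqToHom_Jq_apply]
  exact CoindSurj.coindCompIso_hom_apply _ _ _ _ _ _ _ _ _ w g

/-- **the defining property of `JqIso`** as a NAMED predicate on an arbitrary isomorphism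
`ι : Coind_{jE} Eˣ ≅ J_q(L)`: it is post-composition with the inclusion `eLin : Eˣ → ℚ̄_qˣ`.
(All the statements below are generic in such a `ι`: the kernel must never evaluate
`(JqIso q L).inv` on an element — it would try to decide `jE ∘ resE ≡ locHom`.) -/
def IsELinIso (ι : Rep.coind (jE q L) (EUnits q L) ≅ Jq q L) : Prop :=
  ∀ (w : Rep.coind (jE q L) (EUnits q L)) (g : GalL L), (ι.hom.hom w).1 g = eLin q L (w.1 g)

theorem isELinIso_JqIso : IsELinIso q L (JqIso q L) := JqIso_hom_apply q L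

/-- for ANY isomorphism `ι` which is post-composition with `eLin`, the inverse is read through
`eLin` -/
theorem eLin_iso_inv_apply (ι : Rep.coind (jE q L) (EUnits q L) ≅ Jq q L)
    (hι : IsELinIso q L ι) (z : Jq q L) (g : GalL L) :
    eLin q L ((ι.inv.hom z).1 g) = z.1 g := by
  have h1 := hι (ι.inv.hom z) g
  rw [rep_iso_hom_inv_apply] at h1
  exact h1.symm

/-- the inverse of `JqIso`, read through `eLin` -/
theorem eLin_JqIso_inv_apply (z : Jq q L) (g : GalL L) :
    eLin q L (((JqIso q L).inv.hom z).1 g) = z.1 g := by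
  have h1 := JqIso_hom_apply q L ((JqIso q L).inv.hom z) g
  rw [rep_iso_hom_inv_apply] at h1
  exact h1.symm

end JqIso

/-! ### the inflated cocycle and the sum over the places -/

section Main

open Fermat.Agent.S55.GlobalMod94.JS Fermat.Agent.S55.GlobalMod94.OpenJS
open Fermat.Agent.S55.GlobalMod94.OpenDatum Fermat.Agent.S55.GlobalMod94.LimitMackey
open Fermat.Agent.S55.GlobalMod94.JSideUncond Fermat.Agent.S55.GlobalMod94.JSideTotal
open Fermat.Agent.S55.CS79.Smooth Fermat.Agent.S55.CS79.ProdPi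
open Fermat.Agent.S55.CS79.FamilyCS Fermat.Agent.S55.CS79.FormationCS
open Fermat.Agent.S55.CS79.LevelClass Fermat.Agent.S55.CS79.InvDescent
open Fermat.Agent.S55.LimDesc99 Fermat.Agent.S55.IdeleCoh54.IdealSys
open Fermat.Agent.S55.IdeleVal44 (InS)
open Fermat.Agent.S55.QZ33

variable (S : Finset Nat.Primes) (V : Subgroup GQ) (hV : IsOpenSub (globalLevels S) V)

/-- the Galois `S`-levels are finite (as a theorem, used as a LOCAL instance below) -/
theorem finDim_lev (i : GalLev S) : FiniteDimensional ℚ i.1 := i.unr.1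

attribute [local instance] finDim_lev

/-- **(LOC), generic form**: the purely local link between local invariants `inv w` on the
Brauer groups of the places above `V` and local systems `I q` at the finite level `i`: the
invariant of the class inflated from a cocycle `g` of the finite decomposition group is the value
of the system on `g`. -/
def LocLinkG {T : Type*} [AddCommGroup T] (i : LevV S V)
    (I : ∀ q : InS S, Sys (EUnits q.1.1 i.1.1) T)
    (inv : ∀ w : PlaceV S V hV, BrW S V hV w →+ T) : Prop :=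
  ∀ (q : InS S) (x : ↥(RS S V hV q)) (g : DE q.1.1 i.1.1 × DE q.1.1 i.1.1 → EUnits q.1.1 i.1.1),
    IsCocOn (EUnits q.1.1 i.1.1)
      (Mackey.twSub (jE q.1.1 i.1.1) (HV S V i) (resL i.1.1 (x : GQ))) g →
    ∀ hz : (fun t : ↥(Mackey.twSub (rS S q) V (x : GQ)) × ↥(Mackey.twSub (rS S q) V (x : GQ)) =>
        eLin q.1.1 i.1.1 (g (resE q.1.1 i.1.1 (t.1 : Gq q.1.1), resE q.1.1 i.1.1 (t.2 : Gq q.1.1)))) ∈
        (𝒱S S V q (x : GQ)).Z₂ (Ax (rS S q) (AS S q) V (x : GQ)),
      inv ⟨q, x⟩ ((𝒱S S V q (x : GQ)).H2π _ ⟨_, hz⟩) =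
        (I q).S (Mackey.twSub (jE q.1.1 i.1.1) (HV S V i) (resL i.1.1 (x : GQ))) g

variable {S V}

/-- **THE CORE (no isomorphism inside)**: for a cocycle `yc` of `H = Gal(L/K)` in `J_S(L)` and
cochains `f q` in the coinduced models `Coind_{jE} Eˣ` which ARE the `q`-components of `yc`
(pointwise, through `eLin`), the sum over the places above `V` of the local invariants of the
localisations of the inflated class is the sum over `q ∈ S` of the coinduced sums. -/
theorem sum_inv_locW_infl₂ {T : Type*} [AddCommGroup T] (i : LevV S V)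
    (I : ∀ q : InS S, Sys (EUnits q.1.1 i.1.1) T)
    (inv : ∀ w : PlaceV S V hV, BrW S V hV w →+ T)
    (hLOC : LocLinkG S V hV i I inv)
    (yc : cocycles₂ (Rep.res (HV S V i).subtype (IdeleVal44.JS i.1.1 S)))
    (f : ∀ q : InS S, GalL i.1.1 × GalL i.1.1 →
      Rep.coind (jE q.1.1 i.1.1) (EUnits q.1.1 i.1.1))
    (hf : ∀ q : InS S, IsCocOn (Rep.coind (jE q.1.1 i.1.1) (EUnits q.1.1 i.1.1)) (HV S V i) (f q))
    (hfy : ∀ (q : InS S) (h h' : ↥(HV S V i)) (g : GalL i.1.1),
      eLin q.1.1 i.1.1 ((f q ((h : GalL i.1.1), (h' : GalL i.1.1))).1 g) =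
        (IdeleVal44.dsRep.toDS (fun q : InS S => Jq q.1.1 i.1.1)
          ((yc : ↥(HV S V i) × ↥(HV S V i) → IdeleVal44.JS i.1.1 S) (h, h')) q).1 g) :
    ∑ w : PlaceV S V hV, inv w (locW S V hV w
        ((((famJ S).restrict V hV).d i).infl₂ ((groupCohomology.H2π _).hom yc))) =
      ∑ q : InS S, coindS (I q) (HV S V i) (f q) := by
  classical
  haveI : Finite (GalL i.1.1) := inferInstance
  have h1 : (((famJ S).restrict V hV).d i).infl₂ ((groupCohomology.H2π _).hom yc) =
      (restrictLevels (globalLevels S) V hV).H2π _ ((((famJ S).restrict V hV).d i).inflZ₂ yc) :=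
    Datum.infl₂_H2π (((famJ S).restrict V hV).d i) yc
  rw [h1]
  have hsig : ∀ F : PlaceV S V hV → T, ∑ w : PlaceV S V hV, F w =
      ∑ q : InS S, ∑ x : ↥(RS S V hV q), F ⟨q, x⟩ := fun F => Fintype.sum_sigma F
  rw [hsig]
  refine Finset.sum_congr rfl (fun q _ => ?_)
  exact JSH2_64.CoindCompat.sum_locw_eq_coindS (globalLevels S) (rS S) (AS S) V hV (RS S V hV)
    (𝒱S S V) (hcontS S V hV) q (resL i.1.1) (resE q.1.1 i.1.1) (jE q.1.1 i.1.1)
    (jE_resE q.1.1 i.1.1) (EUnits q.1.1 i.1.1) (eLin q.1.1 i.1.1) (I q)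
    (resL_surjective i.1.1) (resE_surjective q.1.1 i.1.1) i.2 (isRepr_RS S V hV q)
    (fun x => inv ⟨q, x⟩) (hLOC q) (f q) (hf q)
    ((((famJ S).restrict V hV).d i).inflZ₂ yc)
    (fun v v' γ => (hfy q ⟨resL i.1.1 v, v, v.2, rfl⟩ ⟨resL i.1.1 v', v', v'.2, rfl⟩
      (resL i.1.1 γ)).symm)

/-! ### the same, with the `q`-components read through isomorphisms `Coind_{jE} Eˣ ≅ J_q(L)` -/

/-- the sum system on `J_S(L)` attached to systems `K q` on the coinduced models and isomorphisms
`ι q : Coind_{jE} Eˣ ≅ J_q(L)` (e.g. `K q = coindSys (I q)`, or its twist by `a q`) -/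
noncomputable def jsSysK {T : Type*} [AddCommGroup T] (i : LevV S V)
    (ι : ∀ q : InS S, Rep.coind (jE q.1.1 i.1.1) (EUnits q.1.1 i.1.1) ≅ Jq q.1.1 i.1.1)
    (K : ∀ q : InS S, Sys (Rep.coind (jE q.1.1 i.1.1) (EUnits q.1.1 i.1.1)) T) :
    Sys (IdeleVal44.JS i.1.1 S) T :=
  dsSys (fun q : InS S => Jq q.1.1 i.1.1) (fun q => (K q).comap (ι q).inv)

theorem jsSysK_S {T : Type*} [AddCommGroup T] (i : LevV S V)
    (ι : ∀ q : InS S, Rep.coind (jE q.1.1 i.1.1) (EUnits q.1.1 i.1.1) ≅ Jq q.1.1 i.1.1)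
    (K : ∀ q : InS S, Sys (Rep.coind (jE q.1.1 i.1.1) (EUnits q.1.1 i.1.1)) T)
    (H : Subgroup (GalL i.1.1))
    (F : GalL i.1.1 × GalL i.1.1 → IdeleVal44.JS i.1.1 S) :
    (jsSysK i ι K).S H F = ∑ q : InS S, (K q).S H
      (fun x => (ι q).inv.hom (compC (fun q : InS S => Jq q.1.1 i.1.1) q F x)) := by
  unfold jsSysK
  rw [dsSys_S, finsum_eq_sum_of_fintype]
  rfl

/-- **cocycle form, generic isomorphisms and systems** -/
theorem sum_inv_locW_infl₂_iso {T : Type*} [AddCommGroup T] (i : LevV S V)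
    (I : ∀ q : InS S, Sys (EUnits q.1.1 i.1.1) T)
    (inv : ∀ w : PlaceV S V hV, BrW S V hV w →+ T)
    (hLOC : LocLinkG S V hV i I inv)
    (ι : ∀ q : InS S, Rep.coind (jE q.1.1 i.1.1) (EUnits q.1.1 i.1.1) ≅ Jq q.1.1 i.1.1)
    (hι : ∀ q : InS S, IsELinIso q.1.1 i.1.1 (ι q))
    (K : ∀ q : InS S, Sys (Rep.coind (jE q.1.1 i.1.1) (EUnits q.1.1 i.1.1)) T)
    (hK : ∀ (q : InS S) (f : GalL i.1.1 × GalL i.1.1 →
        Rep.coind (jE q.1.1 i.1.1) (EUnits q.1.1 i.1.1)),
      IsCocOn (Rep.coind (jE q.1.1 i.1.1) (EUnits q.1.1 i.1.1)) (HV S V i) f →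
      (K q).S (HV S V i) f = coindS (I q) (HV S V i) f)
    (yc : cocycles₂ (Rep.res (HV S V i).subtype (IdeleVal44.JS i.1.1 S))) :
    ∑ w : PlaceV S V hV, inv w (locW S V hV w
        ((((famJ S).restrict V hV).d i).infl₂ ((groupCohomology.H2π _).hom yc))) =
      (jsSysK i ι K).S (HV S V i) (ext0 (HV S V i) yc.1) := by
  have hf : ∀ q : InS S, IsCocOn (Rep.coind (jE q.1.1 i.1.1) (EUnits q.1.1 i.1.1)) (HV S V i)
      (fun x => (ι q).inv.hom (compC (fun q : InS S => Jq q.1.1 i.1.1) q
        (ext0 (HV S V i) yc.1) x)) := fun q =>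
    hom_isCocOn (ι q).inv
      (isCocOn_compC (fun q : InS S => Jq q.1.1 i.1.1) (isCocOn_ext0 (HV S V i) yc.1 yc.2) q)
  have h2 : (jsSysK i ι K).S (HV S V i) (ext0 (HV S V i) yc.1) =
      ∑ q : InS S, coindS (I q) (HV S V i)
        (fun x => (ι q).inv.hom (compC (fun q : InS S => Jq q.1.1 i.1.1) q
          (ext0 (HV S V i) yc.1) x)) :=
    (jsSysK_S i ι K (HV S V i) (ext0 (HV S V i) yc.1)).trans
      (Finset.sum_congr rfl (fun q _ => hK q _ (hf q)))
  refine Eq.trans ?_ h2.symm
  refine sum_inv_locW_infl₂ hV i I inv hLOC yc _ hf (fun q h h' g => ?_)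
  have e1 : ext0 (HV S V i) yc.1 ((h : GalL i.1.1), (h' : GalL i.1.1)) = yc.1 (h, h') :=
    ext0_of_mem (HV S V i) yc.1 h.2 h'.2
  have h3 := eLin_iso_inv_apply q.1.1 i.1.1 (ι q) (hι q)
    (compC (fun q : InS S => Jq q.1.1 i.1.1) q (ext0 (HV S V i) yc.1)
      ((h : GalL i.1.1), (h' : GalL i.1.1))) g
  refine h3.trans ?_
  exact congrArg (fun z : IdeleVal44.JS i.1.1 S =>
    (IdeleVal44.dsRep.toDS (fun q : InS S => Jq q.1.1 i.1.1) z q).1 g) e1

/-- **`H²` form, generic isomorphisms and systems** -/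
theorem sum_inv_locW_infl₂_toH2 {T : Type*} [AddCommGroup T] (i : LevV S V)
    (I : ∀ q : InS S, Sys (EUnits q.1.1 i.1.1) T)
    (inv : ∀ w : PlaceV S V hV, BrW S V hV w →+ T)
    (hLOC : LocLinkG S V hV i I inv)
    (ι : ∀ q : InS S, Rep.coind (jE q.1.1 i.1.1) (EUnits q.1.1 i.1.1) ≅ Jq q.1.1 i.1.1)
    (hι : ∀ q : InS S, IsELinIso q.1.1 i.1.1 (ι q))
    (K : ∀ q : InS S, Sys (Rep.coind (jE q.1.1 i.1.1) (EUnits q.1.1 i.1.1)) T)
    (hK : ∀ (q : InS S) (f : GalL i.1.1 × GalL i.1.1 →
        Rep.coind (jE q.1.1 i.1.1) (EUnits q.1.1 i.1.1)),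
      IsCocOn (Rep.coind (jE q.1.1 i.1.1) (EUnits q.1.1 i.1.1)) (HV S V i) f →
      (K q).S (HV S V i) f = coindS (I q) (HV S V i) f)
    (y : H2 (Rep.res (HV S V i).subtype (IdeleVal44.JS i.1.1 S))) :
    ∑ w : PlaceV S V hV, inv w (locW S V hV w ((((famJ S).restrict V hV).d i).infl₂ y)) =
      SysMore.toH2 (jsSysK i ι K) (HV S V i) y := by
  induction y using H2_induction_on with
  | h yc =>
    exact (sum_inv_locW_infl₂_iso hV i I inv hLOC ι hι K hK yc).trans
      (SysMore.toH2_H2π (jsSysK i ι K) (HV S V i) yc).symm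

/-! ### concrete: `JqIso`, helper71's `locSys71`, the unconditional local invariants `invBrU`,
and a twist `a q : ℚ/ℤ →+ ℚ/ℤ` at every `q ∈ S` -/

variable (S V)

/-- **(LOC)** for the unconditional local invariants `invBrU` (helper28's `invW`) and helper71's
local systems `locSys71` at the finite level `i` (= helper64's `LocCompat`), in literal form:
the local invariant of the class inflated from a cocycle `g` of the finite decomposition group
`D' = twSub (jE q L) (Gal(L/K)) (x mod L)` is the value of `locSys71 q L` at `D'` on `g`. -/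
def LocLink (i : LevV S V) : Prop :=
  ∀ (q : InS S) (x : ↥(RS S V hV q)) (g : DE q.1.1 i.1.1 × DE q.1.1 i.1.1 → EUnits q.1.1 i.1.1),
    IsCocOn (EUnits q.1.1 i.1.1)
      (Mackey.twSub (jE q.1.1 i.1.1) (HV S V i) (resL i.1.1 (x : GQ))) g →
    ∀ hz : (fun t : ↥(Mackey.twSub (rS S q) V (x : GQ)) × ↥(Mackey.twSub (rS S q) V (x : GQ)) =>
        eLin q.1.1 i.1.1 (g (resE q.1.1 i.1.1 (t.1 : Gq q.1.1), resE q.1.1 i.1.1 (t.2 : Gq q.1.1)))) ∈
        (𝒱S S V q (x : GQ)).Z₂ (Ax (rS S q) (AS S q) V (x : GQ)),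
      invBrU S V hV ⟨q, x⟩ ((𝒱S S V q (x : GQ)).H2π _ ⟨_, hz⟩) =
        (P2Local71.locSys71 q.1 i.1.1).S
          (Mackey.twSub (jE q.1.1 i.1.1) (HV S V i) (resL i.1.1 (x : GQ))) g

/-- (LOC) in the generic vocabulary -/
theorem locLinkG_of_locLink (i : LevV S V) (h : LocLink S V hV i) :
    LocLinkG S V hV i (fun q => P2Local71.locSys71 q.1 i.1.1)
      (fun w => (invBrU S V hV w).toAddMonoidHom) :=
  fun q x g hg hz => h q x g hg hz

/-- (LOC) survives a twist of the values -/
theorem locLinkG_twist (a : InS S → QZ →+ QZ) (i : LevV S V) (h : LocLink S V hV i) :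
    LocLinkG S V hV i (fun q => (P2Local71.locSys71 q.1 i.1.1).map (a q))
      (fun w => (a w.1).comp (invBrU S V hV w).toAddMonoidHom) :=
  fun q x g hg hz => congrArg (a q) (h q x g hg hz)

/-- **the total invariant of `J_S` over `V`, twisted by `a q` at the places above `q`** -/
noncomputable def invJSa (a : InS S → QZ →+ QZ) :
    (restrictLevels (globalLevels S) V hV).H2 (Rep.res V.subtype (JSp S)) →+ QZ :=
  ∑ w : PlaceV S V hV, (a w.1).comp (invJU S V hV w)

theorem invJSa_apply (a : InS S → QZ →+ QZ)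
    (x : (restrictLevels (globalLevels S) V hV).H2 (Rep.res V.subtype (JSp S))) :
    invJSa S V hV a x = ∑ w : PlaceV S V hV, a w.1 (invBrU S V hV w (locW S V hV w x)) := by
  simp only [invJSa, AddMonoidHom.finsetSum_apply]
  rfl

/-- without twist it is `JSideUncond.invJS` -/
theorem invJSa_id
    (x : (restrictLevels (globalLevels S) V hV).H2 (Rep.res V.subtype (JSp S))) :
    invJSa S V hV (fun _ => AddMonoidHom.id QZ) x = invJS S V hV x := by
  rw [invJSa_apply, invJS_apply]
  rfl

variable {S V}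

/-- **the finite-level sum system of the `S`-ideles** `J_S(L)`, twisted by `a`:
`dsSys (fun q => ((coindSys (locSys71 q L)).map (a q)).comap (JqIso q L).inv)` -/
noncomputable def jsSysA (i : LevV S V) (a : InS S → QZ →+ QZ) :
    Sys (IdeleVal44.JS i.1.1 S) QZ :=
  jsSysK i (fun q => JqIso q.1.1 i.1.1)
    (fun q => (coindSys (j := jE q.1.1 i.1.1) (P2Local71.locSys71 q.1 i.1.1)).map (a q))

/-- the definition of `jsSysA`, as a rewriting lemma (structure level: cheap for the kernel).
NOTE: never let the kernel compare `toH2 (jsSysA i a) H y` with its unfolding by `rfl` in APPLIED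
form — rewrite with this lemma instead. -/
theorem jsSysA_eq (i : LevV S V) (a : InS S → QZ →+ QZ) :
    jsSysA i a = jsSysK i (fun q => JqIso q.1.1 i.1.1)
      (fun q => (coindSys (j := jE q.1.1 i.1.1) (P2Local71.locSys71 q.1 i.1.1)).map (a q)) := rfl

/-- `jsSysA` in the vocabulary of helper37's `jqSys` (structure level) -/
theorem jsSysA_eq_dsSys (i : LevV S V) (a : InS S → QZ →+ QZ) :
    jsSysA i a = dsSys (fun q : InS S => Jq q.1.1 i.1.1)
      (fun q => ((coindSys (j := jE q.1.1 i.1.1) (P2Local71.locSys71 q.1 i.1.1)).map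
        (a q)).comap (JqIso q.1.1 i.1.1).inv) := rfl

/-- **THE BINDER `hS`**: the twisted total invariant of a class inflated from the finite level
`i` is the finite-level sum system on it. -/
theorem invJSa_infl₂ (a : InS S → QZ →+ QZ) (i : LevV S V) (hLOC : LocLink S V hV i)
    (y : H2 (Rep.res (HV S V i).subtype (IdeleVal44.JS i.1.1 S))) :
    invJSa S V hV a ((((famJ S).restrict V hV).d i).infl₂ y) =
      SysMore.toH2 (jsSysA i a) (HV S V i) y := by
  rw [jsSysA_eq, invJSa_apply]
  exact sum_inv_locW_infl₂_toH2 hV i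
    (fun q => (P2Local71.locSys71 q.1 i.1.1).map (a q))
    (fun w => (a w.1).comp (invBrU S V hV w).toAddMonoidHom)
    (locLinkG_twist S V hV a i hLOC)
    (fun q => JqIso q.1.1 i.1.1) (fun q => isELinIso_JqIso q.1.1 i.1.1)
    (fun q => (coindSys (j := jE q.1.1 i.1.1) (P2Local71.locSys71 q.1 i.1.1)).map (a q))
    (fun q f _ => (coindS_map (P2Local71.locSys71 q.1 i.1.1) (a q) (HV S V i) f).symm) y

/-- **the binder `hS` in robust form**: for ANY systems `Js i` equal AS STRUCTURES to `jsSysA i a`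
and ANY map `InvS` equal to `invJSa S V hV a` (pass `rfl`, `fun _ => rfl` for your own
definitions: structure-level equalities are cheap for the kernel, applied-level ones are not). -/
theorem hS_of_locLink (a : InS S → QZ →+ QZ) (hLOC : ∀ i : LevV S V, LocLink S V hV i)
    (Js : ∀ i : LevV S V, Sys (IdeleVal44.JS i.1.1 S) QZ) (hJs : ∀ i, Js i = jsSysA i a)
    (InvS : (restrictLevels (globalLevels S) V hV).H2 (Rep.res V.subtype (JSp S)) →+ QZ)
    (hInv : InvS = invJSa S V hV a) (i : LevV S V)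
    (y : H2 (Rep.res (HV S V i).subtype (IdeleVal44.JS i.1.1 S))) :
    InvS ((((famJ S).restrict V hV).d i).infl₂ y) = SysMore.toH2 (Js i) (HV S V i) y := by
  subst hInv
  rw [hJs i]
  exact invJSa_infl₂ hV a i (hLOC i) y

/-- the untwisted case: `JSideUncond.invJS` on inflated classes -/
theorem invJS_infl₂ (i : LevV S V) (hLOC : LocLink S V hV i)
    (y : H2 (Rep.res (HV S V i).subtype (IdeleVal44.JS i.1.1 S))) :
    invJS S V hV ((((famJ S).restrict V hV).d i).infl₂ y) =
      SysMore.toH2 (jsSysA i (fun _ => AddMonoidHom.id QZ)) (HV S V i) y := by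
  rw [← invJSa_id]
  exact invJSa_infl₂ hV _ i hLOC y

end Main

end Fermat.Agent.S55.GlobalMod94.HSAssembly
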