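/-
S55 / 52-JS-LIMIT (helper94): THE LOCALISATIONS AT THE PLACES ABOVE AN OPEN SUBGROUP ARE COMPUTED
ON THE FINITE LAYERS (the `hinvJ` seam of slot A3).

Generic (`OpenDatum` vocabulary: `(Γ, 𝒰)`, family `φ i : H i →* Γ`, `A i`, open `V ≤ Γ`, places
`w = (i, x)`):
* `evw w : Res_{φ_w} Res_V Jtot ⟶ A_w`, `m ↦ (m i)(x)` — evaluation at the place, a morphism of
  representations of the local group `H_w = twSub (φ i) V x` (`evw_hom_apply`);
* `locw_eq` : `locw w = H²(evw w) ∘ res₂` (restriction along `φ_w = twHom (φ i) V x`);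
* `locw_H2π` : the explicit cocycle formula
  `locw w [c] = [(t₁, t₂) ↦ (c (φ_w t₁, φ_w t₂) i)(x)]`;
* `locLayer w hWU : H²(V ⧸ U, Jtot^U) ⟶ H²(H_w ⧸ W, A_w^W)` — the finite-level localisation
  (Mathlib's `groupCohomology.map`, via helper49's `resLayer`, `pushLayer`);
* **`locw_infl₂`** : `locw w (infl₂ x) = infl₂ (locLayer w x)`.
Concrete (`Γ = G_ℚ`, `J_S`): `locW_infl₂`, `comap_twHom_mem_levels`.
-/
import Fermat.Agent.S55.GlobalMod94.OpenJS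
import Fermat.Agent.S55.LevelColim49.Res
import Fermat.Agent.S55.LevelColim49.Nat

set_option autoImplicit false
set_option linter.style.haveILetI false

open CategoryTheory groupCohomology

namespace Fermat.Agent.S55.GlobalMod94.LocLayer

open Fermat.Agent.S55.Profin15 Fermat.Agent.S55.Profin15.LevelStr
open Fermat.Agent.S55.CD3 Fermat.Agent.S55.CS79.Smooth Fermat.Agent.S55.Idele73
open Fermat.Agent.S55.Idele73.Basic
open Fermat.Agent.S55.JSH2_64 Fermat.Agent.S55.GlobalMod94.Generic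
open Fermat.Agent.S55.GlobalMod94.LimitMackey
open Fermat.Agent.S55.GlobalMod94.OpenDatum Fermat.Agent.S55.GlobalMod94.JS
open Fermat.Agent.S55.GlobalMod94.OpenJS
open Fermat.Agent.S55.LevelColim49

/-! ### generic -/

section Generic

variable {k : Type} [CommRing k] {Γ : Type} [Group Γ] (𝒰 : LevelStr Γ)
  {ι : Type} {H : ι → Type} [∀ i, Group (H i)] (φ : ∀ i, H i →* Γ)
  (A : ∀ i, Rep.{0} k (H i)) (V : Subgroup Γ) (hV : IsOpenSub 𝒰 V)
  (R : ι → Finset Γ)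
  (𝒱 : ∀ (i : ι) (x : Γ), LevelStr (Mackey.twSub (φ i) V x))
  (hcont : ∀ (i : ι) (x : Γ), LevelStr.IsContinuous (𝒱 i x) (restrictLevels 𝒰 V hV)
    (Mackey.twHom (φ i) V x))

/-- evaluation at the place `(i, x)`: `m ↦ (m i)(x)`, as a linear map -/
noncomputable def evLin (i : ι) (x : Γ) :
    (Rep.res (Mackey.twHom (φ i) V x) (Rep.res V.subtype (Jtot 𝒰 φ A))) →ₗ[k]
      (Ax (φ i) (A i) V x) where
  toFun m := (smoothIncl 𝒰 (Rep.coind (φ i) (A i))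
    ((show (Rep.res V.subtype (Jtot 𝒰 φ A)) from m) i)).1 x
  map_add' _ _ := rfl
  map_smul' _ _ := rfl

lemma evLin_apply (i : ι) (x : Γ) (m : Rep.res V.subtype (Jtot 𝒰 φ A)) :
    evLin 𝒰 φ A V i x m = (smoothIncl 𝒰 (Rep.coind (φ i) (A i)) (m i)).1 x := rfl

lemma evLin_equivariant (i : ι) (x : Γ) :
    IsEquivariant (A := Rep.res (Mackey.twHom (φ i) V x) (Rep.res V.subtype (Jtot 𝒰 φ A)))
      (B := Ax (φ i) (A i) V x) (evLin 𝒰 φ A V i x) := by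
  intro t m
  show (smoothIncl 𝒰 (Rep.coind (φ i) (A i))
      ((Limit.J 𝒰 (φ i) (A i)).ρ ((Mackey.twHom (φ i) V x t : ↥V) : Γ)
        ((show (Rep.res V.subtype (Jtot 𝒰 φ A)) from m) i))).1 x =
    (A i).ρ (t : H i) ((smoothIncl 𝒰 (Rep.coind (φ i) (A i))
      ((show (Rep.res V.subtype (Jtot 𝒰 φ A)) from m) i)).1 x)
  rw [smoothIncl_ρ]
  show (smoothIncl 𝒰 (Rep.coind (φ i) (A i))
      ((show (Rep.res V.subtype (Jtot 𝒰 φ A)) from m) i)).1
      (x * ((Mackey.twHom (φ i) V x t : ↥V) : Γ)) = _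
  rw [Mackey.coe_twHom]
  have h1 : x * (x⁻¹ * (φ i) (t : H i) * x) = (φ i) (t : H i) * x := by group
  rw [h1]
  exact (smoothIncl 𝒰 (Rep.coind (φ i) (A i))
    ((show (Rep.res V.subtype (Jtot 𝒰 φ A)) from m) i)).2 (t : H i) x

/-- **evaluation at the place `w = (i, x)`**: `m ↦ (m i)(x)`, a morphism of representations of
the local group `H_w` -/
noncomputable def evw (i : ι) (x : Γ) :
    Rep.res (Mackey.twHom (φ i) V x) (Rep.res V.subtype (Jtot 𝒰 φ A)) ⟶ Ax (φ i) (A i) V x :=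
  Rep.ofHom
    (ρ := (Rep.res (Mackey.twHom (φ i) V x) (Rep.res V.subtype (Jtot 𝒰 φ A))).ρ)
    (σ := (Ax (φ i) (A i) V x).ρ)
    { toLinearMap := evLin 𝒰 φ A V i x
      isIntertwining' := fun t => LinearMap.ext fun m => evLin_equivariant 𝒰 φ A V i x t m }

lemma evw_hom_apply (i : ι) (x : Γ) (m : Rep.res V.subtype (Jtot 𝒰 φ A)) :
    (evw 𝒰 φ A V i x).hom m = (smoothIncl 𝒰 (Rep.coind (φ i) (A i)) (m i)).1 x := rfl

/-- the localisation of a `2`-cochain at the place `w = (i, x)`: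
`(t₁, t₂) ↦ (c (φ_w t₁, φ_w t₂) i)(x)` -/
noncomputable def locwFun (w : Place R) (c : ↥V × ↥V → Rep.res V.subtype (Jtot 𝒰 φ A)) :
    ↥(Mackey.twSub (φ w.1) V (w.2 : Γ)) × ↥(Mackey.twSub (φ w.1) V (w.2 : Γ)) →
      Ax (φ w.1) (A w.1) V (w.2 : Γ) :=
  fun t => (smoothIncl 𝒰 (Rep.coind (φ w.1) (A w.1))
    (c (Mackey.twHom (φ w.1) V (w.2 : Γ) t.1, Mackey.twHom (φ w.1) V (w.2 : Γ) t.2) w.1)).1
      (w.2 : Γ)

/-- **the localisation at `w` is restriction along `φ_w` followed by evaluation at the place** -/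
theorem locw_eq (w : Place R) :
    locw 𝒰 φ A V hV R 𝒱 hcont w =
      ((𝒱 w.1 (w.2 : Γ)).H2map (evw 𝒰 φ A V w.1 (w.2 : Γ)).hom.toLinearMap
        (LevelStr.isEquivariant_hom (evw 𝒰 φ A V w.1 (w.2 : Γ)))) ∘ₗ
      (hcont w.1 (w.2 : Γ)).res₂ (Rep.res V.subtype (Jtot 𝒰 φ A)) := by
  apply LinearMap.ext
  intro y
  obtain ⟨c, rfl⟩ := Submodule.Quotient.mk_surjective _ y
  rw [locw_apply]
  show Limit.loc₂ _ _ _ _ _ ((restrictLevels 𝒰 V hV).H2π _ _) = (𝒱 w.1 (w.2 : Γ)).H2π _ _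
  obtain ⟨hz, h⟩ := Limit.loc₂_H2π (restrictLevels 𝒰 V hV) (𝒱 w.1 (w.2 : Γ))
    (Mackey.twHom (φ w.1) V (w.2 : Γ)) (Ax (φ w.1) (A w.1) V (w.2 : Γ)) (hcont w.1 (w.2 : Γ))
    ((restrictLevels 𝒰 V hV).Z₂map (prx 𝒰 (φ w.1) (A w.1) V hV (w.2 : Γ))
      (prx_equivariant 𝒰 (φ w.1) (A w.1) V hV (w.2 : Γ))
      ((restrictLevels 𝒰 V hV).Z₂map (pri 𝒰 φ A V w.1) (pri_equivariant 𝒰 φ A V w.1) c))
  rw [h]
  congr 1
  apply Subtype.ext
  funext t
  show (smoothIncl (restrictLevels 𝒰 V hV) _ (prx 𝒰 (φ w.1) (A w.1) V hV (w.2 : Γ) _)).1 1 = _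
  rw [prx_apply]
  show (smoothIncl 𝒰 (Rep.coind (φ w.1) (A w.1)) _).1 ((w.2 : Γ) * 1) = _
  rw [mul_one]
  rfl

/-- **explicit cocycle formula for the localisation at `w`** -/
theorem locw_H2π (w : Place R)
    (c : ↥((restrictLevels 𝒰 V hV).Z₂ (Rep.res V.subtype (Jtot 𝒰 φ A)))) :
    ∃ hz : locwFun 𝒰 φ A V R w (c : ↥V × ↥V → Rep.res V.subtype (Jtot 𝒰 φ A)) ∈
        (𝒱 w.1 (w.2 : Γ)).Z₂ (Ax (φ w.1) (A w.1) V (w.2 : Γ)),
      locw 𝒰 φ A V hV R 𝒱 hcont w ((restrictLevels 𝒰 V hV).H2π _ c) =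
        (𝒱 w.1 (w.2 : Γ)).H2π _ ⟨_, hz⟩ := by
  rw [locw_eq]
  exact ⟨((𝒱 w.1 (w.2 : Γ)).Z₂map (evw 𝒰 φ A V w.1 (w.2 : Γ)).hom.toLinearMap
    (LevelStr.isEquivariant_hom (evw 𝒰 φ A V w.1 (w.2 : Γ)))
    ((hcont w.1 (w.2 : Γ)).resZ₂ (Rep.res V.subtype (Jtot 𝒰 φ A)) c)).2, rfl⟩

variable {V}

/-- **the finite-level localisation at the place `w`**:
`H²(V ⧸ U, Jtot^U) ⟶ H²(H_w ⧸ W, A_w^W)` for `W ≤ φ_w⁻¹ U` (restriction along
`H_w ⧸ W → V ⧸ U`, then evaluation at the place), in Mathlib's `groupCohomology.map` vocabulary -/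
noncomputable abbrev locLayer (w : Place R) {U : Subgroup ↥V} [U.Normal]
    {W : Subgroup ↥(Mackey.twSub (φ w.1) V (w.2 : Γ))} [W.Normal]
    (hWU : W ≤ U.comap (Mackey.twHom (φ w.1) V (w.2 : Γ))) :
    groupCohomology (layer (Rep.res V.subtype (Jtot 𝒰 φ A)) U) 2 ⟶
      groupCohomology (layer (Ax (φ w.1) (A w.1) V (w.2 : Γ)) W) 2 :=
  resLayer (Mackey.twHom (φ w.1) V (w.2 : Γ)) (Rep.res V.subtype (Jtot 𝒰 φ A)) hWU 2 ≫
    pushLayer (evw 𝒰 φ A V w.1 (w.2 : Γ)) W 2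

/-- **the localisation at `w` is computed on the layers** -/
theorem locw_infl₂ (w : Place R) {U : Subgroup ↥V} [U.Normal]
    {W : Subgroup ↥(Mackey.twSub (φ w.1) V (w.2 : Γ))} [W.Normal]
    (hU : U ∈ (restrictLevels 𝒰 V hV).levels) (hW : W ∈ (𝒱 w.1 (w.2 : Γ)).levels)
    (hWU : W ≤ U.comap (Mackey.twHom (φ w.1) V (w.2 : Γ)))
    (x : groupCohomology (layer (Rep.res V.subtype (Jtot 𝒰 φ A)) U) 2) :
    locw 𝒰 φ A V hV R 𝒱 hcont w
        (infl₂ (Rep.res V.subtype (Jtot 𝒰 φ A)) (restrictLevels 𝒰 V hV) hU x) =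
      infl₂ (Ax (φ w.1) (A w.1) V (w.2 : Γ)) (𝒱 w.1 (w.2 : Γ)) hW
        ((locLayer 𝒰 φ A R w hWU).hom x) := by
  rw [locw_eq, LinearMap.comp_apply,
    res₂_infl₂ (Mackey.twHom (φ w.1) V (w.2 : Γ)) (Rep.res V.subtype (Jtot 𝒰 φ A))
      (hcont w.1 (w.2 : Γ)) hU hW hWU x,
    H2map_infl₂ (evw 𝒰 φ A V w.1 (w.2 : Γ)) (𝒱 w.1 (w.2 : Γ)) hW]
  rfl

end Generic

/-! ### concrete: `Γ = G_ℚ`, `J_S` -/

section Concrete

variable (S : Finset Nat.Primes) (V : Subgroup GQ) (hV : IsOpenSub (globalLevels S) V)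

/-- the pull-back to the decomposition group `G_w` of an `S`-level of `V` is a local level -/
theorem comap_twHom_mem_levels (q : ↥S) (x : GQ) {U₀ : Subgroup GQ}
    (hU₀ : U₀ ∈ (globalLevels S).levels) :
    (U₀.subgroupOf V).comap (Mackey.twHom (rS S q) V x) ∈ (𝒱S S V q x).levels := by
  have hU₀n : U₀.Normal := (globalLevels S).normal U₀ hU₀
  obtain ⟨hn, F, hF, rfl⟩ := hU₀
  refine ⟨F.fixingSubgroup.comap (rS S q),
    ⟨F.fixingSubgroup, ⟨hn, F, hF.1, rfl⟩, rfl⟩, ?_⟩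
  ext t
  rw [Subgroup.mem_comap, Subgroup.mem_subgroupOf, Mackey.coe_twHom, Subgroup.mem_comap,
    Subgroup.mem_comap]
  constructor
  · intro h
    have := hU₀n.conj_mem _ h x
    simpa [mul_assoc] using this
  · intro h
    have := hU₀n.conj_mem _ h x⁻¹
    simpa [mul_assoc] using this

/-- **the finite-level localisation at the place `w`**, `J_S` -/
noncomputable abbrev locLayerW (w : PlaceV S V hV) {U : Subgroup ↥V} [U.Normal]
    {W : Subgroup ↥(Mackey.twSub (rS S w.1) V (w.2 : GQ))} [W.Normal]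
    (hWU : W ≤ U.comap (Mackey.twHom (rS S w.1) V (w.2 : GQ))) :
    groupCohomology (layer (Rep.res V.subtype (JSp S)) U) 2 ⟶
      groupCohomology (layer (Ax (rS S w.1) (AS S w.1) V (w.2 : GQ)) W) 2 :=
  locLayer (globalLevels S) (rS S) (AS S) (RS S V hV) w hWU

/-- **`locW` is computed on the layers** (the `hinvJ` seam) -/
theorem locW_infl₂ (w : PlaceV S V hV) {U : Subgroup ↥V} [U.Normal]
    {W : Subgroup ↥(Mackey.twSub (rS S w.1) V (w.2 : GQ))} [W.Normal]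
    (hU : U ∈ (restrictLevels (globalLevels S) V hV).levels)
    (hW : W ∈ (𝒱S S V w.1 (w.2 : GQ)).levels)
    (hWU : W ≤ U.comap (Mackey.twHom (rS S w.1) V (w.2 : GQ)))
    (x : groupCohomology (layer (Rep.res V.subtype (JSp S)) U) 2) :
    locW S V hV w (infl₂ (Rep.res V.subtype (JSp S)) (restrictLevels (globalLevels S) V hV) hU x) =
      infl₂ (Ax (rS S w.1) (AS S w.1) V (w.2 : GQ)) (𝒱S S V w.1 (w.2 : GQ)) hW
        ((locLayerW S V hV w hWU).hom x) :=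
  locw_infl₂ (globalLevels S) (rS S) (AS S) hV (RS S V hV) (𝒱S S V) (hcontS S V hV) w hU hW hWU x

/-- explicit cocycle formula for `locW` -/
theorem locW_H2π (w : PlaceV S V hV)
    (c : ↥((restrictLevels (globalLevels S) V hV).Z₂ (Rep.res V.subtype (JSp S)))) :
    ∃ hz : locwFun (globalLevels S) (rS S) (AS S) V (RS S V hV) w
        (c : ↥V × ↥V → Rep.res V.subtype (JSp S)) ∈
        (𝒱S S V w.1 (w.2 : GQ)).Z₂ (Ax (rS S w.1) (AS S w.1) V (w.2 : GQ)),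
      locW S V hV w ((restrictLevels (globalLevels S) V hV).H2π _ c) =
        (𝒱S S V w.1 (w.2 : GQ)).H2π _ ⟨_, hz⟩ :=
  locw_H2π (globalLevels S) (rS S) (AS S) V hV (RS S V hV) (𝒱S S V) (hcontS S V hV) w c

end Concrete

end Fermat.Agent.S55.GlobalMod94.LocLayer
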